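import Mathlib

/-!
Modular symbols as functions on pairs of cusps: the action of `GL₂(ℚ)` on `ℙ¹(ℚ)`, congruence
groups inside it, and invariant functions.
-/

set_option autoImplicit false

namespace FermatAgent.Ihara

open Matrix OnePoint
open scoped MatrixGroups

/-- `ℙ¹(ℚ)`. -/
abbrev Cusp := OnePoint ℚ

/-- `GL₂(ℚ)`. -/
abbrev G2 := GL (Fin 2) ℚ

/-- The matrix `!![a, b; c, d]` as an element of `GL₂(ℚ)`. -/
noncomputable def mk2 (a b c d : ℚ) (h : a * d - b * c ≠ 0) : G2 :=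
  GeneralLinearGroup.mkOfDetNeZero !![a, b; c, d] (by rwa [Matrix.det_fin_two_of])

@[simp] theorem val_mk2 (a b c d : ℚ) (h : a * d - b * c ≠ 0) :
    ((mk2 a b c d h : G2) : Matrix (Fin 2) (Fin 2) ℚ) = !![a, b; c, d] := rfl

/-- The inclusion of `SL₂(ℤ)`. -/
noncomputable def slQ : SL(2, ℤ) →* G2 := Matrix.SpecialLinearGroup.mapGL ℚ

@[simp] theorem slQ_apply (g : SL(2, ℤ)) (i j : Fin 2) :
    ((slQ g : G2) : Matrix (Fin 2) (Fin 2) ℚ) i j = (((g : Matrix (Fin 2) (Fin 2) ℤ) i j : ℤ) : ℚ) :=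
  rfl

theorem g2_ext {g h : G2} (h00 : g 0 0 = h 0 0) (h01 : g 0 1 = h 0 1) (h10 : g 1 0 = h 1 0)
    (h11 : g 1 1 = h 1 1) : g = h := by
  refine Units.ext (Matrix.ext fun i j ↦ ?_)
  fin_cases i <;> fin_cases j <;> assumption

theorem mul_apply2 (g h : G2) (i j : Fin 2) :
    (g * h : G2) i j = g i 0 * h 0 j + g i 1 * h 1 j := by
  simp [Matrix.mul_apply, Fin.sum_univ_two]

/-- Proportional matrices act in the same way on cusps. -/
theorem smul_cusp_eq {g h : G2} {c : ℚ} (hc : c ≠ 0) (he : ∀ i j, g i j = c * h i j) (x : Cusp) :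
    g • x = h • x := by
  have hd : ∀ u v : ℚ, c * u / (c * v) = u / v := fun u v ↦ mul_div_mul_left u v hc
  induction x using OnePoint.rec with
  | infty =>
    simp only [smul_infty_eq_ite, he, mul_eq_zero, hc, false_or, hd]
  | coe k =>
    simp only [smul_some_eq_ite, he, mul_assoc, ← mul_add, mul_eq_zero, hc, false_or, hd]

/-- The translation by `y`. -/
noncomputable def shift (y : ℚ) : G2 := GeneralLinearGroup.upperRightHom y

theorem shift_apply (y : ℚ) : ((shift y : G2) : Matrix (Fin 2) (Fin 2) ℚ) = !![1, y; 0, 1] := rfl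

theorem shift_add (y z : ℚ) : shift (y + z) = shift y * shift z :=
  GeneralLinearGroup.upperRightHom.map_add_eq_mul y z

@[simp] theorem shift_zero : shift 0 = 1 := GeneralLinearGroup.upperRightHom.map_zero_eq_one

theorem shift_neg (y : ℚ) : shift (-y) = (shift y)⁻¹ :=
  eq_inv_of_mul_eq_one_left (by rw [← shift_add, neg_add_cancel, shift_zero])

/-- The lower unipotent matrix. -/
noncomputable def lower (t : ℚ) : G2 := mk2 1 0 t 1 (by norm_num)

/-- The diagonal matrix. -/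
noncomputable def diag2 (a d : ℚ) (h : a * d ≠ 0) : G2 := mk2 a 0 0 d (by simpa using h)

@[simp] theorem shift_smul_infty (y : ℚ) : shift y • (∞ : Cusp) = ∞ := by
  simp [smul_infty_eq_ite, shift_apply]

@[simp] theorem shift_smul_coe (y x : ℚ) : shift y • (x : Cusp) = ((x + y : ℚ) : Cusp) := by
  simp [smul_some_eq_ite, shift_apply]

section Invariance

variable {Y k : Type*} [MulAction G2 Y]

/-- `F` is invariant under every element of `H`. -/
def IsInv (H : Set G2) (F : Y → k) : Prop := ∀ g ∈ H, ∀ y, F (g • y) = F y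

/-- Pull back along `g`. -/
def slash (F : Y → k) (g : G2) : Y → k := fun y ↦ F (g • y)

@[simp] theorem slash_apply (F : Y → k) (g : G2) (y : Y) : slash F g y = F (g • y) := rfl

theorem slash_mul (F : Y → k) (g h : G2) : slash (slash F g) h = slash F (g * h) := by
  funext y; simp [mul_smul]

@[simp] theorem slash_one (F : Y → k) : slash F 1 = F := by funext y; simp

theorem IsInv.slash_eq {H : Set G2} {F : Y → k} (hF : IsInv H F) {g : G2} (hg : g ∈ H) :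
    slash F g = F := funext (hF g hg)

theorem IsInv.slash_mul_eq {H : Set G2} {F : Y → k} (hF : IsInv H F) {g : G2} (hg : g ∈ H)
    (h : G2) : slash F (g * h) = slash F h := by rw [← slash_mul, hF.slash_eq hg]

theorem IsInv.mono {H H' : Set G2} {F : Y → k} (hF : IsInv H F) (h : H' ⊆ H) : IsInv H' F :=
  fun g hg ↦ hF g (h hg)

/-- A finite family of matrices which maps `H`-invariant functions to `H'`-invariant ones. -/
def IsCorr {ι : Type*} (H H' : Set G2) (σ : ι → G2) : Prop :=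
  ∀ g ∈ H', ∃ e : ι ≃ ι, ∀ i, ∃ d ∈ H, σ i * g = d * σ (e i)

theorem IsCorr.isInv_sum {ι : Type*} [Fintype ι] [AddCommMonoid k] {H H' : Set G2} {σ : ι → G2}
    (hσ : IsCorr H H' σ) {F : Y → k} (hF : IsInv H F) :
    IsInv H' fun y ↦ ∑ i, F (σ i • y) := by
  intro g hg y
  obtain ⟨e, he⟩ := hσ g hg
  refine (Fintype.sum_equiv e _ _ fun i ↦ ?_)
  obtain ⟨d, hd, hde⟩ := he i
  rw [smul_smul, hde, mul_smul, hF d hd]

theorem isCorr_single {H H' : Set G2} {g : G2} (h : ∀ x ∈ H', g * x * g⁻¹ ∈ H) :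
    IsCorr H H' fun _ : Unit ↦ g :=
  fun x hx ↦ ⟨Equiv.refl _, fun _ ↦ ⟨g * x * g⁻¹, h x hx, by group⟩⟩

end Invariance

/-- `Γ₀(N)` inside `GL₂(ℚ)`. -/
noncomputable def G0 (N : ℕ) : Subgroup G2 := (CongruenceSubgroup.Gamma0 N).map slQ

/-- `Γ(M)` inside `GL₂(ℚ)`. -/
noncomputable def GM (M : ℕ) : Subgroup G2 := (CongruenceSubgroup.Gamma M).map slQ

theorem mem_G0_iff {N : ℕ} {g : G2} :
    g ∈ G0 N ↔ ∃ a b c d : ℤ, a * d - b * c = 1 ∧ (N : ℤ) ∣ c ∧
      g 0 0 = a ∧ g 0 1 = b ∧ g 1 0 = c ∧ g 1 1 = d := by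
  constructor
  · rintro ⟨γ, hγ, rfl⟩
    refine ⟨γ 0 0, γ 0 1, γ 1 0, γ 1 1, ?_, ?_, rfl, rfl, rfl, rfl⟩
    · have := γ.2
      rwa [Matrix.det_fin_two] at this
    · exact (ZMod.intCast_zmod_eq_zero_iff_dvd _ _).mp (CongruenceSubgroup.Gamma0_mem.mp hγ)
  · rintro ⟨a, b, c, d, hdet, hc, ha, hb, hc', hd⟩
    refine ⟨⟨!![a, b; c, d], by rw [Matrix.det_fin_two_of]; exact hdet⟩, ?_, ?_⟩
    · exact CongruenceSubgroup.Gamma0_mem.mpr ((ZMod.intCast_zmod_eq_zero_iff_dvd _ _).mpr hc)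
    · exact g2_ext (by simp [ha]) (by simp [hb]) (by simp [hc']) (by simp [hd])

theorem mem_GM_iff {M : ℕ} {g : G2} :
    g ∈ GM M ↔ ∃ a b c d : ℤ, a * d - b * c = 1 ∧ (M : ℤ) ∣ a - 1 ∧ (M : ℤ) ∣ b ∧
      (M : ℤ) ∣ c ∧ (M : ℤ) ∣ d - 1 ∧
      g 0 0 = a ∧ g 0 1 = b ∧ g 1 0 = c ∧ g 1 1 = d := by
  constructor
  · rintro ⟨γ, hγ, rfl⟩
    obtain ⟨ha, hb, hc, hd⟩ := CongruenceSubgroup.Gamma_mem.mp hγ
    refine ⟨γ 0 0, γ 0 1, γ 1 0, γ 1 1, ?_, ?_, ?_, ?_, ?_, rfl, rfl, rfl, rfl⟩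
    · have := γ.2
      rwa [Matrix.det_fin_two] at this
    all_goals rw [← ZMod.intCast_zmod_eq_zero_iff_dvd]
    all_goals simp [ha, hb, hc, hd]
  · rintro ⟨a, b, c, d, hdet, ha1, hb1, hc1, hd1, ha, hb, hc', hd⟩
    refine ⟨⟨!![a, b; c, d], by rw [Matrix.det_fin_two_of]; exact hdet⟩, ?_, ?_⟩
    · rw [← ZMod.intCast_zmod_eq_zero_iff_dvd] at ha1 hb1 hc1 hd1
      simp only [Int.cast_sub, Int.cast_one, sub_eq_zero] at ha1 hd1
      exact CongruenceSubgroup.Gamma_mem.mpr ⟨ha1, hb1, hc1, hd1⟩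
    · exact g2_ext (by simp [ha]) (by simp [hb]) (by simp [hc']) (by simp [hd])

theorem G0_anti {N M : ℕ} (h : N ∣ M) : G0 M ≤ G0 N := by
  intro g hg
  rw [mem_G0_iff] at hg ⊢
  obtain ⟨a, b, c, d, hdet, hc, rest⟩ := hg
  exact ⟨a, b, c, d, hdet, (Int.natCast_dvd_natCast.mpr h).trans hc, rest⟩

theorem GM_anti {N M : ℕ} (h : N ∣ M) : GM M ≤ GM N := by
  intro g hg
  rw [mem_GM_iff] at hg ⊢
  obtain ⟨a, b, c, d, hdet, h1, h2, h3, h4, rest⟩ := hg
  have h' := Int.natCast_dvd_natCast.mpr h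
  exact ⟨a, b, c, d, hdet, h'.trans h1, h'.trans h2, h'.trans h3, h'.trans h4, rest⟩

theorem GM_le_G0 {N M : ℕ} (h : N ∣ M) : GM M ≤ G0 N := by
  intro g hg
  obtain ⟨a, b, c, d, hdet, -, -, h3, -, rest⟩ := mem_GM_iff.mp hg
  exact mem_G0_iff.mpr ⟨a, b, c, d, hdet, (Int.natCast_dvd_natCast.mpr h).trans h3, rest⟩

theorem shift_intCast_mem_G0 (N : ℕ) (e : ℤ) : shift e ∈ G0 N :=
  mem_G0_iff.mpr ⟨1, e, 0, 1, by ring, dvd_zero _, by simp [shift_apply], by simp [shift_apply],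
    by simp [shift_apply], by simp [shift_apply]⟩

theorem lower_mem_G0 (N : ℕ) (e : ℤ) : lower ((N * e : ℤ) : ℚ) ∈ G0 N :=
  mem_G0_iff.mpr ⟨1, 0, N * e, 1, by ring, dvd_mul_right _ _, by simp [lower], by simp [lower],
    by simp [lower], by simp [lower]⟩

/-- Every cusp is the image of `∞` under an element of `SL₂(ℤ)`. -/
theorem exists_slQ_smul_infty (x : Cusp) : ∃ γ : SL(2, ℤ), slQ γ • (∞ : Cusp) = x := by
  obtain ⟨g, hg⟩ := OnePoint.exists_mem_SL2 ℤ x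
  exact ⟨g, hg⟩

end FermatAgent.Ihara
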