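import Fermat.Agent.Ihara.Congruence

/-!
Boundary symbols (those whose periods vanish on some principal congruence group), and the action
of rational matrices and Hecke operators modulo boundary symbols on symbols invariant under
`Γ₀(N)` and `diag(q, 1/q)`.
-/

set_option autoImplicit false

namespace FermatAgent.Ihara

open Matrix OnePoint

/-- The cusp attached to a nonzero rational vector. -/
def cuspOf (u v : ℚ) : Cusp := if v = 0 then ∞ else ((u / v : ℚ) : Cusp)

theorem cuspOf_scale {c : ℚ} (hc : c ≠ 0) (u v : ℚ) : cuspOf (c * u) (c * v) = cuspOf u v := by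
  simp [cuspOf, hc, mul_div_mul_left]

theorem smul_cuspOf (g : G2) {u v : ℚ} (h : u ≠ 0 ∨ v ≠ 0) :
    g • cuspOf u v = cuspOf (g 0 0 * u + g 0 1 * v) (g 1 0 * u + g 1 1 * v) := by
  by_cases hv : v = 0
  · have hu : u ≠ 0 := h.resolve_right (not_not.mpr hv)
    simp [cuspOf, hv, smul_infty_eq_ite, hu, mul_div_mul_right]
  · have he : g 1 0 * (u / v) + g 1 1 = (g 1 0 * u + g 1 1 * v) / v := by field_simp
    simp only [cuspOf, hv, if_false, smul_some_eq_ite, he, div_eq_zero_iff, or_false]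
    split_ifs with h0
    · rfl
    · congr 1; field_simp

theorem exists_cuspOf_eq (x : Cusp) : ∃ u v : ℤ, IsCoprime u v ∧ cuspOf u v = x := by
  induction x using OnePoint.rec with
  | infty => exact ⟨1, 0, isCoprime_one_left, by simp [cuspOf]⟩
  | coe k =>
    refine ⟨k.num, k.den, Rat.isCoprime_num_den k, ?_⟩
    simp [cuspOf, Rat.num_div_den]

theorem exists_SL_of_isCoprime {u v : ℤ} (h : IsCoprime u v) :
    ∃ b d : ℤ, u * d - b * v = 1 := by
  obtain ⟨s, t, hst⟩ := h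
  exact ⟨-t, s, by linear_combination hst⟩

/-- Primitive vectors congruent modulo `M` give `Γ(M)`-equivalent cusps. -/
theorem exists_GM_smul_cuspOf {M : ℕ} {u v u' v' : ℤ} (h : IsCoprime u v) (h' : IsCoprime u' v')
    (hu : (M : ℤ) ∣ u' - u) (hv : (M : ℤ) ∣ v' - v) :
    ∃ γ ∈ GM M, γ • cuspOf u v = cuspOf u' v' := by
  obtain ⟨b, d, hdet⟩ := exists_SL_of_isCoprime h
  obtain ⟨b', d', hdet'⟩ := exists_SL_of_isCoprime h'
  obtain ⟨s, hs⟩ := hu
  obtain ⟨t, ht⟩ := hv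
  -- adjust the completion of `(u', v')`
  set k := b * d' - b' * d with hk
  set B := b' + k * u' with hB
  set D := d' + k * v' with hD
  have hBb : B - b = (M : ℤ) * (b * b' * t - b' * d * s) := by
    rw [hB, hk]
    linear_combination b * hdet' + b * b' * ht - b' * hdet - b' * d * hs
  have hDd : D - d = (M : ℤ) * (d' * b * t - d' * d * s) := by
    rw [hD, hk]
    linear_combination d * hdet' + b * d' * ht - d' * hdet - d * d' * hs
  have hdetγ : (u' * d - B * v) * (-v' * b + D * u) - (-u' * b + B * u) * (v' * d - D * v) = 1 := by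
    rw [hB, hD]
    linear_combination (u * d - b * v) * hdet' + hdet
  refine ⟨slQ ⟨!![u' * d - B * v, -u' * b + B * u; v' * d - D * v, -v' * b + D * u],
    by rw [Matrix.det_fin_two_of]; exact hdetγ⟩,
    mem_GM_iff.mpr ⟨_, _, _, _, hdetγ, ⟨s * d - (b * b' * t - b' * d * s) * v, ?_⟩,
      ⟨(b * b' * t - b' * d * s) * u - s * b, ?_⟩,
      ⟨t * d - (d' * b * t - d' * d * s) * v, ?_⟩,
      ⟨(d' * b * t - d' * d * s) * u - t * b, ?_⟩, by simp, by simp, by simp, by simp⟩, ?_⟩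
  · linear_combination d * hs - v * hBb + hdet
  · linear_combination u * hBb - b * hs
  · linear_combination d * ht - v * hDd
  · linear_combination u * hDd - b * ht + hdet
  · have hne : (u : ℚ) ≠ 0 ∨ (v : ℚ) ≠ 0 := by
      by_contra! hh
      simp only [Int.cast_eq_zero] at hh
      simp [hh.1, hh.2] at hdet
    rw [smul_cuspOf _ hne]
    have e : (u : ℚ) * d - b * v = 1 := by exact_mod_cast hdet
    congr 1
    · simp; linear_combination (u' : ℚ) * e
    · simp; linear_combination (v' : ℚ) * e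

section Bdry

variable {k : Type*} [AddCommGroup k]

/-- A modular symbol: additive and invariant. -/
structure IsSymb (H : Set G2) (φ : Cusp × Cusp → k) : Prop where
  add : IsAddSymb φ
  inv : IsInv H φ

/-- The periods of `φ` vanish on some principal congruence group. -/
def IsBdry (φ : Cusp × Cusp → k) : Prop :=
  ∃ M : ℕ, 0 < M ∧ ∀ g ∈ GM M, ∀ x : Cusp, φ (x, g • x) = 0

theorem IsBdry.zero : IsBdry (0 : Cusp × Cusp → k) := ⟨1, one_pos, fun _ _ _ ↦ rfl⟩

theorem IsBdry.add {φ ψ : Cusp × Cusp → k} (h : IsBdry φ) (h' : IsBdry ψ) : IsBdry (φ + ψ) := by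
  obtain ⟨M, hM, hφ⟩ := h
  obtain ⟨M', hM', hψ⟩ := h'
  refine ⟨M * M', Nat.mul_pos hM hM', fun g hg x ↦ ?_⟩
  rw [Pi.add_apply, hφ g (GM_anti (dvd_mul_right _ _) hg) x,
    hψ g (GM_anti (dvd_mul_left _ _) hg) x, add_zero]

theorem IsBdry.neg {φ : Cusp × Cusp → k} (h : IsBdry φ) : IsBdry (-φ) := by
  obtain ⟨M, hM, hφ⟩ := h
  exact ⟨M, hM, fun g hg x ↦ by rw [Pi.neg_apply, hφ g hg x, neg_zero]⟩

theorem IsBdry.nsmul {φ : Cusp × Cusp → k} (h : IsBdry φ) (n : ℕ) : IsBdry (n • φ) := by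
  induction n with
  | zero => simpa using IsBdry.zero
  | succ n ih => rw [succ_nsmul]; exact ih.add h

theorem IsBdry.sum {ι : Type*} (s : Finset ι) {F : ι → Cusp × Cusp → k}
    (h : ∀ i ∈ s, IsBdry (F i)) : IsBdry (∑ i ∈ s, F i) :=
  Finset.sum_induction F IsBdry (fun _ _ ↦ IsBdry.add) IsBdry.zero h

theorem exists_intMatrix (h : G2) :
    ∃ (c : ℚ) (H : Matrix (Fin 2) (Fin 2) ℤ), c ≠ 0 ∧ ∀ i j, h i j = c * H i j := by
  refine ⟨(((h 0 0).den * (h 0 1).den * (h 1 0).den * (h 1 1).den : ℕ) : ℚ)⁻¹,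
    !![(h 0 0).num * (h 0 1).den * (h 1 0).den * (h 1 1).den,
       (h 0 1).num * (h 0 0).den * (h 1 0).den * (h 1 1).den;
       (h 1 0).num * (h 0 0).den * (h 0 1).den * (h 1 1).den,
       (h 1 1).num * (h 0 0).den * (h 0 1).den * (h 1 0).den],
    inv_ne_zero (by simp), fun i j ↦ ?_⟩
  rw [inv_mul_eq_div, eq_div_iff (by simp)]
  fin_cases i <;> fin_cases j
  · simp; linear_combination ((h 0 1).den * (h 1 0).den * (h 1 1).den : ℚ) * Rat.mul_den_eq_num (h 0 0)
  · simp; linear_combination ((h 0 0).den * (h 1 0).den * (h 1 1).den : ℚ) * Rat.mul_den_eq_num (h 0 1)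
  · simp; linear_combination ((h 0 0).den * (h 0 1).den * (h 1 1).den : ℚ) * Rat.mul_den_eq_num (h 1 0)
  · simp; linear_combination ((h 0 0).den * (h 0 1).den * (h 1 0).den : ℚ) * Rat.mul_den_eq_num (h 1 1)

/-- Congruence groups are commensurated by rational matrices. -/
theorem exists_GM_conj (h : G2) {M : ℕ} (hM : 0 < M) :
    ∃ M' : ℕ, 0 < M' ∧ ∀ g ∈ GM M', h * g * h⁻¹ ∈ GM M := by
  obtain ⟨c, H, hc, hH⟩ := exists_intMatrix h
  set D := H 0 0 * H 1 1 - H 0 1 * H 1 0 with hD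
  have hD0 : D ≠ 0 := fun h0 ↦ by
    refine h.det_ne_zero ?_
    rw [Matrix.det_fin_two, hH, hH, hH, hH]
    have h0' : (H 0 0 : ℚ) * H 1 1 - H 0 1 * H 1 0 = 0 := by exact_mod_cast h0
    linear_combination c ^ 2 * h0'
  refine ⟨M * D.natAbs, Nat.mul_pos hM (Int.natAbs_pos.mpr hD0), fun g hg ↦ ?_⟩
  obtain ⟨a, b, e, f, hdet, ⟨x, hx⟩, ⟨y, hy⟩, ⟨z, hz⟩, ⟨w, hw⟩, ha, hb, he, hf⟩ :=
    mem_GM_iff.mp hg
  obtain ⟨σ, hσ⟩ : ∃ σ : ℤ, (D.natAbs : ℤ) = σ * D := by
    rcases Int.natAbs_eq D with h | h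
    · exact ⟨1, by rw [one_mul]; exact h.symm⟩
    · exact ⟨-1, by linear_combination h⟩
  rw [Nat.cast_mul, hσ] at hx hy hz hw
  -- `K = H X adj(H)`
  set p := σ * ((H 0 0 * x + H 0 1 * z) * H 1 1 - (H 0 0 * y + H 0 1 * w) * H 1 0) with hp
  set r := σ * (-(H 0 0 * x + H 0 1 * z) * H 0 1 + (H 0 0 * y + H 0 1 * w) * H 0 0) with hr
  set s := σ * ((H 1 0 * x + H 1 1 * z) * H 1 1 - (H 1 0 * y + H 1 1 * w) * H 1 0) with hs
  set t := σ * (-(H 1 0 * x + H 1 1 * z) * H 0 1 + (H 1 0 * y + H 1 1 * w) * H 0 0) with ht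
  have hdet' : (1 + M * p) * (1 + M * t) - M * r * (M * s) = 1 := by
    have : D * D * ((1 + M * p) * (1 + M * t) - M * r * (M * s) - 1) = 0 := by
      have ha' : a = 1 + M * (σ * D) * x := by linear_combination hx
      have hf' : f = 1 + M * (σ * D) * w := by linear_combination hw
      rw [ha', hy, hz, hf'] at hdet
      rw [hp, hr, hs, ht, hD] at *
      linear_combination (H 0 0 * H 1 1 - H 0 1 * H 1 0) ^ 2 * hdet
    simpa [hD0, sub_eq_zero] using this
  refine mem_GM_iff.mpr ⟨1 + M * p, M * r, M * s, 1 + M * t, hdet', ⟨p, by ring⟩, ⟨r, rfl⟩,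
    ⟨s, rfl⟩, ⟨t, by ring⟩, ?_⟩
  have hdetK : ((1 + M * p : ℤ) : ℚ) * (1 + M * t : ℤ) - (M * r : ℤ) * (M * s : ℤ) ≠ 0 := by
    rw [show ((1 + M * p : ℤ) : ℚ) * (1 + M * t : ℤ) - (M * r : ℤ) * (M * s : ℤ) =
      (((1 + M * p) * (1 + M * t) - M * r * (M * s) : ℤ) : ℚ) by push_cast; ring, hdet']
    simp
  have key : h * g * h⁻¹ = mk2 (1 + M * p : ℤ) (M * r : ℤ) (M * s : ℤ) (1 + M * t : ℤ) hdetK := by
    rw [mul_inv_eq_iff_eq_mul]
    have hx' : (a : ℚ) - 1 = M * (σ * D) * x := by exact_mod_cast hx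
    have hy' : (b : ℚ) = M * (σ * D) * y := by exact_mod_cast hy
    have hz' : (e : ℚ) = M * (σ * D) * z := by exact_mod_cast hz
    have hw' : (f : ℚ) - 1 = M * (σ * D) * w := by exact_mod_cast hw
    have hD' : (D : ℚ) = H 0 0 * H 1 1 - H 0 1 * H 1 0 := by exact_mod_cast hD
    refine g2_ext ?_ ?_ ?_ ?_
    all_goals
      simp only [mul_apply2, val_mk2, hH, ha, hb, he, hf, Matrix.of_apply, Matrix.cons_val',
        Matrix.cons_val_zero, Matrix.cons_val_one, Matrix.cons_val_fin_one, hp, hr, hs, ht]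
      push_cast
      rw [hD'] at hx' hy' hz' hw'
    · linear_combination c * H 0 0 * hx' + c * H 0 1 * hz'
    · linear_combination c * H 0 0 * hy' + c * H 0 1 * hw'
    · linear_combination c * H 1 0 * hx' + c * H 1 1 * hz'
    · linear_combination c * H 1 0 * hy' + c * H 1 1 * hw'
  rw [key]
  simp

theorem IsBdry.slash {φ : Cusp × Cusp → k} (hφ : IsBdry φ) (h : G2) : IsBdry (slash φ h) := by
  obtain ⟨M, hM, hM0⟩ := hφ
  obtain ⟨M', hM', hconj⟩ := exists_GM_conj h hM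
  refine ⟨M', hM', fun g hg x ↦ ?_⟩
  have := hM0 _ (hconj g hg) (h • x)
  rwa [mul_smul, mul_smul, inv_smul_smul] at this

theorem smul_pair_eq {g h : G2} {c : ℚ} (hc : c ≠ 0) (he : ∀ i j, g i j = c * h i j)
    (x : Cusp × Cusp) : g • x = h • x :=
  Prod.ext (smul_cusp_eq hc he x.1) (smul_cusp_eq hc he x.2)

/-- The matrices fixing `φ` modulo boundary symbols. -/
def fixBdry (φ : Cusp × Cusp → k) : Subgroup G2 where
  carrier := {h | IsBdry (FermatAgent.Ihara.slash φ h - φ)}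
  one_mem' := by simpa using IsBdry.zero
  mul_mem' := by
    intro a b ha hb
    have : FermatAgent.Ihara.slash φ (a * b) - φ =
        FermatAgent.Ihara.slash (FermatAgent.Ihara.slash φ a - φ) b +
          (FermatAgent.Ihara.slash φ b - φ) := by
      funext y; simp [mul_smul]
    show IsBdry _
    rw [this]
    exact (IsBdry.slash ha b).add hb
  inv_mem' := by
    intro a ha
    have : FermatAgent.Ihara.slash φ a⁻¹ - φ =
        -FermatAgent.Ihara.slash (FermatAgent.Ihara.slash φ a - φ) a⁻¹ := by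
      funext y; simp
    show IsBdry _
    rw [this]
    exact (IsBdry.slash ha a⁻¹).neg

theorem mem_fixBdry {φ : Cusp × Cusp → k} {h : G2} :
    h ∈ fixBdry φ ↔ IsBdry (FermatAgent.Ihara.slash φ h - φ) := Iff.rfl

theorem mem_fixBdry_of_isInv {φ : Cusp × Cusp → k} {H : Set G2} (hφ : IsInv H φ) {h : G2}
    (hh : h ∈ H) : h ∈ fixBdry φ := by
  rw [mem_fixBdry, hφ.slash_eq hh, sub_self]
  exact IsBdry.zero

end Bdry

end FermatAgent.Ihara
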