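import Fermat.Agent.Ihara.Triangles

/-!
Invariant alternating cocycles on triples of cusps: they are, up to coboundaries, multiples of the
orientation cocycle; hence the sum over triangles is unchanged by matrices of positive determinant
normalising `Γ₀(M)`.
-/

set_option autoImplicit false

namespace FermatAgent.Ihara

open OnePoint CongruenceSubgroup
open scoped MatrixGroups

/-- An alternating cocycle on triples of cusps. -/
structure IsTriCocycle {k : Type*} [AddCommGroup k] (F : Cusp → Cusp → Cusp → k) : Prop where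
  cycle : ∀ x y z, F y z x = F x y z
  swap : ∀ x y z, F y x z = -F x y z
  cocycle : ∀ x y z w, F y z w - F x z w + F x y w - F x y z = 0

variable {M : ℕ}

theorem IsTriCocycle.swap23 {k : Type*} [AddCommGroup k] {F : Cusp → Cusp → Cusp → k}
    (hF : IsTriCocycle F) (x y z : Cusp) : F x z y = -F x y z := by
  rw [hF.cycle y x z, hF.swap x y z]

theorem IsTriCocycle.eq_base {k : Type*} [AddCommGroup k] {F : Cusp → Cusp → Cusp → k}
    (hF : IsTriCocycle F) (b x y z : Cusp) : F x y z = F b x y + F b y z + F b z x := by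
  have hzx : F b z x = -F b x z := hF.swap23 b x z
  rw [hzx, eq_comm, ← sub_eq_zero, ← neg_eq_zero]
  have := hF.cocycle b x y z
  rw [← this]
  abel

/-- The ring of rational numbers as values: every invariant cocycle with vanishing triangle sum
is the coboundary of an invariant function of pairs. -/
theorem exists_dPair_eq [NeZero M] {F : Cusp → Cusp → Cusp → ℚ} (hF : IsTriCocycle F)
    (hinv : IsInv3 M F) (h0 : triSum M F = 0) :
    ∃ G : Cusp → Cusp → ℚ, (∀ g ∈ G0 M, ∀ x y, G (g • x) (g • y) = G x y) ∧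
      (∀ x y, G y x = -G x y) ∧ F = dPair G := by
  classical
  set h : X0 M → ℚ := fun c ↦ triVal F c.out with hh
  have hrot : ∀ c, h (rot c) = h c := fun c ↦ by
    obtain ⟨g, rfl⟩ := cmk_surjective c
    simp only [hh]
    rw [rot_cmk, hinv.triVal_out, hinv.triVal_out, triVal_mul_triU]
    exact hF.cycle _ _ _
  -- solve on the edges
  let σ : (X0 M → ℚ) →ₗ[ℚ] (X0 M → ℚ) :=
    { toFun := fun f c ↦ f c + f (rot c) + f (rot (rot c))
      map_add' := fun f g ↦ by funext c; simp; ring
      map_smul' := fun r f ↦ by funext c; simp; ring }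
  let anti : Submodule ℚ (X0 M → ℚ) :=
    { carrier := {f | ∀ c, f (rev c) = -f c}
      add_mem' := fun {f g} hf hg c ↦ by simp [hf c, hg c]; ring
      zero_mem' := fun c ↦ by simp
      smul_mem' := fun r f hf c ↦ by simp [hf c] }
  have hmem : h ∈ anti.map σ := by
    let sc : X0 M → X0 M → ℚ := fun c ↦ σ (Pi.single c 1)
    have hscU : ∀ c, sc (rot c) = sc c := by
      intro c
      funext d
      have e1 : ∀ a b : X0 M, (Pi.single (rot a) (1 : ℚ) : X0 M → ℚ) (rot b) =
          (Pi.single a (1 : ℚ) : X0 M → ℚ) b := fun a b ↦ by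
        simp [Pi.single_apply, (rotEquiv M).injective.eq_iff (a := b) (b := a),
          show ∀ e, rot e = rotEquiv M e from fun _ ↦ rfl]
      show (Pi.single (rot c) (1 : ℚ) : X0 M → ℚ) d + _ + _ = _ + _ + _
      rw [show (Pi.single (rot c) (1 : ℚ) : X0 M → ℚ) d =
          (Pi.single (rot c) (1 : ℚ) : X0 M → ℚ) (rot (rot (rot d))) by rw [rot_rot_rot],
        e1, e1, e1]
      ring
    have hscS : ∀ c, (anti.map σ).mkQ (sc (rev c)) = (anti.map σ).mkQ (sc c) := by
      intro c
      simp only [Submodule.mkQ_apply]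
      rw [Submodule.Quotient.eq]
      refine ⟨Pi.single (rev c) 1 - Pi.single c 1, fun d ↦ ?_, map_sub _ _ _⟩
      have e1 : ∀ a b : X0 M, (Pi.single a (1 : ℚ) : X0 M → ℚ) (rev b) =
          (Pi.single (rev a) (1 : ℚ) : X0 M → ℚ) b := fun a b ↦ by
        simp only [Pi.single_apply]
        congr 1
        exact propext ⟨fun e ↦ by rw [← e, rev_rev], fun e ↦ by rw [e, rev_rev]⟩
      simp only [Pi.sub_apply, e1, rev_rev]
      ring
    have hconst := cos_connected (fun c ↦ (anti.map σ).mkQ (sc c)) hscS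
      (fun c ↦ congrArg _ (hscU c))
    have hexp : (3 : ℚ) • h = ∑ c, h c • sc c := by
      have : h = ∑ c, h c • (Pi.single c (1 : ℚ) : X0 M → ℚ) := by
        simp [← Pi.single_smul, Finset.univ_sum_single]
      have h2 : σ h = ∑ c, h c • sc c := by
        conv_lhs => rw [this, map_sum]
        simp [sc]
      rw [← h2]
      funext c
      show 3 * h c = h c + h (rot c) + h (rot (rot c))
      rw [hrot (rot c), hrot c]; ring
    have h3 : (anti.map σ).mkQ ((3 : ℚ) • h) = 0 := by
      rw [hexp, map_sum, Finset.sum_congr rfl fun c _ ↦ by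
        rw [_root_.map_smul, hconst c (cmk _ 1)], ← Finset.sum_smul]
      rw [show ∑ c, h c = 0 from h0, zero_smul]
    rw [Submodule.mkQ_apply, Submodule.Quotient.mk_eq_zero] at h3
    simpa [smul_smul] using Submodule.smul_mem _ (3⁻¹ : ℚ) h3
  obtain ⟨f, hf, hσf⟩ := hmem
  have hf' : ∀ c, f c + f (rot c) + f (rot (rot c)) = h c := congrFun hσf
  set K : SL(2, ℤ) → ℚ := fun g ↦
    F ∞ (slQ g • ∞) (slQ g • ((0 : ℚ) : Cusp)) - f (cmk (Gamma0 M) g) with hK
  obtain ⟨b, hb⟩ := farey_exact K
    (fun g ↦ by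
      simp only [hK, ← neg_one_mul g, map_mul, mul_smul, slQ_neg_one_smul,
        cmk_mul_left (neg_one_mem_Gamma0 M)])
    (fun g ↦ by
      have := hf (cmk (Gamma0 M) g)
      rw [rev_cmk] at this
      simp only [hK, map_mul, mul_smul, slQ_edgeS_smul_infty, slQ_edgeS_smul_zero, this]
      rw [hF.swap23 ∞ (slQ g • ∞) (slQ g • ((0 : ℚ) : Cusp))]
      ring)
    (fun g ↦ by
      have h1 := hf' (cmk (Gamma0 M) g)
      rw [rot_cmk, rot_cmk] at h1
      have h2 : h (cmk (Gamma0 M) g) = triVal F g := hinv.triVal_out g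
      have h3 := hF.eq_base ∞ (slQ g • ∞) (slQ g • ((0 : ℚ) : Cusp)) (slQ g • ((1 : ℚ) : Cusp))
      simp only [hK, map_mul, mul_smul, slQ_triU_smul_infty, slQ_triU_smul_zero, slQ_triU_smul_one]
      simp only [triVal] at h2
      linear_combination -h1 - h2 - h3)
  set G : Cusp → Cusp → ℚ := fun x y ↦ F ∞ x y - (b y - b x) with hG
  have hGanti : ∀ x y, G y x = -G x y := fun x y ↦ by
    simp only [hG]
    rw [hF.swap23 ∞ x y]
    ring
  have hGd : F = dPair G := by
    funext x y z
    simp only [dPair, hG]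
    linear_combination hF.eq_base ∞ x y z
  have hGe : ∀ g, G (slQ g • ∞) (slQ g • ((0 : ℚ) : Cusp)) = f (cmk (Gamma0 M) g) := fun g ↦ by
    have := hb g
    simp only [hK] at this
    simp only [hG]
    linear_combination this
  refine ⟨G, fun γ hγ x y ↦ ?_, hGanti, hGd⟩
  set D : Cusp → Cusp → ℚ := fun x y ↦ G (γ • x) (γ • y) - G x y with hD
  have hDd : ∀ x y z, D x y + D y z + D z x = 0 := fun x y z ↦ by
    have := hinv γ hγ x y z
    rw [hGd] at this
    simp only [dPair] at this
    simp only [hD]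
    linear_combination this
  have hDanti : ∀ x y, D y x = -D x y := fun x y ↦ by
    simp only [hD, hGanti x y, hGanti (γ • x) (γ • y)]; ring
  have hDe : ∀ g, D ∞ (slQ g • ((0 : ℚ) : Cusp)) = D ∞ (slQ g • ∞) := fun g ↦ by
    obtain ⟨δ, hδ, rfl⟩ := id hγ
    have h1 : D (slQ g • ∞) (slQ g • ((0 : ℚ) : Cusp)) = 0 := by
      simp only [hD, ← mul_smul, ← map_mul, hGe, cmk_mul_left hδ, sub_self]
    linear_combination -hDd ∞ (slQ g • ∞) (slQ g • ((0 : ℚ) : Cusp)) +
      hDanti ∞ (slQ g • ((0 : ℚ) : Cusp)) + h1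
  have hD0 : ∀ x, D ∞ x = 0 := fun x ↦ by
    rw [eq_of_farey_edges hDe x ∞]
    have := hDanti ∞ ∞
    linarith
  have := hDd ∞ x y
  rw [hD0, hDanti ∞ y, hD0] at this
  simp only [hD] at this
  linarith

/-- The homogeneous coordinates of a cusp. -/
def cuspVec : Cusp → ℚ × ℚ := fun x ↦ x.elim (1, 0) fun q ↦ (q, 1)

@[simp] theorem cuspVec_infty : cuspVec ∞ = (1, 0) := rfl

@[simp] theorem cuspVec_coe (q : ℚ) : cuspVec (q : Cusp) = (q, 1) := rfl

/-- The determinant of two cusps. -/
def cuspDet (x y : Cusp) : ℚ :=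
  (cuspVec x).1 * (cuspVec y).2 - (cuspVec x).2 * (cuspVec y).1

theorem cuspDet_swap (x y : Cusp) : cuspDet y x = -cuspDet x y := by simp [cuspDet]; ring

theorem cuspVec_smul (g : G2) (x : Cusp) : ∃ l : ℚ, l ≠ 0 ∧
    g 0 0 * (cuspVec x).1 + g 0 1 * (cuspVec x).2 = l * (cuspVec (g • x)).1 ∧
    g 1 0 * (cuspVec x).1 + g 1 1 * (cuspVec x).2 = l * (cuspVec (g • x)).2 := by
  have hdet := g.det_ne_zero
  rw [Matrix.det_fin_two] at hdet
  induction x using OnePoint.rec with
  | infty =>
    by_cases hc : g 1 0 = 0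
    · refine ⟨g 0 0, fun ha ↦ hdet (by rw [ha, hc]; ring), ?_⟩
      simp [smul_infty_eq_ite, hc]
    · refine ⟨g 1 0, hc, ?_⟩
      simp [smul_infty_eq_ite, hc]
      field_simp
  | coe q =>
    by_cases hc : g 1 0 * q + g 1 1 = 0
    · refine ⟨g 0 0 * q + g 0 1, fun ha ↦ hdet ?_, ?_⟩
      · linear_combination g 0 0 * hc - g 1 0 * ha
      · simp [smul_some_eq_ite, hc]
    · refine ⟨g 1 0 * q + g 1 1, hc, ?_⟩
      simp [smul_some_eq_ite, hc]
      rw [mul_div_cancel₀ _ hc]

/-- The orientation cocycle. -/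
noncomputable def orient : Cusp → Cusp → Cusp → ℚ :=
  dPair fun x y ↦ ((SignType.sign (cuspDet x y) : SignType) : ℚ)

theorem sign_add_sign_add_sign {a b c : ℚ} {u v w : ℚ} (hu : 0 ≤ u) (hv : 0 ≤ v) (hw : 0 ≤ w)
    (hrel : a * w + b * u + c * v = 0) (hz : u = 0 → v = 0 → w = 0 → a = 0)
    (hab : a = 0 → b = -c) (hbc : b = 0 → c = -a) (hca : c = 0 → a = -b) :
    ((SignType.sign a : SignType) : ℚ) + (SignType.sign b : SignType) + (SignType.sign c : SignType)
      = -((SignType.sign a : SignType) : ℚ) * (SignType.sign b : SignType) *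
        (SignType.sign c : SignType) := by
  rcases lt_trichotomy a 0 with ha | ha | ha
  · rcases lt_trichotomy b 0 with hb | hb | hb
    · rcases lt_trichotomy c 0 with hc | hc | hc
      · exfalso
        refine ha.ne (hz ?_ ?_ ?_) <;>
          nlinarith [mul_nonpos_of_nonpos_of_nonneg ha.le hw, mul_nonpos_of_nonpos_of_nonneg hb.le hu,
            mul_nonpos_of_nonpos_of_nonneg hc.le hv]
      · linarith [hca hc]
      · simp [ha, hb, hc]
    · have := hbc hb
      simp [ha, hb, this]
    · rcases lt_trichotomy c 0 with hc | hc | hc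
      · simp [ha, hb, hc]
      · simp [ha, hb, hc]
      · simp [ha, hb, hc]
  · have := hab ha
    subst ha this
    simp [Left.sign_neg]
  · rcases lt_trichotomy b 0 with hb | hb | hb
    · rcases lt_trichotomy c 0 with hc | hc | hc
      · simp [ha, hb, hc]
      · simp [ha, hb, hc]
      · simp [ha, hb, hc]
    · have := hbc hb
      simp [ha, hb, this]
    · rcases lt_trichotomy c 0 with hc | hc | hc
      · simp [ha, hb, hc]
      · linarith [hca hc]
      · exfalso
        refine ha.ne' (hz ?_ ?_ ?_) <;>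
          nlinarith [mul_nonneg ha.le hw, mul_nonneg hb.le hu, mul_nonneg hc.le hv]

theorem orient_eq_prod (x y z : Cusp) : orient x y z =
    -((SignType.sign (cuspDet x y * cuspDet y z * cuspDet z x) : SignType) : ℚ) := by
  simp only [orient, dPair]
  rw [sign_mul, sign_mul, SignType.coe_mul, SignType.coe_mul,
    sign_add_sign_add_sign (u := (cuspVec x).2) (v := (cuspVec y).2) (w := (cuspVec z).2)]
  · ring
  all_goals induction x using OnePoint.rec <;> induction y using OnePoint.rec <;>
    induction z using OnePoint.rec <;> simp [cuspDet]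
  all_goals first | ring1 | (intros; linarith)

theorem orient_smul {g : G2} (hg : 0 < g 0 0 * g 1 1 - g 0 1 * g 1 0) (x y z : Cusp) :
    orient (g • x) (g • y) (g • z) = orient x y z := by
  obtain ⟨l, hl, l1, l2⟩ := cuspVec_smul g x
  obtain ⟨m, hm, m1, m2⟩ := cuspVec_smul g y
  obtain ⟨n, hn, n1, n2⟩ := cuspVec_smul g z
  set D := g 0 0 * g 1 1 - g 0 1 * g 1 0 with hD
  have key : ∀ (p q : Cusp) (a b : ℚ),
      g 0 0 * (cuspVec p).1 + g 0 1 * (cuspVec p).2 = a * (cuspVec (g • p)).1 →
      g 1 0 * (cuspVec p).1 + g 1 1 * (cuspVec p).2 = a * (cuspVec (g • p)).2 →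
      g 0 0 * (cuspVec q).1 + g 0 1 * (cuspVec q).2 = b * (cuspVec (g • q)).1 →
      g 1 0 * (cuspVec q).1 + g 1 1 * (cuspVec q).2 = b * (cuspVec (g • q)).2 →
      a * b * cuspDet (g • p) (g • q) = D * cuspDet p q := by
    intro p q a b e1 e2 e3 e4
    simp only [cuspDet, hD]
    linear_combination (-(b * (cuspVec (g • q)).2)) * e1 + (b * (cuspVec (g • q)).1) * e2 -
      (g 0 0 * (cuspVec p).1 + g 0 1 * (cuspVec p).2) * e4 +
      (g 1 0 * (cuspVec p).1 + g 1 1 * (cuspVec p).2) * e3
  rw [orient_eq_prod, orient_eq_prod]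
  have h1 : (l * m * n) ^ 2 *
      (cuspDet (g • x) (g • y) * cuspDet (g • y) (g • z) * cuspDet (g • z) (g • x)) =
      D ^ 3 * (cuspDet x y * cuspDet y z * cuspDet z x) := by
    linear_combination (l * m * cuspDet (g • x) (g • y) * (m * n * cuspDet (g • y) (g • z))) *
        key z x n l n1 n2 l1 l2 +
      (l * m * cuspDet (g • x) (g • y) * (D * cuspDet z x)) * key y z m n m1 m2 n1 n2 +
      (D * cuspDet y z * (D * cuspDet z x)) * key x y l m l1 l2 m1 m2
  have hp : 0 < (l * m * n) ^ 2 := by positivity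
  have hq : 0 < D ^ 3 := pow_pos hg 3
  congr 2
  have := congrArg SignType.sign h1
  rwa [sign_mul, sign_mul (D ^ 3), sign_pos hp, sign_pos hq, one_mul, one_mul] at this

theorem isTriCocycle_dPair {k : Type*} [AddCommGroup k] {G : Cusp → Cusp → k}
    (hG : ∀ x y, G y x = -G x y) : IsTriCocycle (dPair G) where
  cycle x y z := by simp only [dPair]; abel
  swap x y z := by simp only [dPair, hG x y, hG y z, hG z x]; abel
  cocycle x y z w := by simp only [dPair, hG y w, hG z x]; abel

theorem isTriCocycle_orient : IsTriCocycle orient :=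
  isTriCocycle_dPair fun x y ↦ by
    simp only [cuspDet_swap x y, Left.sign_neg, SignType.coe_neg]

theorem slQ_det (γ : SL(2, ℤ)) :
    ((slQ γ : G2) 0 0 * (slQ γ : G2) 1 1 - (slQ γ : G2) 0 1 * (slQ γ : G2) 1 0 : ℚ) = 1 := by
  have := γ.2
  rw [Matrix.det_fin_two] at this
  simp only [slQ_apply]
  exact_mod_cast this

theorem triSum_orient [NeZero M] : triSum M orient = -(Fintype.card (X0 M) : ℚ) := by
  have : ∀ g : SL(2, ℤ), triVal orient g = -1 := fun g ↦ by
    simp only [triVal]
    rw [orient_smul (by rw [slQ_det]; exact one_pos), orient_eq_prod]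
    simp [cuspDet]
  simp [triSum, this]

/-- The sum over triangles is unchanged by matrices of positive determinant normalising
`Γ₀(M)`. -/
theorem triSum_slash [NeZero M] {F : Cusp → Cusp → Cusp → ℚ} (hF : IsTriCocycle F)
    (hinv : IsInv3 M F) {W : G2} (hW : 0 < W 0 0 * W 1 1 - W 0 1 * W 1 0)
    (hnorm : ∀ g ∈ G0 M, W * g * W⁻¹ ∈ G0 M) :
    triSum M (fun x y z ↦ F (W • x) (W • y) (W • z)) = triSum M F := by
  set c : ℚ := triSum M F / triSum M orient with hc
  have hne : triSum M orient ≠ 0 := by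
    rw [triSum_orient, neg_ne_zero, Nat.cast_ne_zero]
    exact Fintype.card_ne_zero
  set F' : Cusp → Cusp → Cusp → ℚ := fun x y z ↦ F x y z - c * orient x y z with hF'
  have hcoc : IsTriCocycle F' :=
    ⟨fun x y z ↦ by simp [hF', hF.cycle x y z, isTriCocycle_orient.cycle x y z],
      fun x y z ↦ by simp [hF', hF.swap x y z, isTriCocycle_orient.swap x y z]; ring,
      fun x y z w ↦ by
        simp only [hF']
        linear_combination hF.cocycle x y z w - c * isTriCocycle_orient.cocycle x y z w⟩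
  have hinv' : IsInv3 M F' := fun g hg x y z ↦ by
    obtain ⟨δ, hδ, rfl⟩ := id hg
    simp [hF', hinv _ hg, orient_smul (g := slQ δ) (by rw [slQ_det]; exact one_pos)]
  have hsum' : triSum M F' = 0 := by
    have : triSum M F' = triSum M F - c * triSum M orient := by
      simp [triSum, triVal, hF', Finset.sum_sub_distrib, Finset.mul_sum]
    rw [this, hc, div_mul_cancel₀ _ hne, sub_self]
  obtain ⟨G, hGinv, hGanti, hGd⟩ := exists_dPair_eq hcoc hinv' hsum'
  have h0 : triSum M (fun x y z ↦ F' (W • x) (W • y) (W • z)) = 0 := by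
    rw [hGd]
    refine triSum_dPair (G := fun x y ↦ G (W • x) (W • y)) (fun g hg x y ↦ ?_)
      fun x y ↦ hGanti _ _
    show G (W • g • x) (W • g • y) = _
    rw [← mul_smul, ← mul_smul, show W * g = W * g * W⁻¹ * W by group, mul_smul (W * g * W⁻¹),
      mul_smul (W * g * W⁻¹), hGinv _ (hnorm g hg)]
  have h1 : triSum M (fun x y z ↦ F' (W • x) (W • y) (W • z)) =
      triSum M (fun x y z ↦ F (W • x) (W • y) (W • z)) - c * triSum M orient := by
    simp [triSum, triVal, hF', orient_smul hW, Finset.sum_sub_distrib, Finset.mul_sum]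
  rw [h1, hc, div_mul_cancel₀ _ hne, sub_eq_zero] at h0
  exact h0

end FermatAgent.Ihara
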