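import Mathlib

/-!
Commutative algebra for level raising: eigenvectors in finite modules and characters in
characteristic zero lifting a given maximal ideal.
-/

set_option autoImplicit false

namespace FermatAgent.Ihara

open Pointwise

/-- A finite module with `𝔪 V ≠ V` has a nonzero element killed by `𝔪`. -/
theorem exists_killed {H V : Type*} [CommRing H] [AddCommGroup V] [Module H V] [Finite V]
    (m : Ideal H) [m.IsMaximal] (hm : m • (⊤ : Submodule H V) ≠ ⊤) :
    ∃ v : V, v ≠ 0 ∧ ∀ t ∈ m, t • v = 0 := by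
  classical
  let Z : Submodule H V :=
    { carrier := {v | ∃ s, s ∉ m ∧ s • v = 0}
      zero_mem' := ⟨1, fun h ↦ (Ideal.IsMaximal.ne_top ‹_›) ((Ideal.eq_top_iff_one _).mpr h),
        smul_zero _⟩
      add_mem' := fun {v w} ⟨s, hs, hsv⟩ ⟨s', hs', hsw⟩ ↦ ⟨s * s',
        fun h ↦ ((Ideal.IsMaximal.isPrime ‹_›).mem_or_mem h).elim hs hs', by
          rw [smul_add, mul_comm s s', mul_smul, hsv, smul_zero, zero_add, mul_comm s' s, mul_smul,
            hsw, smul_zero]⟩
      smul_mem' := fun r v ⟨s, hs, hsv⟩ ↦ ⟨s, hs, by rw [smul_comm, hsv, smul_zero]⟩ }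
  have : Fintype V := Fintype.ofFinite V
  -- finitely many elements of `Z` are killed by a single element outside `m`
  have hkill : ∀ T : Finset V, (∀ v ∈ T, v ∈ Z) → ∃ s, s ∉ m ∧ ∀ v ∈ T, s • v = 0 := by
    intro T
    induction T using Finset.induction with
    | empty =>
      exact fun _ ↦ ⟨1, fun h ↦ (Ideal.IsMaximal.ne_top ‹_›) ((Ideal.eq_top_iff_one _).mpr h),
        by simp⟩
    | insert a T ha ih =>
      intro h
      obtain ⟨s, hs, hsT⟩ := ih fun v hv ↦ h v (Finset.mem_insert_of_mem hv)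
      obtain ⟨s', hs', hsa⟩ := h a (Finset.mem_insert_self a T)
      refine ⟨s * s', fun h ↦ ((Ideal.IsMaximal.isPrime ‹_›).mem_or_mem h).elim hs hs',
        fun v hv ↦ ?_⟩
      rcases Finset.mem_insert.mp hv with rfl | hv
      · rw [mul_smul, hsa, smul_zero]
      · rw [mul_comm, mul_smul, hsT v hv, smul_zero]
  have hZ : Z ≠ ⊤ := by
    intro htop
    obtain ⟨s, hs, hsall⟩ := hkill Finset.univ fun v _ ↦ htop ▸ Submodule.mem_top
    refine hm (eq_top_iff.mpr fun v _ ↦ ?_)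
    obtain ⟨a, b, hb, hab⟩ := Ideal.IsMaximal.exists_inv ‹m.IsMaximal› hs
    rw [← one_smul H v, ← hab, add_smul, mul_smul, hsall v (Finset.mem_univ v), smul_zero, zero_add]
    exact Submodule.smul_mem_smul hb Submodule.mem_top
  -- an element outside `Z` with the smallest cyclic submodule
  let S : Finset V := Finset.univ.filter fun v ↦ v ∉ Z
  have hS : S.Nonempty := by
    obtain ⟨v, hv⟩ := not_forall.mp fun h ↦ hZ (Submodule.eq_top_iff'.mpr h)
    exact ⟨v, by simp [S, hv]⟩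
  obtain ⟨w, hwS, hmin⟩ :=
    S.exists_min_image (fun v ↦ Nat.card (Submodule.span H ({v} : Set V))) hS
  have hw : w ∉ Z := (Finset.mem_filter.mp hwS).2
  have hmw : ∀ t ∈ m, t • w ∈ Z := by
    intro t ht
    by_contra hnot
    have hle : Submodule.span H ({t • w} : Set V) ≤ Submodule.span H ({w} : Set V) :=
      Submodule.span_le.mpr (Set.singleton_subset_iff.mpr
        (Submodule.smul_mem _ t (Submodule.mem_span_singleton_self w)))
    have hcard := hmin (t • w) (by simp [S, hnot])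
    have heq : Submodule.span H ({t • w} : Set V) = Submodule.span H ({w} : Set V) := by
      apply SetLike.coe_injective
      refine Set.eq_of_subset_of_ncard_le hle ?_ (Set.toFinite _)
      rwa [← Nat.card_coe_set_eq, ← Nat.card_coe_set_eq]
    have hwmem : w ∈ Submodule.span H ({t • w} : Set V) :=
      heq.symm ▸ Submodule.mem_span_singleton_self w
    obtain ⟨r, hr⟩ := Submodule.mem_span_singleton.mp hwmem
    refine hw ⟨1 - r * t, fun h ↦ (Ideal.IsMaximal.ne_top ‹_›) ((Ideal.eq_top_iff_one _).mpr ?_), ?_⟩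
    · simpa using add_mem h (m.mul_mem_left r ht)
    · rw [sub_smul, one_smul, mul_smul, hr, sub_self]
  obtain ⟨s, hs, hsall⟩ := hkill (Finset.univ.filter fun v ↦ v ∈ Z) fun v hv ↦
    (Finset.mem_filter.mp hv).2
  refine ⟨s • w, fun h ↦ hw ⟨s, hs, h⟩, fun t ht ↦ ?_⟩
  rw [smul_comm]
  exact hsall _ (Finset.mem_filter.mpr ⟨Finset.mem_univ _, hmw t ht⟩)

/-- An eigenvector modulo `p` in a faithful finite module. -/
theorem exists_eigen_mod {H P : Type*} [CommRing H] [AddCommGroup P] [Module.Finite ℤ P] {p : ℕ}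
    [NeZero p] (f : H →+* Module.End ℤ P) (hf : Function.Injective f) (J : Ideal H) [J.IsMaximal]
    (hpJ : (p : H) ∈ J) :
    ∃ x : P, (¬ ∃ y, x = (p : ℤ) • y) ∧ ∀ t ∈ J, ∃ y, f t x = (p : ℤ) • y := by
  let mP : Module H P := Module.compHom P f
  let := mP
  have hsmul : ∀ (t : H) (x : P), t • x = f t x := fun t x ↦ rfl
  have : IsScalarTower ℤ H P :=
    ⟨fun n t x ↦ by rw [hsmul, hsmul, map_zsmul, LinearMap.smul_apply]⟩
  have : Module.Finite H P := Module.Finite.of_restrictScalars_finite ℤ _ _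
  let pP : Submodule H P :=
    { carrier := {x | ∃ y, x = (p : ℤ) • y}
      zero_mem' := ⟨0, (smul_zero _).symm⟩
      add_mem' := fun {x y} ⟨a, ha⟩ ⟨b, hb⟩ ↦ ⟨a + b, by rw [ha, hb, smul_add]⟩
      smul_mem' := fun t x ⟨a, ha⟩ ↦ ⟨t • a, by rw [ha, hsmul, hsmul, map_zsmul]⟩ }
  have : Finite (P ⧸ pP) := by
    obtain ⟨n, g, hg⟩ := Module.Finite.exists_fin (R := ℤ) (M := P)
    refine Finite.of_surjective
      (fun c : Fin n → Fin p ↦ (Submodule.Quotient.mk (∑ i, ((c i : ℕ) : ℤ) • g i) : P ⧸ pP))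
      fun v ↦ ?_
    obtain ⟨x, rfl⟩ := Submodule.Quotient.mk_surjective pP v
    obtain ⟨c, rfl⟩ := (Submodule.mem_span_range_iff_exists_fun ℤ).mp
      (hg ▸ Submodule.mem_top : x ∈ Submodule.span ℤ (Set.range g))
    have hp : (0 : ℤ) < p := by exact_mod_cast Nat.pos_of_ne_zero (NeZero.ne p)
    refine ⟨fun i ↦ ⟨(c i % p).toNat, by
      have := Int.emod_lt_of_pos (c i) hp
      have := Int.emod_nonneg (c i) hp.ne'
      omega⟩, (Submodule.Quotient.eq pP).mpr ⟨∑ i, (-(c i / p)) • g i, ?_⟩⟩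
    rw [← Finset.sum_sub_distrib, Finset.smul_sum]
    refine Finset.sum_congr rfl fun i _ ↦ ?_
    rw [Int.toNat_of_nonneg (Int.emod_nonneg _ hp.ne'), smul_smul, ← sub_smul]
    congr 1
    linear_combination Int.emod_add_mul_ediv (c i) p
  have hne : J • (⊤ : Submodule H (P ⧸ pP)) ≠ ⊤ := by
    intro htop
    have h1 : (⊤ : Submodule H P) ≤ J • (⊤ : Submodule H P) := by
      intro x _
      have hx : Submodule.Quotient.mk x ∈ J • (⊤ : Submodule H (P ⧸ pP)) := by
        rw [htop]; exact Submodule.mem_top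
      rw [← Submodule.range_mkQ pP, ← Submodule.map_top, ← Submodule.map_smul''] at hx
      obtain ⟨y, hy, hyx⟩ := hx
      obtain ⟨z, hz⟩ := (Submodule.Quotient.eq pP).mp hyx.symm
      rw [show x = y + (p : H) • z by
        rw [Nat.cast_smul_eq_nsmul, ← natCast_zsmul, ← hz]; abel]
      exact add_mem hy (Submodule.smul_mem_smul hpJ Submodule.mem_top)
    obtain ⟨r, hr, hr0⟩ := Submodule.exists_sub_one_mem_and_smul_eq_zero_of_fg_of_le_smul J _
      Module.Finite.fg_top h1
    have : r = 0 := hf (LinearMap.ext fun x ↦ by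
      rw [map_zero, ← hsmul, hr0 x Submodule.mem_top, LinearMap.zero_apply])
    exact (Ideal.IsMaximal.ne_top ‹_›) ((Ideal.eq_top_iff_one J).mpr (by simpa [this] using hr))
  obtain ⟨v, hv0, hv⟩ := exists_killed J hne
  obtain ⟨x, rfl⟩ := Submodule.Quotient.mk_surjective pP v
  refine ⟨x, fun h ↦ hv0 ((Submodule.Quotient.mk_eq_zero pP).mpr h), fun t ht ↦ ?_⟩
  have := hv t ht
  rw [← Submodule.Quotient.mk_smul, Submodule.Quotient.mk_eq_zero] at this
  exact this

/-- If no functional modulo `p` kills `B` and is an eigenfunctional, then an element congruent to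
one moves everything into `B`. -/
theorem exists_into_subgroup {R Y : Type*} [CommRing R] [AddCommGroup Y] [Module.Finite ℤ Y]
    {p : ℕ} [Fact p.Prime] (f : R →+* Module.End ℤ Y) (χ₀ : R →+* ZMod p) (B : AddSubgroup Y)
    (hB : ∀ t, ∀ y ∈ B, f t y ∈ B)
    (hdual : ∀ L : Y →+ ZMod p, (∀ y ∈ B, L y = 0) → (∀ t y, L (f t y) = χ₀ t * L y) → L = 0) :
    ∃ r, χ₀ r = 1 ∧ ∀ y, f r y ∈ B := by
  let mY : Module R Y := Module.compHom Y f
  let := mY
  have hsmul : ∀ (t : R) (y : Y), t • y = f t y := fun t y ↦ rfl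
  have : IsScalarTower ℤ R Y :=
    ⟨fun n t x ↦ by rw [hsmul, hsmul, map_zsmul, LinearMap.smul_apply]⟩
  have : Module.Finite R Y := Module.Finite.of_restrictScalars_finite ℤ _ _
  let Bm : Submodule R Y :=
    { carrier := B
      zero_mem' := B.zero_mem
      add_mem' := fun hx hy ↦ B.add_mem hx hy
      smul_mem' := fun t y hy ↦ hB t y hy }
  let m := RingHom.ker χ₀
  have htop : (⊤ : Submodule R (Y ⧸ Bm)) ≤ m • (⊤ : Submodule R (Y ⧸ Bm)) := by
    by_contra hnot
    obtain ⟨c, -, hc⟩ := SetLike.not_le_iff_exists.mp hnot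
    have hker : ∀ t : R, χ₀ t = 0 → ∀ d : (Y ⧸ Bm) ⧸ (m • (⊤ : Submodule R (Y ⧸ Bm))),
        t • d = 0 := by
      intro t ht d
      obtain ⟨y, rfl⟩ := Submodule.Quotient.mk_surjective _ d
      rw [← Submodule.Quotient.mk_smul, Submodule.Quotient.mk_eq_zero]
      exact Submodule.smul_mem_smul (RingHom.mem_ker.mpr ht) Submodule.mem_top
    have hpd : ∀ d : (Y ⧸ Bm) ⧸ (m • (⊤ : Submodule R (Y ⧸ Bm))), p • d = 0 := fun d ↦ by
      rw [← Nat.cast_smul_eq_nsmul R]
      exact hker _ (by rw [map_natCast, ZMod.natCast_self]) d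
    let instC : Module (ZMod p) ((Y ⧸ Bm) ⧸ (m • (⊤ : Submodule R (Y ⧸ Bm)))) :=
      AddCommGroup.zmodModule (n := p) hpd
    have hc' : (Submodule.Quotient.mk c : (Y ⧸ Bm) ⧸ (m • (⊤ : Submodule R (Y ⧸ Bm)))) ≠ 0 :=
      fun h ↦ hc ((Submodule.Quotient.mk_eq_zero _).mp h)
    obtain ⟨φ, hφ⟩ := Module.Projective.exists_dual_ne_zero (ZMod p) hc'
    obtain ⟨y, rfl⟩ := Submodule.Quotient.mk_surjective _ c
    let L : Y →+ ZMod p := φ.toAddMonoidHom.comp
      ((Submodule.mkQ (m • (⊤ : Submodule R (Y ⧸ Bm)))).toAddMonoidHom.comp Bm.mkQ.toAddMonoidHom)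
    have hL : L = 0 := hdual L
      (fun z hz ↦ by
        show φ (Submodule.mkQ _ (Bm.mkQ z)) = 0
        rw [show Bm.mkQ z = 0 from (Submodule.Quotient.mk_eq_zero Bm).mpr hz, map_zero, map_zero])
      (fun t z ↦ by
        show φ (Submodule.mkQ _ (Bm.mkQ (t • z))) = χ₀ t * φ (Submodule.mkQ _ (Bm.mkQ z))
        obtain ⟨n, hn⟩ := ZMod.intCast_surjective (χ₀ t)
        set d := Submodule.mkQ (m • (⊤ : Submodule R (Y ⧸ Bm))) (Bm.mkQ z)
        have h1 : (t - (n : R)) • d = 0 := hker _ (by rw [map_sub, map_intCast, hn, sub_self]) d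
        rw [sub_smul, sub_eq_zero, Int.cast_smul_eq_zsmul] at h1
        rw [_root_.map_smul, _root_.map_smul, h1, map_zsmul, ← hn, zsmul_eq_mul])
    exact hφ (DFunLike.congr_fun hL y)
  obtain ⟨r, hr, hr0⟩ := Submodule.exists_sub_one_mem_and_smul_eq_zero_of_fg_of_le_smul
    m _ Module.Finite.fg_top htop
  refine ⟨r, by rwa [RingHom.mem_ker, map_sub, map_one, sub_eq_zero] at hr, fun y ↦ ?_⟩
  have := hr0 (Submodule.Quotient.mk y) Submodule.mem_top
  rw [← Submodule.Quotient.mk_smul, Submodule.Quotient.mk_eq_zero] at this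
  exact this

/-- A finite torsion-free commutative `ℤ`-algebra has a character to the algebraic integers
carrying a given maximal ideal into a maximal ideal. -/
theorem exists_lift_of_isMaximal {T : Type*} [CommRing T] [IsAddTorsionFree T]
    [Module.Finite ℤ T] (m : Ideal T) [m.IsMaximal] :
    ∃ (χ : T →+* integralClosure ℤ ℂ) (𝔪 : Ideal (integralClosure ℤ ℂ)), 𝔪.IsMaximal ∧
      ∀ t ∈ m, χ t ∈ 𝔪 := by
  obtain ⟨P, hPmin, hPle⟩ := Ideal.exists_minimalPrimes_le (bot_le : (⊥ : Ideal T) ≤ m)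
  have : P.IsPrime := hPmin.isPrime
  have hinj : Function.Injective (algebraMap ℤ (T ⧸ P)) := by
    refine (injective_iff_map_eq_zero _).mpr fun n hn => by_contra fun hn0 => ?_
    rw [IsScalarTower.algebraMap_apply ℤ T (T ⧸ P), Ideal.Quotient.algebraMap_eq,
      Ideal.Quotient.eq_zero_iff_mem] at hn
    refine Set.disjoint_left.mp (Ideal.disjoint_nonZeroDivisors_of_mem_minimalPrimes hPmin) hn ?_
    refine mem_nonZeroDivisors_iff_right.mpr fun x hx => ?_
    rw [eq_intCast, mul_comm, ← zsmul_eq_mul] at hx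
    exact (smul_eq_zero.mp hx).resolve_left hn0
  have : FaithfulSMul ℤ (T ⧸ P) := (faithfulSMul_iff_algebraMap_injective ℤ (T ⧸ P)).mpr hinj
  have : Module.IsTorsionFree ℤ (T ⧸ P) :=
    Module.IsTorsionFree.trans_faithfulSMul ℤ (T ⧸ P) (T ⧸ P)
  have : Algebra.IsAlgebraic ℤ (T ⧸ P) := inferInstance
  let φ : T ⧸ P →ₐ[ℤ] ℂ := IsAlgClosed.lift
  let ψ : T →ₐ[ℤ] ℂ := φ.comp (Ideal.Quotient.mkₐ ℤ P)
  let χ : T →ₐ[ℤ] integralClosure ℤ ℂ :=
    ψ.codRestrict _ fun t => (Algebra.IsIntegral.isIntegral t).map ψ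
  have hφ : Function.Injective φ := by
    refine (injective_iff_map_eq_zero φ).mpr fun y hy => ?_
    have hker : RingHom.ker φ.toRingHom = ⊥ := by
      refine Ideal.eq_bot_of_comap_eq_bot (R := ℤ) ?_
      rw [eq_bot_iff]
      intro n hn
      simp only [Ideal.mem_comap, RingHom.mem_ker, AlgHom.toRingHom_eq_coe,
        eq_intCast, map_intCast, Int.cast_eq_zero] at hn
      exact hn
    have : y ∈ RingHom.ker φ.toRingHom := hy
    rwa [hker, Ideal.mem_bot] at this
  let : Algebra T (integralClosure ℤ ℂ) := χ.toRingHom.toAlgebra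
  have : IsScalarTower ℤ T (integralClosure ℤ ℂ) := IsScalarTower.of_algHom χ
  have : Algebra.IsIntegral T (integralClosure ℤ ℂ) :=
    Algebra.IsIntegral.tower_top (R := ℤ)
  obtain ⟨Q, hQ, hQc⟩ := Ideal.exists_ideal_over_maximal_of_isIntegral
    (S := integralClosure ℤ ℂ) m (by
      intro t ht
      have : φ (Ideal.Quotient.mk P t) = 0 := congrArg Subtype.val (RingHom.mem_ker.mp ht)
      exact hPle (Ideal.Quotient.eq_zero_iff_mem.mp (hφ (by rw [this, map_zero]))))
  refine ⟨χ.toRingHom, Q, hQ, fun t ht => ?_⟩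
  have : t ∈ Q.comap (algebraMap T (integralClosure ℤ ℂ)) := by rw [hQc]; exact ht
  exact this

end FermatAgent.Ihara
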