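import Fermat.Agent.Ihara.Basic

/-!
The congruence lemma replacing the congruence subgroup property of `SL₂(ℤ[1/q])`: a modular
symbol which is invariant under `Γ₀(N)` and `diag(q, 1/q)` does not see rational translations of
sufficiently deep cusps.
-/

set_option autoImplicit false

namespace FermatAgent.Ihara

open Matrix OnePoint

theorem int_pow_totient_dvd {a M : ℤ} (h : IsCoprime a M) (j : ℕ) :
    M ∣ a ^ (M.natAbs.totient * j) - 1 := by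
  have hcop : a.natAbs.Coprime M.natAbs := Int.isCoprime_iff_gcd_eq_one.mp h
  rw [← Int.natAbs_dvd, ← ZMod.intCast_zmod_eq_zero_iff_dvd]
  push_cast
  have hu : IsUnit (a : ZMod M.natAbs) := by
    rw [ZMod.coe_int_isUnit_iff_isCoprime]
    exact (Int.isCoprime_iff_gcd_eq_one.mpr (by simpa [Int.gcd, Int.natAbs_abs] using hcop)).symm
  obtain ⟨u, hu⟩ := hu
  rw [← hu, ← Units.val_pow_eq_pow_val, pow_mul, ZMod.pow_totient, one_pow, Units.val_one, sub_self]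

theorem exists_pow_mul_not_dvd {r : ℕ} (hr : r.Prime) {c : ℤ} (hc : c ≠ 0) :
    ∃ (e : ℕ) (C : ℤ), c = (r : ℤ) ^ e * C ∧ ¬ (r : ℤ) ∣ C := by
  have hfin : FiniteMultiplicity (r : ℤ) c :=
    Int.finiteMultiplicity_iff.mpr ⟨by simpa using hr.ne_one, hc⟩
  obtain ⟨C, hC⟩ := pow_multiplicity_dvd (r : ℤ) c
  refine ⟨_, C, hC, fun ⟨D, hD⟩ ↦ hfin.not_pow_dvd_of_multiplicity_lt (lt_add_one _) ⟨D, ?_⟩⟩
  rw [hD] at hC
  linear_combination hC

/-- Lifting the exponent for powers congruent to one. -/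
theorem exists_pow_sub_one_eq {r : ℕ} (_hr : r.Prime) {Q w : ℤ} {S : ℕ} (hS : 2 ≤ S)
    (hQ : Q - 1 = (r : ℤ) ^ S * w) (hw : ¬ (r : ℤ) ∣ w) (j : ℕ) :
    ∃ w' : ℤ, Q ^ r ^ j - 1 = (r : ℤ) ^ (S + j) * w' ∧ ¬ (r : ℤ) ∣ w' := by
  induction j with
  | zero => exact ⟨w, by simpa using hQ, hw⟩
  | succ j ih =>
    obtain ⟨v, hv, hv'⟩ := ih
    obtain ⟨X, hX⟩ := Polynomial.powAddExpansion (1 : ℤ) ((r : ℤ) ^ (S + j) * v) r
    obtain ⟨U, hU⟩ : ∃ U, S + j = U + 2 := ⟨S + j - 2, by omega⟩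
    refine ⟨v + (r : ℤ) ^ (U + 1) * (X * v ^ 2), ?_, fun h ↦ hv' ?_⟩
    · rw [pow_succ r j, pow_mul, show Q ^ r ^ j = 1 + (r : ℤ) ^ (S + j) * v by linear_combination hv,
        hX, show S + (j + 1) = U + 3 by omega, hU]
      ring
    · exact (dvd_add_left (dvd_mul_of_dvd_left (dvd_pow_self _ (Nat.succ_ne_zero U)) _)).mp h

/-- The arithmetic input: a suitable power of `q²` realises a prescribed translation. -/
theorem exists_scaling {q r m : ℕ} (hq : q.Prime) (hr : r.Prime) (hqr : q ≠ r) (hm : m ≠ 0)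
    {a c : ℤ} (hac : IsCoprime a c) (hrc : ((r : ℤ) ^ (2 * m)) ∣ c) (hqc : ¬ (q : ℤ) ∣ c) :
    ∃ i n : ℕ, a ∣ (r : ℤ) ^ i - 1 ∧
      ∃ d : ℤ, a * ((q : ℤ) ^ (2 * n) - 1) * (r : ℤ) ^ m - c * (r : ℤ) ^ i =
        c * (r : ℤ) ^ i * (r : ℤ) ^ m * d := by
  have hc : c ≠ 0 := fun h ↦ hqc (h ▸ dvd_zero _)
  obtain ⟨e₁, C, hcC, hC⟩ := exists_pow_mul_not_dvd hr hc
  have hrC : IsCoprime (r : ℤ) C := (Nat.prime_iff_prime_int.mp hr).coprime_iff_not_dvd.mpr hC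
  have hra : IsCoprime (r : ℤ) a :=
    (hac.of_isCoprime_of_dvd_right ((dvd_pow_self _ (by omega)).trans hrc)).symm
  have hqC : IsCoprime (q : ℤ) C := (Nat.prime_iff_prime_int.mp hq).coprime_iff_not_dvd.mpr
    fun h ↦ hqc (hcC ▸ dvd_mul_of_dvd_right h _)
  have hqr' : IsCoprime (q : ℤ) ((r : ℤ) ^ 2) := by
    refine IsCoprime.pow_right ((Nat.prime_iff_prime_int.mp hq).coprime_iff_not_dvd.mpr fun h ↦ ?_)
    exact hqr ((Nat.prime_dvd_prime_iff_eq hq hr).mp (by exact_mod_cast h))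
  -- a power `Q` of `q²` congruent to one modulo `C` and `r²`
  set k₀ := C.natAbs.totient * ((r : ℤ) ^ 2).natAbs.totient with hk₀
  have hk₀pos : 0 < k₀ := Nat.mul_pos
    (Nat.totient_pos.mpr (Int.natAbs_pos.mpr fun h ↦ hC (h ▸ dvd_zero _)))
    (Nat.totient_pos.mpr (Int.natAbs_pos.mpr (pow_ne_zero _ (by exact_mod_cast hr.ne_zero))))
  have hQC : C ∣ (q : ℤ) ^ (2 * k₀) - 1 := by
    rw [show 2 * k₀ = C.natAbs.totient * (2 * ((r : ℤ) ^ 2).natAbs.totient) by rw [hk₀]; ring]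
    exact int_pow_totient_dvd hqC _
  have hQr : (r : ℤ) ^ 2 ∣ (q : ℤ) ^ (2 * k₀) - 1 := by
    rw [show 2 * k₀ = ((r : ℤ) ^ 2).natAbs.totient * (2 * C.natAbs.totient) by rw [hk₀]; ring]
    exact int_pow_totient_dvd hqr' _
  have hQne : (q : ℤ) ^ (2 * k₀) - 1 ≠ 0 := by
    have : (1 : ℤ) < (q : ℤ) ^ (2 * k₀) := one_lt_pow₀ (by exact_mod_cast hq.one_lt) (by omega)
    omega
  obtain ⟨S, w, hS, hw⟩ := exists_pow_mul_not_dvd hr hQne
  have hS2 : 2 ≤ S := by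
    by_contra hlt
    obtain ⟨D, hD⟩ := (pow_dvd_pow (r : ℤ) (show S + 1 ≤ 2 by omega)).trans hQr
    refine hw ⟨D, mul_left_cancel₀ (pow_ne_zero S (Int.natCast_ne_zero.mpr hr.ne_zero)) ?_⟩
    rw [← hS, hD, pow_succ]; ring
  have he₁ : 2 * m ≤ e₁ := by
    by_contra hlt
    obtain ⟨D, hD⟩ := (pow_dvd_pow (r : ℤ) (show e₁ + 1 ≤ 2 * m by omega)).trans hrc
    refine hC ⟨D, mul_left_cancel₀ (pow_ne_zero e₁ (Int.natCast_ne_zero.mpr hr.ne_zero)) ?_⟩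
    rw [← hcC, hD, pow_succ]; ring
  set i := a.natAbs.totient * (S + m) with hi
  have hi' : S + m ≤ i := Nat.le_mul_of_pos_left _ (Nat.totient_pos.mpr (Int.natAbs_pos.mpr fun h ↦ by
    subst h
    obtain h1 | h1 := Int.isUnit_iff.mp (isCoprime_zero_left.mp hac) <;>
    · subst h1
      have := Int.le_of_dvd one_pos ((dvd_pow_self (r : ℤ) (show 2 * m ≠ 0 by omega)).trans
        (by simpa using hrc))
      have := hr.two_le
      omega))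
  obtain ⟨j, hj⟩ : ∃ j, e₁ + i = S + j + m := ⟨e₁ + i - m - S, by omega⟩
  obtain ⟨v, hv, hv'⟩ := exists_pow_sub_one_eq hr hS2 hS hw j
  -- solve for the multiple
  have hrv : IsCoprime (a * v) ((r : ℤ) ^ m) := IsCoprime.pow_right (IsCoprime.mul_left hra.symm
    ((Nat.prime_iff_prime_int.mp hr).coprime_iff_not_dvd.mpr hv').symm)
  obtain ⟨s, t, hst⟩ := hrv
  obtain ⟨k, z, hk⟩ : ∃ (k : ℕ) (z : ℤ), (k : ℤ) = s * C + (r : ℤ) ^ m * z := by
    have hpos : (0 : ℤ) < (r : ℤ) ^ m := pow_pos (by exact_mod_cast hr.pos) m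
    refine ⟨((s * C) % (r : ℤ) ^ m).toNat, -((s * C) / (r : ℤ) ^ m), ?_⟩
    rw [Int.toNat_of_nonneg (Int.emod_nonneg _ hpos.ne')]
    linear_combination Int.emod_add_mul_ediv (s * C) ((r : ℤ) ^ m)
  refine ⟨i, k₀ * r ^ j * k, int_pow_totient_dvd hra (S + m), ?_⟩
  obtain ⟨X, hX⟩ := Polynomial.powAddExpansion (1 : ℤ) ((r : ℤ) ^ (S + j) * v) k
  have hP : (q : ℤ) ^ (2 * (k₀ * r ^ j * k)) - 1 =
      (r : ℤ) ^ (S + j) * v * k + X * ((r : ℤ) ^ (S + j) * v) ^ 2 := by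
    rw [show 2 * (k₀ * r ^ j * k) = 2 * k₀ * r ^ j * k by ring, pow_mul, pow_mul,
      show ((q : ℤ) ^ (2 * k₀)) ^ r ^ j = 1 + (r : ℤ) ^ (S + j) * v by linear_combination hv, hX]
    ring
  have hPC : C ∣ (q : ℤ) ^ (2 * (k₀ * r ^ j * k)) - 1 := by
    refine hQC.trans ?_
    rw [show 2 * (k₀ * r ^ j * k) = 2 * k₀ * (r ^ j * k) by ring,
      pow_mul (q : ℤ) (2 * k₀) (r ^ j * k)]
    exact sub_one_dvd_pow_sub_one ((q : ℤ) ^ (2 * k₀)) _
  -- the difference is divisible by `r^(e₁+i)` and by `C` after dividing by `r^m`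
  suffices h : (r : ℤ) ^ (e₁ + i) * C ∣
      a * ((q : ℤ) ^ (2 * (k₀ * r ^ j * k)) - 1) - C * (r : ℤ) ^ (S + j) by
    obtain ⟨d, hd⟩ := h
    refine ⟨d, ?_⟩
    rw [hcC, show (r : ℤ) ^ e₁ * C * (r : ℤ) ^ i = C * (r : ℤ) ^ (e₁ + i) by rw [pow_add]; ring]
    have hpow : (r : ℤ) ^ (e₁ + i) = (r : ℤ) ^ (S + j) * (r : ℤ) ^ m := by rw [hj, pow_add]
    linear_combination (r : ℤ) ^ m * hd - C * hpow
  refine IsCoprime.mul_dvd (IsCoprime.pow_left hrC) ?_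
    (dvd_sub (dvd_mul_of_dvd_right hPC _) (dvd_mul_right _ _))
  rw [hP, hj]
  obtain ⟨U, hU⟩ : ∃ U, S + j = U + m := ⟨S + j - m, by omega⟩
  refine ⟨z * a * v - t * C + (r : ℤ) ^ U * (a * X * v ^ 2), ?_⟩
  simp only [pow_add, hU] at *
  linear_combination ((r : ℤ) ^ U * (r : ℤ) ^ m * a * v) * hk +
    ((r : ℤ) ^ U * (r : ℤ) ^ m * C) * hst

section

variable {k : Type*} [AddCommGroup k]

/-- Additivity of a symbol. -/
def IsAddSymb (φ : Cusp × Cusp → k) : Prop := ∀ x y z, φ (x, z) = φ (x, y) + φ (y, z)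

theorem IsAddSymb.self_eq {φ : Cusp × Cusp → k} (h : IsAddSymb φ) (x : Cusp) : φ (x, x) = 0 := by
  simpa using h x x x

theorem IsAddSymb.swap {φ : Cusp × Cusp → k} (h : IsAddSymb φ) (x y : Cusp) :
    φ (y, x) = -φ (x, y) := by
  have := h x y x
  rw [h.self_eq, eq_comm, add_eq_zero_iff_eq_neg] at this
  rw [this, neg_neg]

variable {N : ℕ} {φ : Cusp × Cusp → k}

/-- An invariance matrix with a fixed cusp does not change `φ(∞, ·)`. -/
theorem apply_smul_of_fixed (hadd : IsAddSymb φ) {γ : G2}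
    (hγ : ∀ x y, φ (γ • x, γ • y) = φ (x, y)) {w : Cusp} (hw : γ • w = w) (y : Cusp) :
    φ (∞, γ • y) = φ (∞, y) := by
  rw [hadd _ (γ • ∞), hγ]
  have : φ (∞, γ • ∞) = 0 := by
    have h := hγ w ∞
    rw [hw] at h
    rw [hadd _ w, h, hadd.swap w ∞, neg_add_cancel]
  rw [this, zero_add]

theorem lower_smul_coe (T : ℚ) (a c : ℚ) (hc : c ≠ 0) (hc' : c + T * a ≠ 0) :
    lower T • ((a / c : ℚ) : Cusp) = ((a / (c + T * a) : ℚ) : Cusp) := by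
  have h0 : T * (a / c) + 1 ≠ 0 := by
    rw [show T * (a / c) + 1 = (c + T * a) / c by field_simp; ring]
    exact div_ne_zero hc' hc
  simp [lower, smul_some_eq_ite, h0]
  field_simp
  ring

theorem lower_smul_zero (T : ℚ) : lower T • ((0 : ℚ) : Cusp) = ((0 : ℚ) : Cusp) := by
  simp [lower, smul_some_eq_ite]

/-- Moving the denominator inside its class modulo `N L² a`. -/
theorem symbol_move_denominator (hadd : IsAddSymb φ) (hφ : IsInv (G0 N) φ) (L : ℕ) (hL : L ≠ 0)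
    {a c t : ℤ} (hc : c ≠ 0) (hc' : c + N * L ^ 2 * t * a ≠ 0) :
    φ (∞, (((a : ℚ) / (c + N * L ^ 2 * t * a : ℤ)) : ℚ)) = φ (∞, ((a / c : ℚ) : Cusp)) ∧
      φ (∞, (((a : ℚ) / (c + N * L ^ 2 * t * a : ℤ) + 1 / L) : ℚ)) =
        φ (∞, ((a / c + 1 / L : ℚ) : Cusp)) := by
  set T : ℚ := ((N * L ^ 2 * t : ℤ) : ℚ) with hT
  have hcq : (c : ℚ) ≠ 0 := by exact_mod_cast hc
  have hcq' : (c : ℚ) + T * a ≠ 0 := by rw [hT]; exact_mod_cast hc'
  have hx : lower T • ((a / c : ℚ) : Cusp) =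
      (((a : ℚ) / (c + N * L ^ 2 * t * a : ℤ) : ℚ) : Cusp) := by
    rw [lower_smul_coe T a c hcq hcq', hT]; push_cast; ring_nf
  refine ⟨?_, ?_⟩
  · rw [← hx]
    refine apply_smul_of_fixed hadd (fun x y ↦ hφ _ ?_ (x, y)) (lower_smul_zero T) _
    have h := lower_mem_G0 N (L ^ 2 * t)
    rwa [← mul_assoc] at h
  · set γ := shift (1 / L : ℚ) * lower T * shift (-(1 / L) : ℚ) with hγ
    have hmem : γ ∈ G0 N := by
      refine mem_G0_iff.mpr ⟨1 + N * L * t, -(N * t), N * L ^ 2 * t, 1 - N * L * t, by ring,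
        ⟨L ^ 2 * t, by ring⟩, ?_, ?_, ?_, ?_⟩
      all_goals
        rw [hγ, mul_apply2, mul_apply2, mul_apply2]
        simp [lower, shift_apply, hT]
      all_goals field_simp
      all_goals ring
    have hfix : γ • ((1 / L : ℚ) : Cusp) = ((1 / L : ℚ) : Cusp) := by
      rw [hγ, mul_smul, mul_smul, shift_smul_coe, add_neg_cancel, lower_smul_zero, shift_smul_coe,
        zero_add]
    have hsm : γ • ((a / c + 1 / L : ℚ) : Cusp) =
        (((a : ℚ) / (c + N * L ^ 2 * t * a : ℤ) + 1 / L : ℚ) : Cusp) := by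
      rw [hγ, mul_smul, mul_smul, shift_smul_coe, add_neg_cancel_right, hx, shift_smul_coe]
    rw [← hsm]
    exact apply_smul_of_fixed hadd (fun x y ↦ hφ _ hmem (x, y)) hfix _

/-- **The congruence lemma.** -/
theorem symbol_shift_invariant (hadd : IsAddSymb φ) (hφ : IsInv (G0 N) φ) {q : ℕ} (hq : q.Prime)
    (hqN : ¬ q ∣ N) (hD : ∀ x y : Cusp,
      φ (diag2 q (q : ℚ)⁻¹ (by simp [hq.ne_zero]) • x, diag2 q (q : ℚ)⁻¹ (by simp [hq.ne_zero]) • y)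
        = φ (x, y))
    {r m : ℕ} (hr : r.Prime) (hrq : q ≠ r) {a c : ℤ} (hc : c ≠ 0) (hac : IsCoprime a c)
    (hdvd : ((N : ℤ) * ((r : ℤ) ^ m) ^ 2) ∣ c) :
    φ (∞, ((a / c + 1 / (r ^ m : ℕ) : ℚ) : Cusp)) = φ (∞, ((a / c : ℚ) : Cusp)) := by
  have hint : ∀ (x : ℚ) (n : ℤ), φ (∞, ((x + n : ℚ) : Cusp)) = φ (∞, (x : Cusp)) := fun x n ↦ by
    have h := hφ _ (shift_intCast_mem_G0 N n) (∞, (x : Cusp))
    simpa using h
  rcases Nat.eq_zero_or_pos m with rfl | hm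
  · simpa using hint (a / c) 1
  have hrc : (r : ℤ) ∣ c :=
    (dvd_mul_of_dvd_right (dvd_pow (dvd_pow_self _ hm.ne') two_ne_zero) _).trans hdvd
  have hscale : ∀ (x : ℚ) (n : ℕ),
      φ (∞, (((q : ℚ) ^ (2 * n) * x : ℚ) : Cusp)) = φ (∞, (x : Cusp)) := fun x n ↦ by
    induction n with
    | zero => simp
    | succ n ih =>
      have h := hD ∞ ((((q : ℚ) ^ (2 * n) * x : ℚ)) : Cusp)
      rw [ih] at h
      convert h using 3
      · simp [diag2, smul_infty_eq_ite]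
      · simp [diag2, smul_some_eq_ite, hq.ne_zero]
        field_simp
        ring
  -- first make the denominator prime to `q`
  obtain ⟨t, hqt⟩ : ∃ t : ℤ, ¬ (q : ℤ) ∣ c + N * (r ^ m : ℕ) ^ 2 * t * a := by
    by_cases hqc : (q : ℤ) ∣ c
    · refine ⟨1, fun h ↦ ?_⟩
      have hqa : ¬ (q : ℤ) ∣ a := fun ha ↦
        (Nat.prime_iff_prime_int.mp hq).not_isUnit (hac.isUnit_of_dvd' ha hqc)
      have hP := Nat.prime_iff_prime_int.mp hq
      rw [mul_one] at h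
      rcases hP.dvd_or_dvd ((dvd_add_right hqc).mp h) with h' | h'
      · rcases hP.dvd_or_dvd h' with h' | h'
        · exact hqN (by exact_mod_cast h')
        · exact hrq ((Nat.prime_dvd_prime_iff_eq hq hr).mp
            (hq.dvd_of_dvd_pow (by exact_mod_cast hP.dvd_of_dvd_pow h')))
      · exact hqa h'
    · exact ⟨0, by simpa using hqc⟩
  set c₁ := c + N * (r ^ m : ℕ) ^ 2 * t * a with hc₁
  have hc₁0 : c₁ ≠ 0 := fun h ↦ hqt (h ▸ dvd_zero _)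
  have hac₁ : IsCoprime a c₁ := hac.add_mul_left_right (N * (r ^ m : ℕ) ^ 2 * t) |>
    fun h ↦ by rw [hc₁, mul_comm _ a]; exact h
  have hd₁ : ((N : ℤ) * ((r : ℤ) ^ m) ^ 2) ∣ c₁ := by
    refine dvd_add hdvd ⟨t * a, ?_⟩
    push_cast; ring
  obtain ⟨e₁, e₁'⟩ := symbol_move_denominator (a := a) (t := t) hadd hφ (r ^ m)
    (pow_ne_zero _ hr.ne_zero) hc hc₁0
  rw [← e₁, ← e₁']
  -- then raise its `r`-part
  obtain ⟨i, n, ⟨w, hw⟩, d, hd⟩ := exists_scaling hq hr hrq hm.ne' hac₁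
    (by rw [pow_mul']; exact (dvd_mul_left _ _).trans hd₁) hqt
  obtain ⟨c₀, hc₀⟩ := hd₁
  have hc₂ : c₁ + N * (r ^ m : ℕ) ^ 2 * (c₀ * w) * a = c₁ * (r : ℤ) ^ i := by
    push_cast
    linear_combination c₁ * (-hw) + (-(a * w)) * hc₀
  have hc₂0 : c₁ * (r : ℤ) ^ i ≠ 0 :=
    mul_ne_zero hc₁0 (pow_ne_zero _ (by exact_mod_cast hr.ne_zero))
  obtain ⟨e₂, e₂'⟩ := symbol_move_denominator (a := a) (t := c₀ * w) hadd hφ (r ^ m)
    (pow_ne_zero _ hr.ne_zero) hc₁0 (hc₂ ▸ hc₂0)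
  rw [hc₂] at e₂ e₂'
  rw [← e₂, ← e₂', ← hint _ d, ← hscale (a / ((c₁ * (r : ℤ) ^ i : ℤ) : ℚ)) n]
  congr 3
  have hq' := congrArg (fun z : ℤ ↦ (z : ℚ)) hd
  have hr0 : (r : ℚ) ≠ 0 := by exact_mod_cast hr.ne_zero
  have hc₁q : (c₁ : ℚ) ≠ 0 := by exact_mod_cast hc₁0
  push_cast at hq' ⊢
  field_simp
  linear_combination -hq'

end

end FermatAgent.Ihara
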