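import Fermat.Agent.Ihara.Boundary

/-!
A symbol invariant under `Γ₀(N)` and `diag(q, 1/q)` is fixed by rational translations and by the
torus modulo boundary symbols; consequently `T_l² = (l+1)²` on it modulo boundary symbols, and
boundary symbols are killed by `T_l - (1+l)` for `l ≡ 1 mod M`.
-/

set_option autoImplicit false

namespace FermatAgent.Ihara

open Matrix OnePoint

/-- Representatives of `T_l`: `none` is `diag(l, 1)`, `some j` is `!![1, j; 0, l]`. -/
noncomputable def heckeMat (l : ℕ) [NeZero l] : Option (ZMod l) → G2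
  | none => mk2 l 0 0 1 (by simp [NeZero.ne l])
  | Option.some j => mk2 1 (j.val : ℕ) 0 l (by simp [NeZero.ne l])

variable {k : Type*} [AddCommGroup k]

/-- `T_l` on functions of pairs of cusps. -/
noncomputable def symT (l : ℕ) [NeZero l] (φ : Cusp × Cusp → k) : Cusp × Cusp → k :=
  fun p ↦ ∑ i, φ (heckeMat l i • p)

theorem symT_eq_sum (l : ℕ) [NeZero l] (φ : Cusp × Cusp → k) :
    symT l φ = ∑ i, slash φ (heckeMat l i) := by
  funext p; simp [symT]

theorem symT_sub (l : ℕ) [NeZero l] (φ ψ : Cusp × Cusp → k) :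
    symT l (φ - ψ) = symT l φ - symT l ψ := by
  funext p; simp [symT]

theorem symT_nsmul (l : ℕ) [NeZero l] (n : ℕ) (φ : Cusp × Cusp → k) :
    symT l (n • φ) = n • symT l φ := by
  funext p; simp [symT, Finset.smul_sum]

theorem IsBdry.symT {φ : Cusp × Cusp → k} (hφ : IsBdry φ) (l : ℕ) [NeZero l] :
    IsBdry (symT l φ) := by
  rw [symT_eq_sum]
  exact IsBdry.sum _ fun i _ ↦ hφ.slash _

/-- `diag(q, 1/q)`. -/
noncomputable def torus (t : ℚ) (ht : t ≠ 0) : G2 := diag2 t t⁻¹ (by simp [ht])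

set_option linter.unnecessarySeqFocus false in
theorem torus_conj_shift {t : ℚ} (ht : t ≠ 0) (y : ℚ) :
    (torus t ht)⁻¹ * shift y * torus t ht = shift (y / t ^ 2) := by
  rw [mul_assoc, inv_mul_eq_iff_eq_mul]
  refine g2_ext ?_ ?_ ?_ ?_ <;> simp [torus, diag2, shift_apply, mul_apply2] <;> field_simp

variable {N q : ℕ} {φ : Cusp × Cusp → k}

/-- Hypotheses on `φ`: a symbol for `Γ₀(N)` fixed by `diag(q, 1/q)`. -/
structure IsQInv (N q : ℕ) (φ : Cusp × Cusp → k) : Prop where
  prime : q.Prime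
  not_dvd : ¬ q ∣ N
  symb : IsSymb (G0 N : Set G2) φ
  torus_inv : ∀ p : Cusp × Cusp,
    φ (torus q (Nat.cast_ne_zero.mpr prime.ne_zero) • p) = φ p

theorem IsQInv.pos (h : IsQInv N q φ) : 0 < N :=
  Nat.pos_of_ne_zero fun h0 ↦ h.not_dvd (h0 ▸ dvd_zero q)

theorem IsQInv.torus_mem (h : IsQInv N q φ) :
    torus q (Nat.cast_ne_zero.mpr h.prime.ne_zero) ∈ fixBdry φ :=
  mem_fixBdry_of_isInv (H := {torus q (Nat.cast_ne_zero.mpr h.prime.ne_zero)})
    (fun _ hg p ↦ by rw [Set.mem_singleton_iff] at hg; rw [hg]; exact h.torus_inv p) rfl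

theorem IsQInv.shift_prime_pow (h : IsQInv N q φ) {r m : ℕ} (hr : r.Prime) (hrq : q ≠ r) :
    shift (1 / (r ^ m : ℕ)) ∈ fixBdry φ := by
  set L := r ^ m with hL
  have hL0 : L ≠ 0 := pow_ne_zero _ hr.ne_zero
  refine ⟨N * L ^ 2, Nat.mul_pos h.pos (pow_pos (Nat.pos_of_ne_zero hL0) 2), fun g hg x ↦ ?_⟩
  obtain ⟨a, b, c, d, hdet, ⟨xa, hxa⟩, ⟨xb, hxb⟩, hc, ⟨xd, hxd⟩, ha, hb, hc', hd⟩ :=
    mem_GM_iff.mp hg
  push_cast at hxa hxb hxd
  obtain ⟨xc, hxc⟩ : ((N : ℤ) * (L : ℤ) ^ 2) ∣ c := by exact_mod_cast hc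
  set u := shift (1 / (L : ℚ)) with hu
  -- the conjugate by the translation lies in `Γ₀(N)`
  have hconj : u * g * u⁻¹ ∈ G0 N := by
    refine mem_G0_iff.mpr ⟨a + N * L * xc, b + N * L * (xd - xa) - N * xc, c, d - N * L * xc,
      ?_, ⟨(L : ℤ) ^ 2 * xc, by rw [hxc]; ring⟩, ?_, ?_, ?_, ?_⟩
    · rw [hxc] at hdet ⊢
      linear_combination hdet - (N * L * xc) * hxa + (N * L * xc) * hxd
    all_goals
      rw [hu, ← shift_neg, mul_apply2, mul_apply2, mul_apply2]
      simp [shift_apply, ha, hb, hc', hd]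
    · have : (c : ℚ) = N * L ^ 2 * xc := by exact_mod_cast hxc
      rw [this]; field_simp
    · have e : (c : ℚ) = N * L ^ 2 * xc := by exact_mod_cast hxc
      have e1 : (a : ℚ) - 1 = N * L ^ 2 * xa := by exact_mod_cast hxa
      have e2 : (d : ℚ) - 1 = N * L ^ 2 * xd := by exact_mod_cast hxd
      rw [e, show (a : ℚ) = 1 + N * L ^ 2 * xa by linear_combination e1,
        show (d : ℚ) = 1 + N * L ^ 2 * xd by linear_combination e2]
      field_simp
      ring
    · have : (c : ℚ) = N * L ^ 2 * xc := by exact_mod_cast hxc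
      rw [this]; field_simp; ring
  have hψinv : ∀ y z : Cusp, (slash φ u - φ) (g • y, g • z) = (slash φ u - φ) (y, z) := fun y z ↦ by
    have h1 := h.symb.inv _ hconj (u • y, u • z)
    simp only [Prod.smul_mk, mul_smul, inv_smul_smul] at h1
    have h2 := h.symb.inv _ (GM_le_G0 (dvd_mul_right N _) hg) (y, z)
    simp only [Prod.smul_mk] at h2
    simp [h1, h2]
  have hψadd : IsAddSymb (slash φ u - φ) := fun y z w ↦ by
    simp [h.symb.add (u • y) (u • z) (u • w), h.symb.add y z w]
    abel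
  have hinf : (slash φ u - φ) (∞, g • ∞) = 0 := by
    by_cases hc0 : c = 0
    · have : g • (∞ : Cusp) = ∞ := smul_infty_eq_self_iff.mpr (by simp [hc', hc0])
      rw [this]; exact hψadd.self_eq _
    · have hgi : g • (∞ : Cusp) = ((a / c : ℚ) : Cusp) := by
        simp [smul_infty_eq_ite, ha, hc', hc0]
      have hD : ∀ y z : Cusp, φ (diag2 q (q : ℚ)⁻¹ (by simp [h.prime.ne_zero]) • y,
          diag2 q (q : ℚ)⁻¹ (by simp [h.prime.ne_zero]) • z) = φ (y, z) :=
        fun y z ↦ h.torus_inv (y, z)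
      have := symbol_shift_invariant h.symb.add h.symb.inv h.prime h.not_dvd hD hr hrq (m := m) (a := a) (c := c)
        hc0 ⟨d, -b, by linear_combination hdet⟩ ⟨xc, by rw [hxc, hL]; push_cast; ring⟩
      simp [hgi, hu, hL] at this ⊢
      rw [this, sub_self]
  rw [hψadd x ∞, hψadd ∞ (g • ∞), hinf, zero_add, hψinv, hψadd.swap x ∞, add_neg_cancel]

theorem IsQInv.shift_q_pow (h : IsQInv N q φ) (m : ℕ) :
    shift (1 / (q ^ m : ℕ)) ∈ fixBdry φ := by
  have hq0 : (q : ℚ) ≠ 0 := Nat.cast_ne_zero.mpr h.prime.ne_zero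
  have hz : ∀ n : ℕ, ∀ e : ℤ, shift ((e : ℚ) / (q : ℚ) ^ (2 * n)) ∈ fixBdry φ := by
    intro n
    induction n with
    | zero =>
      intro e
      simpa using mem_fixBdry_of_isInv h.symb.inv (shift_intCast_mem_G0 N e)
    | succ n ih =>
      intro e
      have := mul_mem (mul_mem (inv_mem h.torus_mem) (ih e)) h.torus_mem
      rw [torus_conj_shift] at this
      rwa [div_div, ← pow_add] at this
  have := hz m (q ^ m : ℕ)
  rwa [show (((q ^ m : ℕ) : ℤ) : ℚ) / (q : ℚ) ^ (2 * m) = 1 / ((q ^ m : ℕ) : ℚ) by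
    push_cast; rw [two_mul, pow_add]; field_simp] at this

/-- All rational translations fix `φ` modulo boundary symbols. -/
theorem IsQInv.shift_mem (h : IsQInv N q φ) (y : ℚ) : shift y ∈ fixBdry φ := by
  have hzs : ∀ (y : ℚ) (e : ℤ), shift y ∈ fixBdry φ → shift (e * y) ∈ fixBdry φ := fun y e hy ↦ by
    have := zpow_mem hy e
    rwa [show shift y ^ e = shift (e * y) by
      rw [shift, shift, ← AddChar.map_zsmul_eq_zpow, zsmul_eq_mul]] at this
  have hone : ∀ n : ℕ, 0 < n → shift (1 / (n : ℚ)) ∈ fixBdry φ := by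
    intro n
    induction n using Nat.recOnPrimeCoprime with
    | zero => intro h0; exact absurd h0 (lt_irrefl 0)
    | prime_pow r m hr =>
      intro _
      by_cases hrq : q = r
      · subst hrq; exact h.shift_q_pow m
      · exact h.shift_prime_pow hr hrq
    | coprime A B hA hB hcop ihA ihB =>
      intro _
      obtain ⟨s, t, hst⟩ := (Int.isCoprime_iff_gcd_eq_one.mpr (by simpa [Int.gcd] using hcop) :
        IsCoprime (A : ℤ) (B : ℤ))
      have hst' : (s : ℚ) * A + t * B = 1 := by exact_mod_cast hst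
      have := mul_mem (hzs _ t (ihA (by omega))) (hzs _ s (ihB (by omega)))
      rw [← shift_add] at this
      convert this using 2
      have : (A : ℚ) ≠ 0 := by exact_mod_cast (by omega : A ≠ 0)
      have : (B : ℚ) ≠ 0 := by exact_mod_cast (by omega : B ≠ 0)
      push_cast
      field_simp
      linear_combination -hst'
  have := hzs _ y.num (hone y.den y.den_pos)
  rwa [mul_one_div, Rat.num_div_den] at this

/-- The torus element `diag(l, 1/l)` fixes `φ` modulo boundary symbols. -/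
theorem IsQInv.torus_natCast_mem (h : IsQInv N q φ) (l : ℕ) (hl : (l : ℚ) ≠ 0) :
    torus l hl ∈ fixBdry φ := by
  have hN : (N : ℚ) ≠ 0 := Nat.cast_ne_zero.mpr h.pos.ne'
  have hw : ∀ (e : ℕ) (he : e ≠ 0), mk2 0 (-(1 / ((N : ℚ) * e))) ((N : ℚ) * e) 0
      (by simp [hN, he]) ∈ fixBdry φ := fun e he ↦ by
    have hlow : lower ((N : ℚ) * e) ∈ fixBdry φ := by
      have := mem_fixBdry_of_isInv h.symb.inv (lower_mem_G0 N e)
      simpa using this
    have := mul_mem (mul_mem (h.shift_mem (-(1 / ((N : ℚ) * e)))) hlow)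
      (h.shift_mem (-(1 / ((N : ℚ) * e))))
    convert this using 1
    have : (e : ℚ) ≠ 0 := Nat.cast_ne_zero.mpr he
    refine g2_ext ?_ ?_ ?_ ?_ <;> simp [lower, shift_apply, mul_apply2, hN, he] <;> field_simp <;> ring
  have hl' : l ≠ 0 := by exact_mod_cast hl
  have := mul_mem (hw 1 one_ne_zero) (inv_mem (hw l hl'))
  convert this using 1
  rw [eq_mul_inv_iff_mul_eq]
  refine g2_ext ?_ ?_ ?_ ?_ <;> simp [torus, diag2, mul_apply2] <;> field_simp

variable {l : ℕ} [NeZero l]

/-- Modulo boundary symbols every term of `T_l φ` is `φ|diag(l, 1)`. -/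
theorem IsQInv.symT_sub_bdry (h : IsQInv N q φ) :
    IsBdry (symT l φ - (l + 1) • slash φ (heckeMat l none)) := by
  have hl : (l : ℚ) ≠ 0 := Nat.cast_ne_zero.mpr (NeZero.ne l)
  have : symT l φ - (l + 1) • slash φ (heckeMat l none) =
      ∑ i, (slash φ (heckeMat l i) - slash φ (heckeMat l none)) := by
    rw [symT_eq_sum, Finset.sum_sub_distrib, Finset.sum_const, Finset.card_univ,
      Fintype.card_option, ZMod.card]
  rw [this]
  refine IsBdry.sum _ fun i _ ↦ ?_
  cases i with
  | none => simpa using IsBdry.zero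
  | some j =>
    have hmem := mul_mem (inv_mem (h.torus_natCast_mem l hl)) (h.shift_mem ((l : ℚ) * (j.val : ℕ)))
    have := (mem_fixBdry.mp hmem).slash (heckeMat l none)
    convert this using 1
    funext p
    simp only [Pi.sub_apply, slash_apply]
    congr 2
    rw [smul_smul]
    congr 1
    rw [mul_assoc, eq_inv_mul_iff_mul_eq]
    refine g2_ext ?_ ?_ ?_ ?_ <;>
      simp [heckeMat, torus, diag2, shift_apply, mul_apply2]

/-- `T_l² = (l+1)²` modulo boundary symbols. -/
theorem IsQInv.symT_symT_sub_bdry (h : IsQInv N q φ) :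
    IsBdry (symT l (symT l φ) - ((l + 1) * (l + 1)) • φ) := by
  have hl : (l : ℚ) ≠ 0 := Nat.cast_ne_zero.mpr (NeZero.ne l)
  have h1 := (h.symT_sub_bdry (l := l)).symT l
  have h2 : IsBdry (symT l (slash φ (heckeMat l none)) - (l + 1) • φ) := by
    have : symT l (slash φ (heckeMat l none)) - (l + 1) • φ =
        ∑ i, (slash φ (heckeMat l none * heckeMat l i) - φ) := by
      rw [symT_eq_sum, Finset.sum_sub_distrib, Finset.sum_const, Finset.card_univ,
        Fintype.card_option, ZMod.card]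
      simp [slash_mul]
    rw [this]
    refine IsBdry.sum _ fun i _ ↦ ?_
    cases i with
    | none =>
      convert mem_fixBdry.mp (h.torus_natCast_mem l hl) using 1
      funext p
      simp only [Pi.sub_apply, slash_apply]
      rw [smul_pair_eq (c := (l : ℚ)) hl (h := torus l hl) ?_ p]
      intro a b
      fin_cases a <;> fin_cases b <;> simp [heckeMat, torus, diag2, mul_apply2, hl]
    | some j =>
      convert mem_fixBdry.mp (mem_fixBdry_of_isInv h.symb.inv
        (shift_intCast_mem_G0 N (j.val : ℕ))) using 1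
      funext p
      simp only [Pi.sub_apply, slash_apply]
      rw [smul_pair_eq (c := (l : ℚ)) hl (h := shift (((j.val : ℕ) : ℤ) : ℚ)) ?_ p]
      intro a b
      fin_cases a <;> fin_cases b <;> simp [heckeMat, shift_apply, mul_apply2]
  convert h1.add (h2.nsmul (l + 1)) using 1
  rw [symT_sub, symT_nsmul, smul_sub, smul_smul]
  abel

omit [NeZero l] in
/-- Boundary symbols are Eisenstein: `T_l = 1 + l` for `l ≡ 1` modulo their level. -/
theorem eisenstein_of_bdry [NeZero l] {ψ : Cusp × Cusp → k} (hψ : IsSymb (G0 N : Set G2) ψ)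
    {M : ℕ} (hbd : ∀ g ∈ GM M, ∀ x : Cusp, ψ (x, g • x) = 0) (hl : l.Prime)
    (hlM : (M : ℤ) ∣ (l : ℤ) - 1) : symT l ψ = (l + 1) • ψ := by
  set b : Cusp → k := fun x ↦ ψ (∞, x) with hb
  have hψb : ∀ x y, ψ (x, y) = b y - b x := fun x y ↦ by
    simp [hb, hψ.add ∞ x y]
  have hbinv : ∀ g ∈ GM M, ∀ x, b (g • x) = b x := fun g hg x ↦ by
    simp [hb, hψ.add ∞ x (g • x), hbd g hg x]
  -- integral matrices of determinant `l` congruent to one do not move `b`
  have hmat : ∀ (A B C D : ℤ), A * D - B * C = l → (M : ℤ) ∣ A - 1 → (M : ℤ) ∣ B → (M : ℤ) ∣ C →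
      (M : ℤ) ∣ D - 1 → ∀ (g : G2), g 0 0 = A → g 0 1 = B → g 1 0 = C → g 1 1 = D →
      ∀ x, b (g • x) = b x := by
    intro A B C D hdet hA hB hC hD g hgA hgB hgC hgD x
    obtain ⟨u, v, huv, rfl⟩ := exists_cuspOf_eq x
    set u' := A * u + B * v with hu'
    set v' := C * u + D * v with hv'
    have hdu : (Int.gcd u' v' : ℤ) ∣ (l : ℤ) := by
      obtain ⟨s, t, hst⟩ := huv
      have h1 := Int.gcd_dvd_left u' v'
      have h2 := Int.gcd_dvd_right u' v'
      rw [show (l : ℤ) = (s * D - t * C) * u' + (t * A - s * B) * v' by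
        rw [hu', hv', ← hdet]; linear_combination -(A * D - B * C) * hst]
      exact dvd_add (dvd_mul_of_dvd_right h1 _) (dvd_mul_of_dvd_right h2 _)
    have hg1 : (M : ℤ) ∣ (Int.gcd u' v' : ℤ) - 1 := by
      rcases hl.eq_one_or_self_of_dvd _ (Int.natCast_dvd_natCast.mp hdu) with h | h
      · simp [h]
      · rw [h]; exact hlM
    set e : ℤ := (Int.gcd u' v' : ℤ) with he
    have he0 : e ≠ 0 := fun h0 ↦ by
      rw [h0] at hdu
      exact hl.ne_zero (by exact_mod_cast (zero_dvd_iff.mp hdu))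
    obtain ⟨U, hU⟩ : e ∣ u' := Int.gcd_dvd_left u' v'
    obtain ⟨V, hV⟩ : e ∣ v' := Int.gcd_dvd_right u' v'
    have hUV : IsCoprime U V := by
      rw [Int.isCoprime_iff_gcd_eq_one]
      have h3 : Int.gcd u' v' = e.natAbs * Int.gcd U V := by rw [hU, hV, Int.gcd_mul_left]
      have h4 : e.natAbs = Int.gcd u' v' := by rw [he]; rfl
      rw [← h4] at h3
      exact (Nat.eq_of_mul_eq_mul_left (Int.natAbs_pos.mpr he0) ((mul_one _).trans h3)).symm
    obtain ⟨γ, hγ, hγe⟩ := exists_GM_smul_cuspOf (M := M) huv hUV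
      (by
        rw [show U - u = (A - 1) * u + B * v - U * (e - 1) by linear_combination hu' - hU]
        exact dvd_sub (dvd_add (dvd_mul_of_dvd_left hA _) (dvd_mul_of_dvd_left hB _))
          (dvd_mul_of_dvd_right hg1 _))
      (by
        rw [show V - v = C * u + (D - 1) * v - V * (e - 1) by linear_combination hv' - hV]
        exact dvd_sub (dvd_add (dvd_mul_of_dvd_left hC _) (dvd_mul_of_dvd_left hD _))
          (dvd_mul_of_dvd_right hg1 _))
    have hne : (u : ℚ) ≠ 0 ∨ (v : ℚ) ≠ 0 := by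
      by_contra! hh
      simp only [Int.cast_eq_zero] at hh
      rw [hh.1, hh.2] at huv
      exact not_isCoprime_zero_zero huv
    rw [smul_cuspOf g hne, hgA, hgB, hgC, hgD,
      show (A : ℚ) * u + B * v = (e : ℚ) * U by exact_mod_cast hU,
      show (C : ℚ) * u + D * v = (e : ℚ) * V by exact_mod_cast hV,
      cuspOf_scale (Int.cast_ne_zero.mpr he0), ← hγe, hbinv γ hγ]
  have hterm : ∀ i, slash ψ (heckeMat l i) = ψ := by
    intro i
    funext p
    cases i with
    | none =>
      have := hmat l 0 0 1 (by ring) hlM (dvd_zero _) (dvd_zero _) (by simp) (heckeMat l none)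
        (by simp [heckeMat]) (by simp [heckeMat]) (by simp [heckeMat]) (by simp [heckeMat])
      show ψ (_ • p.1, _ • p.2) = ψ (p.1, p.2)
      rw [hψb, hψb, this, this]
    | some j =>
      have := hmat 1 ((j.val : ℤ) - l * j.val) 0 l (by ring) (by simp)
        (by rw [show (j.val : ℤ) - l * j.val = -(j.val : ℤ) * ((l : ℤ) - 1) by ring]
            exact dvd_mul_of_dvd_right hlM _)
        (dvd_zero _) hlM (shift ((-(j.val : ℤ) : ℤ) : ℚ) * heckeMat l (Option.some j))
        (by simp [heckeMat, shift_apply, mul_apply2]) (by simp [heckeMat, shift_apply, mul_apply2]; ring)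
        (by simp [heckeMat, shift_apply, mul_apply2]) (by simp [heckeMat, shift_apply, mul_apply2])
      have hinv := hψ.inv _ (shift_intCast_mem_G0 N (-(j.val : ℤ))) (heckeMat l (Option.some j) • p)
      rw [smul_smul] at hinv
      rw [slash_apply, ← hinv]
      show ψ (_ • p.1, _ • p.2) = ψ (p.1, p.2)
      rw [hψb, hψb, this, this]
  rw [symT_eq_sum, Finset.sum_congr rfl fun i _ ↦ hterm i, Finset.sum_const, Finset.card_univ,
    Fintype.card_option, ZMod.card]

end FermatAgent.Ihara
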