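import Fermat.Agent.Ihara.Basic
import Fermat.Agent.ModCurve.Group.PingPong

/-!
The Farey tessellation: cosets of subgroups of `SL₂(ℤ)` as oriented edges, and exactness (an edge
function whose sum around every triangle vanishes is the differential of a function of cusps).
-/

set_option autoImplicit false

namespace FermatAgent.Ihara

open OnePoint FermatAgent.ModCurveGroup
open scoped MatrixGroups

/-- The right cosets `Γ g`. -/
abbrev Cos (Γ : Subgroup SL(2, ℤ)) : Type := Quotient (QuotientGroup.rightRel Γ)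

variable {Γ : Subgroup SL(2, ℤ)}

/-- The coset of `g`. -/
def cmk (Γ : Subgroup SL(2, ℤ)) (g : SL(2, ℤ)) : Cos Γ := Quotient.mk _ g

theorem cmk_eq_iff {g h : SL(2, ℤ)} : cmk Γ g = cmk Γ h ↔ h * g⁻¹ ∈ Γ :=
  Quotient.eq.trans QuotientGroup.rightRel_apply

theorem cmk_out (c : Cos Γ) : cmk Γ c.out = c := c.out_eq

theorem cmk_surjective : Function.Surjective (cmk Γ) := Quotient.mk_surjective

theorem cmk_mul_left {γ : SL(2, ℤ)} (hγ : γ ∈ Γ) (g : SL(2, ℤ)) : cmk Γ (γ * g) = cmk Γ g := by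
  rw [cmk_eq_iff]; simpa using inv_mem hγ

/-- Right translation of cosets. -/
def cmul (c : Cos Γ) (g : SL(2, ℤ)) : Cos Γ :=
  Quotient.map (fun h ↦ h * g) (fun a b hab ↦ by
    simpa [QuotientGroup.rightRel_apply] using QuotientGroup.rightRel_apply.mp hab) c

@[simp] theorem cmul_cmk (h g : SL(2, ℤ)) : cmul (cmk Γ h) g = cmk Γ (h * g) := rfl

theorem cmul_cmul (c : Cos Γ) (g h : SL(2, ℤ)) : cmul (cmul c g) h = cmul c (g * h) := by
  obtain ⟨a, rfl⟩ := cmk_surjective c
  simp [mul_assoc]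

@[simp] theorem cmul_one (c : Cos Γ) : cmul c 1 = c := by
  obtain ⟨a, rfl⟩ := cmk_surjective c
  simp

theorem cmul_neg_one (hΓ : (-1 : SL(2, ℤ)) ∈ Γ) (c : Cos Γ) : cmul c (-1) = c := by
  obtain ⟨a, rfl⟩ := cmk_surjective c
  rw [cmul_cmk, mul_neg_one, ← neg_one_mul, cmk_mul_left hΓ]

instance [Γ.FiniteIndex] : Finite (Cos Γ) :=
  Finite.of_equiv _ (QuotientGroup.quotientRightRelEquivQuotientLeftRel Γ).symm

noncomputable instance [Γ.FiniteIndex] : Fintype (Cos Γ) := Fintype.ofFinite _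

/-- The element rotating the triangle `(∞, 0, 1)`. -/
def triU : SL(2, ℤ) := ⟨!![0, 1; -1, 1], by decide⟩

/-- The element reversing the edge `(∞, 0)`. -/
def edgeS : SL(2, ℤ) := ModularGroup.S

theorem triU_eq : triU = R₃⁻¹ := by decide

theorem triU_cube : triU * triU * triU = -1 := by decide

theorem edgeS_sq : edgeS * edgeS = -1 := by decide

theorem edgeS_mul_triU : edgeS * triU = ModularGroup.T⁻¹ := by decide

theorem cmul_edgeS_edgeS (hΓ : (-1 : SL(2, ℤ)) ∈ Γ) (c : Cos Γ) :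
    cmul (cmul c edgeS) edgeS = c := by
  rw [cmul_cmul, edgeS_sq, cmul_neg_one hΓ]

theorem cmul_triU_triU_triU (hΓ : (-1 : SL(2, ℤ)) ∈ Γ) (c : Cos Γ) :
    cmul (cmul (cmul c triU) triU) triU = c := by
  rw [cmul_cmul, cmul_cmul, ← mul_assoc, triU_cube, cmul_neg_one hΓ]

/-- The Farey graph is connected. -/
theorem cos_connected {β : Type*} (f : Cos Γ → β) (hS : ∀ c, f (cmul c edgeS) = f c)
    (hU : ∀ c, f (cmul c triU) = f c) (c d : Cos Γ) : f c = f d := by
  have key : ∀ g, ∀ c, f (cmul c g) = f c := by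
    refine SL2Z_induction (P := fun g ↦ ∀ c, f (cmul c g) = f c) hS ?_ (by simp) ?_ ?_
    · intro c
      rw [show R₃ = triU⁻¹ by rw [triU_eq, inv_inv]]
      conv_rhs => rw [show c = cmul (cmul c triU⁻¹) triU by rw [cmul_cmul, inv_mul_cancel, cmul_one]]
      rw [hU]
    · intro a b ha hb c; rw [← cmul_cmul, hb, ha]
    · intro a ha c
      conv_rhs => rw [show c = cmul (cmul c a⁻¹) a by rw [cmul_cmul, inv_mul_cancel, cmul_one]]
      rw [ha]
  obtain ⟨a, rfl⟩ := cmk_surjective c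
  obtain ⟨b, rfl⟩ := cmk_surjective d
  have := key (a⁻¹ * b) (cmk Γ a)
  rw [cmul_cmk, mul_inv_cancel_left] at this
  exact this.symm

theorem slQ_edgeS_smul_infty : slQ edgeS • (∞ : Cusp) = ((0 : ℚ) : Cusp) := by
  simp [smul_infty_eq_ite, edgeS, ModularGroup.coe_S]

theorem slQ_edgeS_smul_zero : slQ edgeS • ((0 : ℚ) : Cusp) = ∞ := by
  simp [smul_some_eq_ite, edgeS, ModularGroup.coe_S]

theorem slQ_triU_smul_infty : slQ triU • (∞ : Cusp) = ((0 : ℚ) : Cusp) := by
  rw [smul_infty_eq_ite]; simp only [slQ_apply]; simp [triU]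

theorem slQ_triU_smul_zero : slQ triU • ((0 : ℚ) : Cusp) = ((1 : ℚ) : Cusp) := by
  rw [smul_some_eq_ite]; simp only [slQ_apply]; simp [triU]

theorem slQ_triU_smul_one : slQ triU • ((1 : ℚ) : Cusp) = ∞ := by
  rw [smul_some_eq_ite]; simp only [slQ_apply]; simp [triU]

theorem slQ_neg_one_smul (x : Cusp) : slQ (-1) • x = x := by
  have := smul_cusp_eq (g := slQ (-1)) (h := (1 : G2)) (c := -1) (by norm_num)
    (fun i j ↦ by fin_cases i <;> fin_cases j <;> simp) x
  rwa [one_smul] at this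

/-- `{1, -1}`. -/
def pmOne : Subgroup SL(2, ℤ) where
  carrier := {g | g = 1 ∨ g = -1}
  one_mem' := Or.inl rfl
  mul_mem' := by
    rintro a b (rfl | rfl) (rfl | rfl)
    · exact Or.inl (one_mul _)
    · exact Or.inr (one_mul _)
    · exact Or.inr (mul_one _)
    · exact Or.inl (by simp)
  inv_mem' := by
    rintro a (rfl | rfl)
    · exact Or.inl inv_one
    · exact Or.inr (by decide)

theorem neg_one_mem_pmOne : (-1 : SL(2, ℤ)) ∈ pmOne := Or.inr rfl

theorem eq_T_zpow_of_fix_infty {g : SL(2, ℤ)} (h : slQ g • (∞ : Cusp) = ∞) :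
    ∃ n : ℤ, g = ModularGroup.T ^ n ∨ g = -ModularGroup.T ^ n := by
  have hc : g 1 0 = 0 := by
    have := smul_infty_eq_self_iff.mp h
    simpa using this
  have hdet := g.2
  rw [Matrix.det_fin_two, hc, mul_zero, sub_zero] at hdet
  rcases Int.eq_one_or_neg_one_of_mul_eq_one hdet with ha | ha <;> rw [ha] at hdet
  · refine ⟨g 0 1, Or.inl ?_⟩
    ext i j
    fin_cases i <;> fin_cases j <;> simp [ModularGroup.coe_T_zpow, hc, ha]
    simpa using hdet
  · refine ⟨-(g 0 1), Or.inr ?_⟩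
    ext i j
    fin_cases i <;> fin_cases j <;> simp [ModularGroup.coe_T_zpow, hc, ha]
    simp at hdet
    linarith

variable {A : Type*} [AddCommGroup A]

/-- **Exactness of the Farey complex.** -/
theorem farey_exact (K : SL(2, ℤ) → A) (hneg : ∀ g, K (-g) = K g)
    (hS : ∀ g, K (g * edgeS) = -K g)
    (hU : ∀ g, K g + K (g * triU) + K (g * triU * triU) = 0) :
    ∃ h : Cusp → A, ∀ g, K g = h (slQ g • ((0 : ℚ) : Cusp)) - h (slQ g • ∞) := by
  classical
  let k : Cos pmOne → A := Quotient.lift K fun a b hab ↦ by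
    rcases QuotientGroup.rightRel_apply.mp hab with h | h <;> rw [mul_inv_eq_iff_eq_mul] at h <;>
      simp [h, hneg]
  have hk : ∀ g, k (cmk pmOne g) = K g := fun g ↦ rfl
  have hkS : ∀ c, k (cmul c edgeS) = -k c := fun c ↦ by
    obtain ⟨g, rfl⟩ := cmk_surjective c; simp [hk, hS]
  have hkU : ∀ c, k c + k (cmul c triU) + k (cmul (cmul c triU) triU) = 0 := fun c ↦ by
    obtain ⟨g, rfl⟩ := cmk_surjective c; simp [hk, hU]
  have hSS := cmul_edgeS_edgeS (Γ := pmOne) neg_one_mem_pmOne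
  have hUUU := cmul_triU_triU_triU (Γ := pmOne) neg_one_mem_pmOne
  let s : Equiv.Perm (Cos pmOne × A) :=
    { toFun := fun p ↦ (cmul p.1 edgeS, p.2 + k p.1)
      invFun := fun p ↦ (cmul p.1 edgeS, p.2 + k p.1)
      left_inv := fun p ↦ by simp [hSS, hkS]
      right_inv := fun p ↦ by simp [hSS, hkS] }
  let r : Equiv.Perm (Cos pmOne × A) :=
    { toFun := fun p ↦ (cmul p.1 triU, p.2 + k p.1)
      invFun := fun p ↦ (cmul (cmul p.1 triU) triU, p.2 - k (cmul (cmul p.1 triU) triU))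
      left_inv := fun p ↦ by simp [hUUU]
      right_inv := fun p ↦ by simp [hUUU] }
  have hs : s ^ 2 = 1 := by
    refine Equiv.ext fun p ↦ ?_
    simp [pow_two, s, hSS, hkS]
  have hr : r ^ 3 = 1 := by
    refine Equiv.ext fun p ↦ ?_
    simp only [pow_succ, pow_zero, one_mul, Equiv.Perm.mul_apply, r, Equiv.coe_fn_mk,
      Equiv.Perm.one_apply, hUUU, add_assoc]
    rw [← add_assoc (k p.1), hkU, add_zero]
  obtain ⟨φ, hφS, hφR, hφn⟩ := exists_hom_of_pow_eq_one s r hs hr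
  have hfst : ∀ g p, (φ g p).1 = cmul p.1 g⁻¹ := by
    refine SL2Z_induction (P := fun g ↦ ∀ p, (φ g p).1 = cmul p.1 g⁻¹) ?_ ?_ (by simp) ?_ ?_
    · intro p
      rw [show φ ModularGroup.S = s from hφS]
      show cmul p.1 edgeS = _
      rw [show edgeS = -1 * ModularGroup.S⁻¹ by decide, ← cmul_cmul,
        cmul_neg_one neg_one_mem_pmOne]
    · intro p
      rw [hφR, ← triU_eq]
      rfl
    · intro a b ha hb p
      rw [map_mul, Equiv.Perm.mul_apply, ha, hb, cmul_cmul, mul_inv_rev]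
    · intro a ha p
      have := ha (φ a⁻¹ p)
      rw [← Equiv.Perm.mul_apply, ← map_mul, mul_inv_cancel, map_one, Equiv.Perm.one_apply] at this
      rw [this, cmul_cmul, inv_inv, inv_mul_cancel, cmul_one]
  set F : SL(2, ℤ) → A := fun g ↦ (φ g⁻¹ (cmk pmOne 1, 0)).2 with hF
  have hpt : ∀ g, φ g⁻¹ (cmk pmOne 1, 0) = (cmk pmOne g, F g) := fun g ↦
    Prod.ext (by rw [hfst]; simp) rfl
  have hFU : ∀ g, F (g * triU) = F g + K g := by
    intro g
    simp only [hF]
    rw [mul_inv_rev, map_mul, Equiv.Perm.mul_apply, hpt, triU_eq, inv_inv, hφR]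
    rfl
  have hFn : ∀ g, F (-g) = F g := by
    intro g
    simp only [hF]
    rw [← neg_one_mul g, mul_inv_rev, map_mul, show (-1 : SL(2, ℤ))⁻¹ = -1 by decide, hφn, mul_one]
  have hFS : ∀ g, F (g * edgeS) = F g + K g := by
    intro g
    rw [← hFn]
    simp only [hF]
    rw [show (-(g * edgeS))⁻¹ = edgeS * g⁻¹ by
      rw [inv_eq_iff_mul_eq_one, neg_mul, mul_assoc, ← mul_assoc edgeS, edgeS_sq]; simp,
      map_mul, Equiv.Perm.mul_apply, hpt]
    show (φ ModularGroup.S _).2 = _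
    rw [hφS]
    rfl
  have hFT : ∀ g, F (g * ModularGroup.T⁻¹) = F g := fun g ↦ by
    rw [← edgeS_mul_triU, ← mul_assoc, hFU, hFS, hS, add_neg_cancel_right]
  have hFTz : ∀ n : ℤ, ∀ g, F (g * ModularGroup.T ^ n) = F g := by
    intro n
    induction n using Int.induction_on with
    | zero => simp
    | succ i ih =>
      intro g
      rw [zpow_add_one, ← mul_assoc, ← hFT (g * ModularGroup.T ^ (i : ℤ) * ModularGroup.T),
        mul_inv_cancel_right, ih]
    | pred i ih =>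
      intro g
      rw [zpow_sub_one, ← mul_assoc, hFT, ih]
  choose mv hmv using fun x ↦ exists_slQ_smul_infty x
  have hwd : ∀ g, F g = F (mv (slQ g • ∞)) := by
    intro g
    obtain ⟨n, hn | hn⟩ := eq_T_zpow_of_fix_infty (g := (mv (slQ g • ∞))⁻¹ * g)
      (by rw [map_mul, map_inv, mul_smul, inv_smul_eq_iff, hmv]) <;>
      rw [inv_mul_eq_iff_eq_mul] at hn <;> conv_lhs => rw [hn]
    · rw [hFTz]
    · rw [mul_neg, hFn, hFTz]
  refine ⟨fun x ↦ F (mv x), fun g ↦ ?_⟩
  have h0 : slQ g • ((0 : ℚ) : Cusp) = slQ (g * edgeS) • ∞ := by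
    rw [map_mul, mul_smul, slQ_edgeS_smul_infty]
  simp only
  rw [h0, ← hwd, ← hwd, hFS, add_sub_cancel_left]

omit [AddCommGroup A] in
/-- A function of cusps constant along every Farey edge is constant. -/
theorem eq_of_farey_edges {h : Cusp → A}
    (hh : ∀ g : SL(2, ℤ), h (slQ g • ((0 : ℚ) : Cusp)) = h (slQ g • ∞)) (x y : Cusp) :
    h x = h y := by
  obtain ⟨a, rfl⟩ := exists_slQ_smul_infty x
  obtain ⟨b, rfl⟩ := exists_slQ_smul_infty y
  let f : Cos pmOne → A := Quotient.lift (fun g ↦ h (slQ g • ∞)) fun c d hcd ↦ by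
    rcases QuotientGroup.rightRel_apply.mp hcd with hh' | hh' <;>
      rw [mul_inv_eq_iff_eq_mul] at hh' <;> subst hh'
    · simp
    · simp only [map_mul, mul_smul, slQ_neg_one_smul]
  refine cos_connected f (fun c ↦ ?_) (fun c ↦ ?_) (cmk pmOne a) (cmk pmOne b)
  · obtain ⟨g, rfl⟩ := cmk_surjective c
    show h (slQ (g * edgeS) • ∞) = h (slQ g • ∞)
    rw [map_mul, mul_smul, slQ_edgeS_smul_infty, hh]
  · obtain ⟨g, rfl⟩ := cmk_surjective c
    show h (slQ (g * triU) • ∞) = h (slQ g • ∞)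
    rw [map_mul, mul_smul, slQ_triU_smul_infty, hh]

end FermatAgent.Ihara
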