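import Fermat.Agent.Conductor.Residual
import Fermat.Agent.GalRep.Density.Frobenius
import Fermat.Agent.GalRep.Construct.Cyclotomic

/-!
The Galois input of the level raising theorem: for an irreducible `E[p]` the eigensystem
`l ↦ a_l` is not Eisenstein.
-/

set_option autoImplicit false

noncomputable section

open scoped WeierstrassCurve.Affine Pointwise

namespace FermatAgent.Ihara

section Algebra

variable {F G : Type*} [Field F] [Group G]

theorem trace_mul_conj (N g g' : Matrix (Fin 2) (Fin 2) F) (h1 : g * g' = 1)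
    (htr : N.trace = 0) (hdet : N.det = 0) :
    g.det * (N * (g * N * g')).trace = -(N * g).trace ^ 2 := by
  have hg : g.det * g'.det = 1 := by rw [← Matrix.det_mul, h1, Matrix.det_one]
  have e : g' = g.det⁻¹ • g.adjugate := by
    have : g.adjugate = g.det • g' := by
      rw [← mul_one g.adjugate, ← h1, ← mul_assoc, Matrix.adjugate_mul, Matrix.smul_mul, one_mul]
    rw [this, smul_smul, inv_mul_cancel₀ (left_ne_zero_of_mul_eq_one hg), one_smul]
  have key : (N * (g * N * g.adjugate)).trace = -(N * g).trace ^ 2 := by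
    rw [Matrix.trace_fin_two] at htr
    rw [Matrix.det_fin_two] at hdet
    have hd : N 1 1 = -N 0 0 := by linear_combination htr
    simp [Matrix.trace_fin_two, Matrix.mul_apply, Fin.sum_univ_two, Matrix.adjugate_fin_two, hd]
    rw [hd] at hdet
    linear_combination (-(g 0 0 ^ 2 + g 1 1 ^ 2 + 2 * g 0 1 * g 1 0)) * hdet
  rw [e, Matrix.mul_smul, Matrix.mul_smul, Matrix.trace_smul, smul_eq_mul, ← mul_assoc,
    mul_inv_cancel₀ (left_ne_zero_of_mul_eq_one hg), one_mul, key]

variable (A : G →* Matrix (Fin 2) (Fin 2) F) (hspan : Submodule.span F (Set.range A) = ⊤)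
include hspan

theorem eq_zero_of_trace_conj {N : Matrix (Fin 2) (Fin 2) F} (htr : N.trace = 0)
    (hdet : N.det = 0) (h : ∀ g, (N * (A g * N * A g⁻¹)).trace = 0) : N = 0 := by
  have hg : ∀ g, (N * A g).trace = 0 := fun g ↦ by
    have := trace_mul_conj N (A g) (A g⁻¹) (by rw [← map_mul, mul_inv_cancel, map_one]) htr hdet
    rw [h g, mul_zero, eq_comm, neg_eq_zero] at this
    exact pow_eq_zero_iff two_ne_zero |>.mp this
  have hall : ∀ X, (N * X).trace = 0 := fun X ↦ by
    have hX : X ∈ Submodule.span F (Set.range A) := hspan ▸ Submodule.mem_top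
    induction hX using Submodule.span_induction with
    | mem x hx => obtain ⟨g, rfl⟩ := hx; exact hg g
    | zero => simp
    | add x y _ _ hx hy => rw [mul_add, Matrix.trace_add, hx, hy, add_zero]
    | smul c x _ hx => rw [Matrix.mul_smul, Matrix.trace_smul, hx, smul_zero]
  ext i j
  have := hall (Matrix.single j i 1)
  fin_cases i <;> fin_cases j <;>
    simpa [Matrix.trace_fin_two, Matrix.mul_apply, Fin.sum_univ_two, Matrix.single_apply] using this

theorem not_commute_all : ¬ ∀ g h, A g * A h = A h * A g := by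
  intro h
  have h1 : ∀ g X, A g * X = X * A g := fun g X ↦ by
    have hX : X ∈ Submodule.span F (Set.range A) := hspan ▸ Submodule.mem_top
    induction hX using Submodule.span_induction with
    | mem x hx => obtain ⟨k, rfl⟩ := hx; exact h g k
    | zero => simp
    | add x y _ _ hx hy => rw [mul_add, add_mul, hx, hy]
    | smul c x _ hx => rw [mul_smul_comm, smul_mul_assoc, hx]
  have hX : (Matrix.single 0 1 (1 : F) : Matrix (Fin 2) (Fin 2) F) ∈
      Submodule.span F (Set.range A) := hspan ▸ Submodule.mem_top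
  have h2 : ∀ X ∈ Submodule.span F (Set.range A), X * (Matrix.single 1 0 (1 : F)) =
      Matrix.single 1 0 1 * X := fun X hX ↦ by
    induction hX using Submodule.span_induction with
    | mem x hx => obtain ⟨k, rfl⟩ := hx; exact h1 k _
    | zero => simp
    | add x y _ _ hx hy => rw [mul_add, add_mul, hx, hy]
    | smul c x _ hx => rw [mul_smul_comm, smul_mul_assoc, hx]
  have := congrFun (congrFun (h2 _ hX) 0) 0
  simp [Matrix.mul_apply, Matrix.single_apply] at this

/-- A character cannot force traces `2` and determinants `1` on its kernel. -/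
theorem false_of_unipotent_kernel {C : Type*} [CommMonoid C] (c : G →* C)
    (h : ∀ g, c g = 1 → (A g).trace = 2 ∧ (A g).det = 1) : False := by
  have hcomm : ∀ g k, c (g * k * g⁻¹ * k⁻¹) = 1 := fun g k ↦ by
    simp only [map_mul]
    rw [mul_right_comm (c g) (c k) (c g⁻¹), mul_assoc, ← map_mul, ← map_mul,
      mul_inv_cancel, mul_inv_cancel, ← map_mul, mul_one, map_one]
  by_cases hall : ∀ g, c g = 1 → A g = 1
  · refine not_commute_all A hspan fun g k ↦ ?_
    have := hall _ (hcomm g k)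
    calc A g * A k = A (g * k * g⁻¹ * k⁻¹) * (A k * A g) := by
          rw [← map_mul, ← map_mul, ← map_mul]; congr 1; group
      _ = A k * A g := by rw [this, one_mul]
  push Not at hall
  obtain ⟨u, hu, hne⟩ := hall
  obtain ⟨htr, hdet⟩ := h u hu
  refine hne (sub_eq_zero.mp (eq_zero_of_trace_conj A hspan (N := A u - 1) ?_ ?_ fun g ↦ ?_))
  · rw [Matrix.trace_sub, htr, Matrix.trace_one, Fintype.card_fin, Nat.cast_two, sub_self]
  · rw [Matrix.trace_fin_two] at htr
    rw [Matrix.det_fin_two] at hdet ⊢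
    simp
    linear_combination hdet - htr
  · have hinv : c g * c g⁻¹ = 1 := by rw [← map_mul, mul_inv_cancel, map_one]
    have hv : c (g * u * g⁻¹) = 1 := by simp only [map_mul, hu, mul_one, hinv]
    have e1 := (h _ (show c (u * (g * u * g⁻¹)) = 1 by rw [map_mul, hu, hv, one_mul])).1
    have e2 := (h _ hv).1
    simp only [map_mul] at e1 e2
    have hgg : A g * A g⁻¹ = 1 := by rw [← map_mul, mul_inv_cancel, map_one]
    rw [sub_mul, one_mul, mul_sub, mul_one, sub_mul, hgg]
    simp only [mul_sub, mul_one, Matrix.trace_sub, Matrix.trace_one, Fintype.card_fin, e1, e2, htr]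
    norm_num

theorem exists_smul_one_of_trace_sq (g : G) (hd : (A g).det = 1) (ht : (A g).trace ^ 2 = 4)
    (h : ∀ k, (A k).det = 1 → (A k).trace ^ 2 = 4) (h2 : (2 : F) ≠ 0) :
    ∃ s : F, A g = s • 1 := by
  obtain ⟨s, hs, hts⟩ : ∃ s : F, s * s = 1 ∧ (A g).trace = 2 * s := by
    have h4 : (A g).trace ^ 2 = (2 : F) ^ 2 := by rw [ht]; norm_num
    rcases sq_eq_sq_iff_eq_or_eq_neg.mp h4 with e | e
    · exact ⟨1, one_mul 1, by rw [e, mul_one]⟩
    · exact ⟨-1, by ring, by rw [e]; ring⟩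
  refine ⟨s, sub_eq_zero.mp (eq_zero_of_trace_conj A hspan (N := A g - s • 1) ?_ ?_ fun k ↦ ?_)⟩
  · rw [Matrix.trace_sub, Matrix.trace_smul, Matrix.trace_one, Fintype.card_fin, hts, smul_eq_mul,
      Nat.cast_two, mul_comm, sub_self]
  · rw [Matrix.trace_fin_two] at hts
    rw [Matrix.det_fin_two] at hd ⊢
    simp
    linear_combination hd - s * hts - hs
  · set v := A k * A g * A k⁻¹ with hv
    have hkk : A k * A k⁻¹ = 1 := by rw [← map_mul, mul_inv_cancel, map_one]
    have hkd : (A k).det * (A k⁻¹).det = 1 := by rw [← Matrix.det_mul, hkk, Matrix.det_one]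
    have hvd : v.det = 1 := by rw [hv, Matrix.det_mul, Matrix.det_mul, hd, mul_one, hkd]
    have hvt : v.trace = (A g).trace := by
      rw [hv, Matrix.trace_mul_comm, ← mul_assoc, ← map_mul, inv_mul_cancel, map_one, one_mul]
    have e1 := h (g * (k * g * k⁻¹)) (by rw [map_mul, map_mul, map_mul, Matrix.det_mul, hd, hvd, mul_one])
    have e2 := h (g * g * (k * g * k⁻¹)) (by
      rw [map_mul, map_mul, map_mul, map_mul, Matrix.det_mul, Matrix.det_mul, hd, hvd]; ring)
    simp only [map_mul] at e1 e2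
    rw [← hv] at e1 e2
    set a := (A g * v).trace with ha
    have hCH : A g * A g = (2 * s) • A g - 1 := by
      have hts' := hts
      rw [Matrix.trace_fin_two] at hts'
      have hd' := hd
      rw [Matrix.det_fin_two] at hd'
      ext i j
      fin_cases i <;> fin_cases j <;> simp [Matrix.mul_apply, Fin.sum_univ_two]
      · linear_combination (A g 0 0) * hts' - hd'
      · linear_combination (A g 0 1) * hts'
      · linear_combination (A g 1 0) * hts'
      · linear_combination (A g 1 1) * hts' - hd'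
    rw [hCH, sub_mul, one_mul, Matrix.smul_mul, Matrix.trace_sub, Matrix.trace_smul, smul_eq_mul,
      ← ha, hvt, hts] at e2
    have ha2 : a = 2 := by
      have : (4 : F) * (a - 2) * (1 : F) = 0 ∨ True := Or.inr trivial
      rcases sq_eq_sq_iff_eq_or_eq_neg.mp (show a ^ 2 = (2 : F) ^ 2 by rw [e1]; norm_num) with e | e
      · exact e
      · exfalso
        rw [e] at e2
        have : (32 : F) = 0 := by linear_combination e2 + (-36 : F) * hs
        exact pow_ne_zero 5 h2 (by linear_combination this)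
    have hs0 : A k * (A g - s • 1) * A k⁻¹ = v - s • 1 := by
      rw [mul_sub, sub_mul, Matrix.mul_smul, mul_one, Matrix.smul_mul, hkk, hv]
    rw [hs0]
    simp only [mul_sub, sub_mul, Matrix.mul_smul, Matrix.smul_mul, mul_one, one_mul, smul_smul,
      Matrix.trace_sub, Matrix.trace_smul, Matrix.trace_one, Fintype.card_fin, smul_eq_mul, ← ha,
      hvt, hts, hs]
    rw [ha2]
    push_cast
    linear_combination (-4 : F) * hs

/-- Every element cannot have an eigenvalue `±1`. -/
theorem false_of_trace_sq [Finite F] (h2 : (2 : F) ≠ 0)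
    (h : ∀ g, (A g).trace ^ 2 = (1 + (A g).det) ^ 2) : False := by
  have h0 : ∀ g, (A g).det = 1 → (A g).trace ^ 2 = 4 := fun g hg ↦ by rw [h g, hg]; norm_num
  let d : G →* Fˣ :=
    (Units.map (Matrix.detMonoidHom : Matrix (Fin 2) (Fin 2) F →* F)).comp A.toHomUnits
  have hd : ∀ g, (d g : F) = (A g).det := fun g ↦ rfl
  obtain ⟨u, hu⟩ := IsCyclic.exists_generator (α := d.range)
  obtain ⟨g₀, hg₀⟩ := u.2
  have key : ∀ g, ∃ (n : ℤ) (s : F), A g = s • A (g₀ ^ n) := by
    intro g
    obtain ⟨n, hn⟩ := Subgroup.mem_zpowers_iff.mp (hu ⟨d g, g, rfl⟩)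
    have hn' : d (g₀ ^ n) = d g := by
      rw [map_zpow, hg₀]
      exact congrArg Subtype.val hn
    have hdet : (A (g * (g₀ ^ n)⁻¹)).det = 1 := by
      rw [← hd, map_mul, map_inv, hn', mul_inv_cancel, Units.val_one]
    obtain ⟨s, hs⟩ := exists_smul_one_of_trace_sq A hspan _ hdet (h0 _ hdet) h0 h2
    refine ⟨n, s, ?_⟩
    calc A g = A (g * (g₀ ^ n)⁻¹) * A (g₀ ^ n) := by rw [← map_mul, inv_mul_cancel_right]
      _ = s • A (g₀ ^ n) := by rw [hs, Matrix.smul_mul, one_mul]
  refine not_commute_all A hspan fun g k ↦ ?_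
  obtain ⟨n, s, hn⟩ := key g
  obtain ⟨m, t, hm⟩ := key k
  rw [hn, hm, Matrix.smul_mul, Matrix.mul_smul, Matrix.smul_mul, Matrix.mul_smul, ← map_mul,
    ← map_mul, ← zpow_add, ← zpow_add, add_comm n m, smul_comm]

end Algebra

open WeierstrassCurve WeierstrassCurve.Affine

local notation "Qb" => AlgebraicClosure ℚ
local notation "GQ" => AlgebraicClosure ℚ ≃ₐ[ℚ] AlgebraicClosure ℚ

theorem exists_pointHom (W₁ W₂ : WeierstrassCurve.Affine Qb) (D : VariableChange Qb)
    (h : D • W₂ = W₁) :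
    ∃ f : W₁.Point →+ W₂.Point, Function.Bijective f ∧ ∀ x y hns, ∃ hns',
      f (.some x y hns) = .some (Local.vcX D x) (Local.vcY D x y) hns' := by
  subst h
  exact ⟨Local.vcHom W₂ D, Local.vcHom_bijective W₂ D, fun x y hns ↦ ⟨_, rfl⟩⟩

/-- Irreducibility does not depend on the model. -/
theorem irreducible_variableChange (E : WeierstrassCurve ℚ) (C : VariableChange ℚ) (n : ℕ)
    (h : Point.GaloisRepIsIrreducible (K := Qb) ℚ E n) :
    Point.GaloisRepIsIrreducible (K := Qb) ℚ (C • E : WeierstrassCurve ℚ) n := by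
  obtain ⟨f, hf, hfs⟩ := exists_pointHom ((C • E : WeierstrassCurve ℚ)⁄Qb) (E⁄Qb)
    (C.map (algebraMap ℚ Qb)) (by
      simp only [WeierstrassCurve.baseChange, WeierstrassCurve.map_variableChange])
  have hequiv : ∀ (σ : GQ) P, f (σ • P) = σ • f P := by
    intro σ P
    rcases P with _ | ⟨x, y, hns⟩
    · show f 0 = σ • f 0
      rw [map_zero]
      rfl
    · obtain ⟨h1, e1⟩ := hfs x y hns
      rw [e1, Point.algEquiv_smul_def, Point.algEquiv_smul_def, Point.map_some, Point.map_some]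
      obtain ⟨h2, e2⟩ := hfs (σ x) (σ y) (by
        have := (Point.map σ.toAlgHom (Point.some x y hns))
        exact ((C • E : WeierstrassCurve ℚ).toAffine.baseChange_nonsingular
          (f := σ.toAlgHom) σ.injective x y).mpr hns)
      refine e2.trans ?_
      simp only [Point.some.injEq]
      constructor <;>
        simp only [Local.vcX, Local.vcY, VariableChange.map, Units.coe_map, MonoidHom.coe_coe] <;>
        simp
  let g := AddEquiv.ofBijective f hf
  have hmem : ∀ P, P ∈ Submodule.torsionBy ℤ ((C • E : WeierstrassCurve ℚ)⁄Qb).Point (n : ℤ) ↔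
      g P ∈ Submodule.torsionBy ℤ (E⁄Qb).Point (n : ℤ) := fun P ↦ by
    rw [Submodule.mem_torsionBy_iff, Submodule.mem_torsionBy_iff, ← map_zsmul, map_eq_zero_iff _
      g.injective]
  let e : Submodule.torsionBy ℤ ((C • E : WeierstrassCurve ℚ)⁄Qb).Point (n : ℤ) ≃+
      Submodule.torsionBy ℤ (E⁄Qb).Point (n : ℤ) :=
    { toFun := fun P ↦ ⟨g P, (hmem P).mp P.2⟩
      invFun := fun P ↦ ⟨g.symm P, (hmem _).mpr (by rw [g.apply_symm_apply]; exact P.2)⟩
      left_inv := fun P ↦ Subtype.ext (g.symm_apply_apply _)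
      right_inv := fun P ↦ Subtype.ext (g.apply_symm_apply _)
      map_add' := fun P Q ↦ Subtype.ext (map_add g _ _) }
  let eL := e.toLinearEquiv (R := ZMod n) (fun c x ↦ ZMod.map_smul e.toAddMonoidHom c x)
  obtain ⟨hne, hirr⟩ := h
  refine ⟨e.toEquiv.nontrivial, fun N hN ↦ ?_⟩
  rcases hirr (N.map eL.toLinearMap) (fun σ x hx ↦ by
    obtain ⟨z, hz, rfl⟩ := Submodule.mem_map.mp hx
    exact Submodule.mem_map.mpr ⟨σ • z, hN σ z hz, Subtype.ext (hequiv σ z)⟩) with h0 | h0
  · refine Or.inl ?_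
    rwa [Submodule.map_eq_bot_iff] at h0
  · refine Or.inr ?_
    rwa [Submodule.map_eq_top_iff] at h0

/-- The action on `M`-th roots of unity at a Frobenius element. -/
theorem frobenius_root_of_unity {M ℓ : ℕ} (hM : M ≠ 0) (hℓ : ℓ.Coprime M) {A : ValuationSubring Qb}
    (hA : A.LiesOverPrime ℓ) {τ : GQ} (hτ : A.IsFrobeniusAt τ ℓ) {ζ : Qb} (hζ : ζ ^ M = 1) :
    τ ζ = ζ ^ ℓ := by
  have hint : ζ ∈ A := by
    have : IsIntegral A ζ :=
      ⟨Polynomial.X ^ M - 1, Polynomial.monic_X_pow_sub_C _ hM, by simp [hζ]⟩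
    obtain ⟨y, rfl⟩ := IsIntegrallyClosed.isIntegral_iff.mp this
    exact y.2
  obtain ⟨hdec, hfrob⟩ := hτ
  have hτA : τ ζ ∈ A := by
    have h : τ ζ ∈ τ • A := ValuationSubring.smul_mem_pointwise_smul τ ζ A hint
    rwa [show τ • A = A from hdec] at h
  have hres := hfrob (IsLocalRing.residue A ⟨ζ, hint⟩)
  rw [← map_pow] at hres
  have hζ0 : ζ ≠ 0 := by rintro rfl; simp [zero_pow hM] at hζ
  have hinv : (ζ ^ ℓ)⁻¹ ∈ A := by
    have h : (ζ ^ ℓ)⁻¹ = (ζ ^ (M - 1)) ^ ℓ := by
      rw [← inv_pow]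
      congr 1
      refine inv_eq_of_mul_eq_one_right ?_
      rw [← pow_succ', Nat.sub_add_cancel (Nat.one_le_iff_ne_zero.mpr hM), hζ]
    rw [h]; exact pow_mem (pow_mem hint _) _
  have hu : (τ ζ / ζ ^ ℓ) ^ M ^ 1 = 1 := by
    rw [pow_one, div_pow, ← map_pow, hζ, map_one, ← pow_mul, mul_comm, pow_mul, hζ, one_pow,
      div_one]
  have := GalRep.eq_one_of_sub_one_mem_nonunits M hℓ hA hu (by
    rw [div_sub_one (pow_ne_zero _ hζ0), div_eq_mul_inv]
    have hsub : τ ζ - ζ ^ ℓ ∈ A.nonunits :=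
      ValuationSubring.mem_nonunits_iff_exists_mem_maximalIdeal.mpr ⟨sub_mem hτA (pow_mem hint _),
        (Ideal.Quotient.eq.mp hres : (⟨τ ζ, hτA⟩ : A) - ⟨ζ, hint⟩ ^ ℓ ∈ _)⟩
    obtain ⟨hm, hmax⟩ := ValuationSubring.mem_nonunits_iff_exists_mem_maximalIdeal.mp hsub
    exact ValuationSubring.mem_nonunits_iff_exists_mem_maximalIdeal.mpr
      ⟨A.mul_mem _ _ hm hinv,
        (IsLocalRing.maximalIdeal A).mul_mem_right (⟨_, hinv⟩ : A) hmax⟩)
  exact (div_eq_one_iff_eq (pow_ne_zero _ hζ0)).mp this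

section Main

variable (W : WeierstrassCurve ℤ) {p : ℕ} [Fact p.Prime]
  (hΔ : (W.map (Int.castRingHom ℚ)).Δ ≠ 0)

/-- The matrices of `E[p]`. -/
def torMat : GQ →* Matrix (Fin 2) (Fin 2) (ZMod p) :=
  GalRep.matrixHom (Module.finBasisOfFinrankEq (ZMod p) _ (Conductor.torsionRep W (p := p) hΔ).finrank_eq)
    (Conductor.torsionRep W (p := p) hΔ).ρ

theorem torMat_frobenius (hirr : W.ModRepIsIrreducible p) {l : ℕ} (hl : l.Prime)
    (hgood : W.IsGoodPrimeFor l) (hlp : l ≠ p) {A : ValuationSubring Qb} (hA : A.LiesOverPrime l)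
    {τ : GQ} (hτ : A.IsFrobeniusAt τ l) :
    (torMat W (p := p) hΔ τ).trace = (W.apOfModel l : ZMod p) ∧
      (torMat W (p := p) hΔ τ).det = (l : ZMod p) := by
  obtain ⟨ht, hd⟩ := GalRep.Tate.trace_det_frobenius W hΔ
    (GalRep.Tate.hasNonscalar_of_irreducible W hΔ hirr) hl hgood hlp hA hτ
  set r : ℤ_[p] →+* ZMod p :=
    (ZMod.castHom (pow_one p).symm.dvd (ZMod p)).comp (PadicInt.toZModPow 1)
  have hc : (torMat W (p := p) hΔ τ).charpoly =
      (GalRep.Tate.tateMatHom (p := p) hΔ τ).charpoly.map r := by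
    rw [torMat, GalRep.matrixHom_apply, ← Conductor.charpoly_torsionRep W hΔ τ]
    exact LinearMap.charpoly_toMatrix _ _
  refine ⟨?_, ?_⟩
  · rw [Matrix.trace_eq_neg_charpoly_coeff, hc, Polynomial.coeff_map, ← map_neg,
      show Fintype.card (Fin 2) - 1 = 1 from rfl]
    have := Matrix.trace_eq_neg_charpoly_coeff (GalRep.Tate.tateMatHom (p := p) hΔ τ)
    rw [show Fintype.card (Fin 2) - 1 = 1 from rfl] at this
    rw [← this, ht, map_intCast]
  · rw [Matrix.det_eq_sign_charpoly_coeff, hc, Polynomial.coeff_map]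
    have := Matrix.det_eq_sign_charpoly_coeff (GalRep.Tate.tateMatHom (p := p) hΔ τ)
    rw [Fintype.card_fin, neg_one_sq, one_mul] at this
    rw [Fintype.card_fin, neg_one_sq, one_mul, ← this, hd, map_natCast]

theorem span_torMat (hp2 : p ≠ 2) (hirr : W.ModRepIsIrreducible p) :
    Submodule.span (ZMod p) (Set.range (torMat W (p := p) hΔ)) = ⊤ :=
  (GalRep.span_range_matrixHom _ _).mpr (GalRep.span_range_eq_top_of_isAbsolutelyIrreducible _
    (Conductor.torsionRep_isAbsolutelyIrreducible W hΔ hp2 hirr))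

theorem torMat_factors : GaloisFactorsThroughFiniteLevel (torMat W (p := p) hΔ) := by
  obtain ⟨L, hL, h⟩ := (Conductor.torsionRep W (p := p) hΔ).factorsThroughFiniteLevel
  exact ⟨L, hL, fun σ hσ ↦ by rw [torMat, GalRep.matrixHom_apply, h σ hσ, map_one]⟩

theorem two_ne_zero_zmod (hp2 : p ≠ 2) : (2 : ZMod p) ≠ 0 := fun h ↦
  hp2 ((Nat.prime_dvd_prime_iff_eq Fact.out Nat.prime_two).mp
    ((ZMod.natCast_eq_zero_iff _ _).mp (by exact_mod_cast h)))

theorem det_one_sub_pow_eq_zero {R : Type*} [CommRing R] (x : Matrix (Fin 2) (Fin 2) R) (m : ℕ)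
    (h : (1 - x).det = 0) : (1 - x ^ m).det = 0 := by
  have : 1 - x ^ m = (∑ i ∈ Finset.range m, x ^ i) * (1 - x) := (geom_sum_mul_neg x m).symm
  rw [this, Matrix.det_mul, h, mul_zero]

include hΔ in
/-- Infinitely many `l` have `a_l² ≢ (l + 1)²`. -/
theorem exists_sq_ne (hp2 : p ≠ 2) (hirr : W.ModRepIsIrreducible p) {S : Set ℕ} (hS : S.Finite) :
    ∃ l : ℕ, l.Prime ∧ l ∉ S ∧ W.IsGoodPrimeFor l ∧ l ≠ p ∧
      (W.apOfModel l : ZMod p) ^ 2 ≠ ((l : ZMod p) + 1) ^ 2 := by
  by_contra hno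
  simp only [not_exists, not_and, ne_eq, not_not] at hno
  have hbad : {l : ℕ | (l : ℤ) ∣ W.Δ}.Finite := by
    refine Set.Finite.subset (Set.finite_Iic W.Δ.natAbs) fun l hl ↦ ?_
    refine Nat.le_of_dvd (Int.natAbs_pos.mpr fun h0 ↦ hΔ ?_) (Int.natCast_dvd.mp hl)
    rw [WeierstrassCurve.map_Δ, h0, map_zero]
  refine false_of_trace_sq (torMat W (p := p) hΔ) (span_torMat W hΔ hp2 hirr)
    (two_ne_zero_zmod hp2) fun g ↦ ?_
  have key := GalRep.forall_of_frobenius (torMat W (p := p) hΔ) (torMat_factors W hΔ)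
    ((hS.union hbad).union (Set.finite_singleton p))
    (fun x ↦ (1 - x).det * (1 + x).det = 0) (fun x m hx ↦ ?_) (fun l hl hlS A hA τ hτ ↦ ?_) g
  · rw [Matrix.det_fin_two] at key
    simp [Matrix.det_fin_two] at key ⊢
    rw [Matrix.trace_fin_two]
    rcases key with key | key
    · linear_combination (-(1 + ((torMat W hΔ g) 0 0 * (torMat W hΔ g) 1 1 -
        (torMat W hΔ g) 0 1 * (torMat W hΔ g) 1 0) + (torMat W hΔ g) 0 0 + (torMat W hΔ g) 1 1)) * key
    · linear_combination (-(1 + ((torMat W hΔ g) 0 0 * (torMat W hΔ g) 1 1 -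
        (torMat W hΔ g) 0 1 * (torMat W hΔ g) 1 0) - (torMat W hΔ g) 0 0 - (torMat W hΔ g) 1 1)) * key
  · rcases mul_eq_zero.mp hx with h | h
    · rw [det_one_sub_pow_eq_zero x m h, zero_mul]
    · rw [← sub_neg_eq_add] at h
      rcases Nat.even_or_odd m with hm | hm
      · have := det_one_sub_pow_eq_zero (-x) m h
        rw [hm.neg_pow] at this
        rw [this, zero_mul]
      · have := det_one_sub_pow_eq_zero (-x) m h
        rw [hm.neg_pow, sub_neg_eq_add] at this
        rw [this, mul_zero]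
  · simp only [Set.mem_union, Set.mem_ofPred_eq, Set.mem_singleton_iff, not_or] at hlS
    obtain ⟨ht, hd⟩ := torMat_frobenius W hΔ hirr hl hlS.1.2 hlS.2 hA hτ
    have h := hno l hl hlS.1.1 hlS.1.2 hlS.2
    rw [← ht, ← hd, Matrix.trace_fin_two, Matrix.det_fin_two] at h
    simp [Matrix.det_fin_two, -mul_eq_zero]
    linear_combination -h

include hΔ in
/-- In every class `1 mod M` infinitely many `l` have `a_l ≢ l + 1`. -/
theorem exists_ne_succ (hp2 : p ≠ 2) (hirr : W.ModRepIsIrreducible p) {S : Set ℕ} (hS : S.Finite)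
    {M : ℕ} (hM : 0 < M) :
    ∃ l : ℕ, l.Prime ∧ l ∉ S ∧ W.IsGoodPrimeFor l ∧ l ≠ p ∧ (M : ℤ) ∣ (l : ℤ) - 1 ∧
      (W.apOfModel l : ZMod p) ≠ (l : ZMod p) + 1 := by
  by_contra hno
  simp only [not_exists, not_and, ne_eq, not_not] at hno
  have hbad : {l : ℕ | (l : ℤ) ∣ W.Δ}.Finite := by
    refine Set.Finite.subset (Set.finite_Iic W.Δ.natAbs) fun l hl ↦ ?_
    refine Nat.le_of_dvd (Int.natAbs_pos.mpr fun h0 ↦ hΔ ?_) (Int.natCast_dvd.mp hl)
    rw [WeierstrassCurve.map_Δ, h0, map_zero]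
  set M' := M * p with hM'
  have hM0 : M' ≠ 0 := Nat.mul_ne_zero hM.ne' (Fact.out : p.Prime).ne_zero
  have : NeZero M' := ⟨hM0⟩
  obtain ⟨ζ, hζ⟩ := HasEnoughRootsOfUnity.exists_primitiveRoot Qb M'
  set c : GQ →* (ZMod M')ˣ := hζ.autToPow ℚ with hc
  have hcs : ∀ σ : GQ, c σ = 1 ↔ σ ζ = ζ := fun σ ↦ by
    have h1 := hζ.autToPow_spec ℚ σ
    refine ⟨fun h ↦ ?_, fun h ↦ ?_⟩
    · rw [← hc, h] at h1
      rcases eq_or_ne M' 1 with h' | h'
      · have : ζ = 1 := IsPrimitiveRoot.one_right_iff.mp (h' ▸ hζ)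
        rw [this, map_one]
      · have : Fact (1 < M') := ⟨by omega⟩
        simpa [ZMod.val_one] using h1.symm
    · rw [h] at h1
      apply Units.ext
      apply ZMod.val_injective
      conv_rhs at h1 => rw [← pow_one ζ]
      have h2 := (hζ.isOfFinOrder hM0).pow_eq_pow_iff_modEq.mp h1
      rw [← hζ.eq_orderOf] at h2
      rw [Units.val_one]
      have : Fact (1 < M') := ⟨lt_of_lt_of_le (Fact.out : p.Prime).one_lt
        (Nat.le_mul_of_pos_left _ hM)⟩
      rw [ZMod.val_one]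
      exact Nat.ModEq.eq_of_lt_of_lt h2 (ZMod.val_lt _) (Fact.out : 1 < M')
  have hfac : GaloisFactorsThroughFiniteLevel ((torMat W (p := p) hΔ).prod c) := by
    obtain ⟨L, hL, h⟩ := torMat_factors W (p := p) hΔ
    have : FiniteDimensional ℚ (IntermediateField.adjoin ℚ ({ζ} : Set Qb)) :=
      IntermediateField.adjoin.finiteDimensional ((hζ.isIntegral (Nat.pos_of_ne_zero hM0)).tower_top)
    exact ⟨L ⊔ IntermediateField.adjoin ℚ {ζ}, IntermediateField.finiteDimensional_sup L _,
      fun σ hσ ↦ Prod.ext (h σ fun x hx ↦ hσ x (le_sup_left (α := IntermediateField ℚ Qb) hx))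
        ((hcs σ).mpr (hσ ζ (le_sup_right (α := IntermediateField ℚ Qb)
          (IntermediateField.mem_adjoin_simple_self ℚ ζ))))⟩
  refine false_of_unipotent_kernel (torMat W (p := p) hΔ) (span_torMat W hΔ hp2 hirr) c
    fun σ hσ ↦ ?_
  obtain ⟨l, hl, hlS, A, hA, τ, hτ, m, k, hm, hk⟩ :=
    GalRep.exists_isFrobeniusAt_map_pow_eq _ hfac σ
      (((hS.union hbad).union (Set.finite_singleton p)).union (Set.finite_Iic M'))
  simp only [Set.mem_union, Set.mem_ofPred_eq, Set.mem_singleton_iff, Set.mem_Iic, not_or,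
    not_le] at hlS
  have hcτ : c τ = 1 := by
    have h : c (σ ^ k) = c τ := congrArg Prod.snd hk
    rw [← h, map_pow, hσ, one_pow]
  have hcop : l.Coprime M' := hl.coprime_iff_not_dvd.mpr fun hd ↦
    absurd (Nat.le_of_dvd (Nat.pos_of_ne_zero hM0) hd) (by omega)
  have hl1 : (M' : ℤ) ∣ (l : ℤ) - 1 := by
    have h1 := (hcs τ).mp hcτ
    rw [frobenius_root_of_unity hM0 hcop hA hτ hζ.pow_eq_one] at h1
    conv_rhs at h1 => rw [← pow_one ζ]
    have h2 := (hζ.isOfFinOrder hM0).pow_eq_pow_iff_modEq.mp h1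
    rw [← hζ.eq_orderOf] at h2
    exact Nat.modEq_iff_dvd.mp h2.symm
  obtain ⟨ht, hd⟩ := torMat_frobenius W hΔ hirr hl hlS.1.1.2 hlS.1.2 hA hτ
  have hlp : (l : ZMod p) = 1 := by
    have := (dvd_mul_left (p : ℤ) M).trans (by simpa [hM'] using hl1)
    rw [← ZMod.intCast_zmod_eq_zero_iff_dvd] at this
    push_cast at this
    exact sub_eq_zero.mp this
  have h := hno l hl hlS.1.1.1 hlS.1.1.2 hlS.1.2
    ((dvd_mul_right (M : ℤ) p).trans (by simpa [hM'] using hl1))
  rw [hlp, ← ht] at h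
  rw [hlp] at hd
  have hσA : torMat W (p := p) hΔ σ = (torMat W hΔ τ) ^ m := by
    rw [← map_pow]; exact (congrArg Prod.fst hm).symm
  rw [hσA]
  -- powers of a unipotent matrix
  set T := torMat W (p := p) hΔ τ
  have hN : (T - 1) * (T - 1) = 0 := by
    rw [Matrix.trace_fin_two] at h
    rw [Matrix.det_fin_two] at hd
    ext i j
    fin_cases i <;> fin_cases j <;> simp [Matrix.mul_apply, Fin.sum_univ_two]
    · linear_combination (T 0 0) * h - hd
    · linear_combination (T 0 1) * h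
    · linear_combination (T 1 0) * h
    · linear_combination (T 1 1) * h - hd
  have hT : ∀ n : ℕ, T ^ n = 1 + n • (T - 1) := by
    intro n
    induction n with
    | zero => simp
    | succ n ih =>
      have h1 : (T - 1) * T = T - 1 := by
        rw [← sub_eq_zero, ← hN, mul_sub, mul_one]
      rw [pow_succ, ih, add_mul, one_mul, smul_mul_assoc, h1, succ_nsmul]
      abel
  refine ⟨?_, by rw [Matrix.det_pow, hd, one_pow]⟩
  rw [hT, Matrix.trace_add, Matrix.trace_smul, Matrix.trace_sub, Matrix.trace_one,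
    Fintype.card_fin, h]
  norm_num

end Main

end FermatAgent.Ihara

end
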