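import Fermat.Agent.Ihara.Level
import Fermat.Agent.ModCurve.Torsion.Lattice
import Fermat.Agent.ModCurve.Forms.Genus
import Fermat.Agent.ModCurve.Forms.PeriodPairInjective
import Fermat.Agent.ModCurve.Group.Homology

/-!
The lattice of integral parabolic characters as a faithful Hecke module, and the perfectness of
the cup product modulo an odd prime.
-/

set_option autoImplicit false

noncomputable section

namespace FermatAgent.Ihara

open OnePoint CongruenceSubgroup ModularCurve.Period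
open scoped MatrixGroups

variable (M : ℕ) [NeZero M]

instance instFinitePH : Module.Finite ℤ (PH M) :=
  Module.Finite.equiv (ModCurveGroup.parabolicHomsEquivPi M ℤ ℤ).symm

instance instFreePH : Module.Free ℤ (PH M) :=
  Module.Free.of_equiv (ModCurveGroup.parabolicHomsEquivPi M ℤ ℤ).symm

theorem eichlerShimuraBij : ModCurveTorsion.EichlerShimuraBij M :=
  ⟨ModCurve.Forms.periodHomPair_injective M, ModCurve.Forms.range_periodHomPair M⟩

theorem periodEquivariance : ModCurveTorsion.PeriodEquivariance M :=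
  ⟨Periods.existsPeriodMapLinear M, fun hp hpN f ↦ Periods.periodMap_heckeTLin hp hpN f,
    fun hqN f ↦ Periods.periodMap_heckeULin hqN f⟩

/-- The Hecke algebra acting on integral parabolic characters. -/
def heckeP : CuspForm.heckeAlgebra M 2 (∅ : Set ℕ) →+* Module.End ℤ (PH M) :=
  ModCurveTorsion.heckeOnLattice (eichlerShimuraBij M) (periodEquivariance M)

variable {M}

theorem heckeP_T {l : ℕ} (hl : l.Prime) (hlM : ¬ l ∣ M) (χ : PH M) :
    heckeP M (CuspForm.heckeAlgebra.T hl hlM (Set.notMem_empty l)) χ = tOp M hl hlM χ :=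
  Subtype.ext (ModCurveTorsion.heckeOnLattice_T _ _ hl hlM χ)

theorem heckeP_U {q : ℕ} [NeZero q] (hq : q.Prime) (hqM : q ∣ M) (χ : PH M) :
    heckeP M (CuspForm.heckeAlgebra.U hq hqM (Set.notMem_empty q)) χ = uOp M hqM χ :=
  Subtype.ext (ModCurveTorsion.heckeOnLattice_U _ _ hq hqM χ)

theorem span_castHom :
    (parabolicHoms ℂ (Gamma0 M) ℂ : Submodule ℂ (Additive (Gamma0 M) →+ ℂ)) ≤
      Submodule.span ℂ (Set.range (ModCurveTorsion.castHom (N := M))) := by
  intro w hw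
  let eZ := ModCurveGroup.parabolicHomsEquivPi M ℤ ℤ
  let eC := ModCurveGroup.parabolicHomsEquivPi M ℂ ℂ
  set c := eC ⟨w, hw⟩ with hc
  have h1 : ∀ i, eC ⟨ModCurveTorsion.castHom (eZ.symm (Pi.single i 1)),
      ModCurveTorsion.castHom_mem _⟩ = Pi.single i 1 := fun i ↦ by
    funext j
    obtain ⟨γ, hγ⟩ := ModCurveGroup.homProj_surjective (Gamma0 M) (ModCurveGroup.basisH1X0 M j)
    rw [ModCurveGroup.parabolicHomsEquivPi_apply M ℂ ℂ _ j hγ]
    show (((eZ.symm (Pi.single i 1)).1 γ : ℤ) : ℂ) = _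
    rw [← ModCurveGroup.parabolicHomsEquivPi_apply M ℤ ℤ _ j hγ]
    rw [show ModCurveGroup.parabolicHomsEquivPi M ℤ ℤ (eZ.symm (Pi.single i 1)) = Pi.single i 1
      from eZ.apply_symm_apply _]
    rcases eq_or_ne j i with h | h
    · subst h; simp
    · simp [h]
  have hw' : (⟨w, hw⟩ : parabolicHoms ℂ (Gamma0 M) ℂ) =
      ∑ i, c i • (⟨ModCurveTorsion.castHom (eZ.symm (Pi.single i 1)),
        ModCurveTorsion.castHom_mem _⟩ : parabolicHoms ℂ (Gamma0 M) ℂ) := by
    apply eC.injective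
    rw [map_sum, ← hc]
    simp only [_root_.map_smul, h1]
    simp [← Pi.single_smul, Finset.univ_sum_single]
  have := congrArg Subtype.val hw'
  simp only [Submodule.coe_sum, Submodule.coe_smul] at this
  rw [this]
  exact Submodule.sum_mem _ fun i _ ↦
    Submodule.smul_mem _ _ (Submodule.subset_span ⟨_, rfl⟩)

theorem heckeP_injective : Function.Injective (heckeP M) :=
  ModCurveTorsion.heckeOnLattice_injective _ _ span_castHom

theorem PH.smul_left_cancel {n : ℤ} (hn : n ≠ 0) {x y : PH M} (h : n • x = n • y) : x = y :=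
  smul_right_injective _ hn h

section ModP

variable {p : ℕ}

/-- Reduction modulo `p` of a character. -/
def red (p : ℕ) (χ : PH M) : Additive (Gamma0 M) →+ ZMod p := (Int.castAddHom (ZMod p)).comp χ.1

omit [NeZero M] in
theorem red_add (χ ψ : PH M) : red p (χ + ψ) = red p χ + red p ψ := by
  ext γ; simp [red]

omit [NeZero M] in
theorem red_zsmul (n : ℤ) (χ : PH M) : red p (n • χ) = (n : ZMod p) • red p χ := by
  ext γ; simp [red]

omit [NeZero M] in
theorem red_mem (χ : PH M) : red p χ ∈ parabolicHoms (ZMod p) (Gamma0 M) (ZMod p) := fun γ hγ ↦ by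
  show ((χ.1 (Additive.ofMul γ) : ℤ) : ZMod p) = 0
  rw [χ.2 γ hγ, Int.cast_zero]

omit [NeZero M] in
theorem red_smul_self (χ : PH M) : red p ((p : ℤ) • χ) = 0 := by
  rw [red_zsmul]; simp

omit [NeZero M] in
theorem exists_eq_smul_of_red_eq_zero [NeZero p] {χ : PH M} (h : red p χ = 0) :
    ∃ χ' : PH M, χ = (p : ℤ) • χ' := by
  have hd : ∀ γ, (p : ℤ) ∣ χ.1 γ := fun γ ↦
    (ZMod.intCast_zmod_eq_zero_iff_dvd _ _).mp (DFunLike.congr_fun h γ)
  choose f hf using hd
  have hp0 : (p : ℤ) ≠ 0 := Int.natCast_ne_zero.mpr (NeZero.ne p)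
  refine ⟨⟨AddMonoidHom.mk' f fun a b ↦ mul_left_cancel₀ hp0 ?_,
    fun γ hγ ↦ mul_left_cancel₀ hp0 ?_⟩, Subtype.ext (AddMonoidHom.ext fun γ ↦ ?_)⟩
  · rw [mul_add, ← hf, ← hf, ← hf, map_add]
  · show (p : ℤ) * f _ = _
    rw [← hf, χ.2 γ hγ, mul_zero]
  · show χ.1 γ = (p : ℤ) • f γ
    rw [hf, smul_eq_mul]

omit [NeZero M] in
theorem red_tOp {l : ℕ} (hl : l.Prime) (hlM : ¬ l ∣ M) (χ : PH M) :
    red p (tOp M hl hlM χ) = Periods.heckeHomT (ZMod p) M hl hlM (red p χ) :=
  AddMonoidHom.ext fun γ ↦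
    (DFunLike.congr_fun (Periods.heckeHomT_map (R := ℤ) M hl hlM (Int.castAddHom (ZMod p)) χ.1) γ).symm

variable [Fact p.Prime]

theorem red_eq_zero_of_pair (hp : p ≠ 2) {χ : PH M}
    (h : ∀ ψ, ((pair M χ ψ : ℤ) : ZMod p) = 0) : red p χ = 0 := by
  obtain ⟨χ', rfl⟩ := exists_eq_smul_of_dvd_pair hp fun ψ ↦
    (ZMod.intCast_zmod_eq_zero_iff_dvd _ _).mp (h ψ)
  exact red_smul_self χ'

/-- The pairing is perfect modulo an odd prime. -/
theorem exists_pair_eq (hp : p ≠ 2) (lam : PH M →+ ZMod p) :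
    ∃ χ : PH M, ∀ ψ, ((pair M χ ψ : ℤ) : ZMod p) = lam ψ := by
  classical
  let b := Module.Free.chooseBasis ℤ (PH M)
  let ι := Module.Free.ChooseBasisIndex ℤ (PH M)
  let L : (ι → ZMod p) →ₗ[ZMod p] (ι → ZMod p) :=
    { toFun := fun c j ↦ ∑ i, c i * ((pair M (b i) (b j) : ℤ) : ZMod p)
      map_add' := fun c d ↦ by funext j; simp [add_mul, Finset.sum_add_distrib]
      map_smul' := fun r c ↦ by funext j; simp [Finset.mul_sum, mul_assoc] }
  let lift : (ι → ZMod p) → PH M := fun c ↦ ∑ i, ((c i).val : ℤ) • b i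
  have hL : ∀ c j, ((pair M (lift c) (b j) : ℤ) : ZMod p) = L c j := fun c j ↦ by
    simp [lift, L, -ZMod.natCast_val, ZMod.natCast_zmod_val]
  have hext : ∀ χ, ∀ (f : PH M →+ ZMod p), (∀ j, ((pair M χ (b j) : ℤ) : ZMod p) = f (b j)) →
      ∀ ψ, ((pair M χ ψ : ℤ) : ZMod p) = f ψ := fun χ f h ψ ↦ by
    conv_lhs => rw [← b.sum_repr ψ]
    conv_rhs => rw [← b.sum_repr ψ]
    simp only [map_sum, _root_.map_smul, map_zsmul, smul_eq_mul, Int.cast_sum, Int.cast_mul, h,
      zsmul_eq_mul]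
  have hinj : Function.Injective L := by
    refine (injective_iff_map_eq_zero L).mpr fun c hc ↦ funext fun i ↦ ?_
    have h0 : red p (lift c) = 0 := red_eq_zero_of_pair hp
      (hext _ 0 fun j ↦ by rw [hL, hc]; rfl)
    obtain ⟨χ', hχ'⟩ := exists_eq_smul_of_red_eq_zero h0
    have h1 := congrArg (fun x ↦ b.repr x i) hχ'
    simp only [lift, _root_.map_smul, Finsupp.smul_apply, smul_eq_mul] at h1
    rw [b.repr_sum_self] at h1
    have h2 := congrArg (fun z : ℤ ↦ (z : ZMod p)) h1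
    simpa [-ZMod.natCast_val, ZMod.natCast_zmod_val] using h2
  obtain ⟨c, hc⟩ := (LinearMap.injective_iff_surjective.mp hinj) fun j ↦ lam (b j)
  exact ⟨lift c, hext _ lam fun j ↦ by rw [hL, hc]⟩

end ModP

end FermatAgent.Ihara

end
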