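import Fermat.Agent.Ihara.SymbolPeriods

/-!
**Ihara's lemma**: the sum of the two degeneracy maps from parabolic characters of `Γ₀(N)` to
characters of `Γ₀(Nq)` is injective on non-Eisenstein Hecke eigencharacters.
-/

set_option autoImplicit false

namespace FermatAgent.Ihara

open Matrix OnePoint CongruenceSubgroup ModularCurve.Period
open scoped MatrixGroups

/-- The inclusion `Γ₀(Nq) → Γ₀(N)`. -/
def degIncl (N q : ℕ) : Gamma0 (N * q) →* Gamma0 N :=
  Subgroup.inclusion fun g hg ↦ by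
    rw [Gamma0_mem, ZMod.intCast_zmod_eq_zero_iff_dvd] at hg ⊢
    push_cast at hg
    exact (dvd_mul_right _ _).trans hg

theorem dvd_lowerLeft {N q : ℕ} (γ : Gamma0 (N * q)) :
    ((N : ℤ) * q) ∣ ((γ : SL(2, ℤ)) : Matrix (Fin 2) (Fin 2) ℤ) 1 0 := by
  have := (ZMod.intCast_zmod_eq_zero_iff_dvd _ _).mp (Gamma0_mem.mp γ.2)
  exact_mod_cast this

/-- Conjugation by `diag(q, 1)` on matrices with lower left entry divisible by `q`. -/
def conjDiagMat (q : ℕ) (A : Matrix (Fin 2) (Fin 2) ℤ) : Matrix (Fin 2) (Fin 2) ℤ :=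
  !![A 0 0, q * A 0 1; A 1 0 / q, A 1 1]

theorem conjDiagMat_det {N q : ℕ} [NeZero q] (γ : Gamma0 (N * q)) :
    (conjDiagMat q ((γ : SL(2, ℤ)) : Matrix (Fin 2) (Fin 2) ℤ)).det = 1 := by
  obtain ⟨t, ht⟩ := (dvd_mul_left (q : ℤ) N).trans (dvd_lowerLeft γ)
  have hdet := (γ : SL(2, ℤ)).2
  rw [Matrix.det_fin_two] at hdet ⊢
  simp [conjDiagMat, ht, Int.mul_ediv_cancel_left _ (Int.natCast_ne_zero.mpr (NeZero.ne q))]
  rw [ht] at hdet
  linear_combination hdet

theorem conjDiagMat_mul {N q : ℕ} [NeZero q] (γ δ : Gamma0 (N * q)) :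
    conjDiagMat q (((γ * δ : Gamma0 (N * q)) : SL(2, ℤ)) : Matrix (Fin 2) (Fin 2) ℤ) =
      conjDiagMat q ((γ : SL(2, ℤ)) : Matrix (Fin 2) (Fin 2) ℤ) *
        conjDiagMat q ((δ : SL(2, ℤ)) : Matrix (Fin 2) (Fin 2) ℤ) := by
  obtain ⟨s, hs⟩ := (dvd_mul_left (q : ℤ) N).trans (dvd_lowerLeft γ)
  obtain ⟨t, ht⟩ := (dvd_mul_left (q : ℤ) N).trans (dvd_lowerLeft δ)
  have hq : (q : ℤ) ≠ 0 := Int.natCast_ne_zero.mpr (NeZero.ne q)
  rw [Subgroup.coe_mul, Matrix.SpecialLinearGroup.coe_mul]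
  ext i j
  fin_cases i <;> fin_cases j
  · simp [conjDiagMat, Matrix.mul_apply, Fin.sum_univ_two, hs, ht, Int.mul_ediv_cancel_left _ hq]; ring
  · simp [conjDiagMat, Matrix.mul_apply, Fin.sum_univ_two, hs, ht, Int.mul_ediv_cancel_left _ hq]; ring
  · simp only [conjDiagMat, Matrix.mul_apply, Fin.sum_univ_two, hs, ht]
    simp [Int.mul_ediv_cancel_left _ hq]
    rw [mul_assoc, mul_left_comm _ (q : ℤ) t, ← mul_add, Int.mul_ediv_cancel_left _ hq]
  · simp [conjDiagMat, Matrix.mul_apply, Fin.sum_univ_two, hs, ht, Int.mul_ediv_cancel_left _ hq]; ring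

/-- `γ ↦ diag(q,1) γ diag(q,1)⁻¹` from `Γ₀(Nq)` to `Γ₀(N)`. -/
def degConj (N q : ℕ) [NeZero q] : Gamma0 (N * q) →* Gamma0 N :=
  MonoidHom.mk'
    (fun γ ↦ ⟨⟨conjDiagMat q ((γ : SL(2, ℤ)) : Matrix (Fin 2) (Fin 2) ℤ), conjDiagMat_det γ⟩, by
      obtain ⟨t, ht⟩ := dvd_lowerLeft γ
      rw [Gamma0_mem, ZMod.intCast_zmod_eq_zero_iff_dvd]
      refine ⟨t, ?_⟩
      simp [conjDiagMat, ht]
      rw [mul_assoc, mul_left_comm, Int.mul_ediv_cancel_left _ (Int.natCast_ne_zero.mpr (NeZero.ne q))]⟩)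
    fun γ δ ↦ Subtype.ext (Subtype.ext (by
      simpa [Matrix.SpecialLinearGroup.coe_mul] using conjDiagMat_mul γ δ))

variable {k : Type*} [AddCommGroup k] {N q : ℕ}

/-- `diag(q, 1)`. -/
noncomputable def degMat (q : ℕ) [NeZero q] : G2 := mk2 q 0 0 1 (by simp [NeZero.ne q])

set_option linter.unnecessarySeqFocus false in
theorem degMat_mul_slQ [NeZero q] (γ : Gamma0 (N * q)) :
    degMat q * slQ γ = slQ (degConj N q γ : Gamma0 N) * degMat q := by
  obtain ⟨t, ht⟩ := (dvd_mul_left (q : ℤ) N).trans (dvd_lowerLeft γ)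
  have hq : (q : ℤ) ≠ 0 := Int.natCast_ne_zero.mpr (NeZero.ne q)
  refine g2_ext ?_ ?_ ?_ ?_ <;>
    simp [mul_apply2, degMat, degConj, conjDiagMat, ht] <;> ring

theorem G0_mul_right_le (N q : ℕ) : G0 (N * q) ≤ G0 N := G0_anti (dvd_mul_right N q)

theorem isSymb_incl {φ : Cusp × Cusp → k} (h : IsSymb (G0 N : Set G2) φ) (q : ℕ) :
    IsSymb (G0 (N * q) : Set G2) φ :=
  ⟨h.add, h.inv.mono (G0_mul_right_le N q)⟩

theorem periods_incl {φ : Cusp × Cusp → k} (h : IsSymb (G0 N : Set G2) φ) :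
    periods (isSymb_incl h q) = (periods h).comp (MonoidHom.toAdditive (degIncl N q)) := rfl

theorem isSymb_conj [NeZero q] {φ : Cusp × Cusp → k} (h : IsSymb (G0 N : Set G2) φ) :
    IsSymb (G0 (N * q) : Set G2) (slash φ (degMat q)) where
  add x y z := h.add _ _ _
  inv := by
    rintro g ⟨γ, hγ, rfl⟩ p
    simp only [slash_apply, smul_smul, degMat_mul_slQ ⟨γ, hγ⟩]
    rw [mul_smul, h.inv _ (slQ_mem_G0 _)]

theorem periods_conj [NeZero q] {φ : Cusp × Cusp → k} (h : IsSymb (G0 N : Set G2) φ) :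
    periods (isSymb_conj (q := q) h) = (periods h).comp (MonoidHom.toAdditive (degConj N q)) := by
  refine AddMonoidHom.ext fun γ ↦ ?_
  show φ (degMat q • ∞, degMat q • slQ (Additive.toMul γ : Gamma0 (N * q)) • ∞) =
    φ (∞, slQ (degConj N q (Additive.toMul γ) : Gamma0 N) • ∞)
  have hinf : degMat q • (∞ : Cusp) = ∞ := smul_infty_eq_self_iff.mpr (by simp [degMat])
  rw [smul_smul, degMat_mul_slQ, mul_smul, hinf]

theorem IsSymb.add' {φ ψ : Cusp × Cusp → k} {H : Set G2} (h : IsSymb H φ) (h' : IsSymb H ψ) :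
    IsSymb H (φ + ψ) where
  add x y z := by simp [h.add x y z, h'.add x y z]; abel
  inv g hg p := by simp [h.inv g hg p, h'.inv g hg p]

/-- `T_l` commutes with pulling back along `diag(q, 1)`. -/
theorem symT_slash_degMat [NeZero q] {l : ℕ} [NeZero l] (hlq : l.Coprime q)
    {φ : Cusp × Cusp → k} (h : IsInv (G0 N : Set G2) φ) :
    symT l (slash φ (degMat q)) = slash (symT l φ) (degMat q) := by
  funext p
  simp only [symT, slash_apply]
  let u := ZMod.unitOfCoprime q hlq.symm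
  refine Fintype.sum_equiv (Equiv.optionCongr (Units.mulLeft u)) _ _ fun i ↦ ?_
  rw [smul_smul, smul_smul]
  cases i with
  | none =>
    congr 2
    refine g2_ext ?_ ?_ ?_ ?_ <;> simp [degMat, heckeMat, mul_apply2, mul_comm]
  | some j =>
    obtain ⟨e, he⟩ : (l : ℤ) ∣ (q : ℤ) * j.val - (((u : ZMod l) * j).val : ℕ) := by
      rw [← ZMod.intCast_zmod_eq_zero_iff_dvd]
      simp [u]
    have he' : (q : ℚ) * (j.val : ℕ) - (((u : ZMod l) * j).val : ℕ) = l * e := by exact_mod_cast he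
    have hm : degMat q * heckeMat l (Option.some j) =
        shift (e : ℚ) * (heckeMat l (Option.some ((u : ZMod l) * j)) * degMat q) := by
      refine g2_ext ?_ ?_ ?_ ?_ <;> simp [degMat, heckeMat, shift_apply, mul_apply2, -ZMod.natCast_val]
      linear_combination he'
    rw [hm, mul_smul, h _ (shift_intCast_mem_G0 N e)]
    rfl

/-- The torus invariance of a symbol which is also invariant under the conjugate group. -/
theorem isQInv_of_eq_neg_slash [NeZero q] (hq : q.Prime) (hqN : ¬ q ∣ N) {u v : Cusp × Cusp → k}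
    (hu : IsSymb (G0 N : Set G2) u) (hv : IsSymb (G0 N : Set G2) v)
    (h : ∀ p, u p = -v (degMat q • p)) : IsQInv N q u where
  prime := hq
  not_dvd := hqN
  symb := hu
  torus_inv p := by
    have hcop : IsCoprime (q : ℤ) (N : ℤ) :=
      Int.isCoprime_iff_gcd_eq_one.mpr
        (by simpa [Int.gcd] using (hq.coprime_iff_not_dvd.mpr hqN))
    obtain ⟨δ, β', hst⟩ := hcop
    -- `γ = !![q, -β'; N, δ]`, `η = !![qδ, β'; -N, 1]`
    have hγ : mk2 (q : ℚ) (-(β' : ℚ)) N δ (by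
        have : (δ : ℚ) * q + β' * N = 1 := by exact_mod_cast hst
        exact ne_of_eq_of_ne (show (q : ℚ) * δ - -(β' : ℚ) * N = 1 by linear_combination this)
          one_ne_zero) ∈ G0 N :=
      mem_G0_iff.mpr ⟨q, -β', N, δ, by linear_combination hst, dvd_refl _, by simp, by simp,
        by simp, by simp⟩
    have hη : mk2 ((q : ℚ) * δ) (β' : ℚ) (-(N : ℚ)) 1 (by
        have : (δ : ℚ) * q + β' * N = 1 := by exact_mod_cast hst
        exact ne_of_eq_of_ne (show (q : ℚ) * δ * 1 - (β' : ℚ) * -(N : ℚ) = 1 by linear_combination this)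
          one_ne_zero) ∈ G0 N :=
      mem_G0_iff.mpr ⟨q * δ, β', -N, 1, by linear_combination hst, dvd_neg.mpr (dvd_refl _),
        by simp, by simp, by simp, by simp⟩
    set γ := mk2 (q : ℚ) (-(β' : ℚ)) N δ _
    set η := mk2 ((q : ℚ) * δ) (β' : ℚ) (-(N : ℚ)) 1 _
    have hst' : (δ : ℚ) * q + β' * N = 1 := by exact_mod_cast hst
    have hq0 : (q : ℚ) ≠ 0 := Nat.cast_ne_zero.mpr hq.ne_zero
    set X := mk2 ((q : ℚ) * δ) ((β' : ℚ) / q) (-((q : ℚ) * N)) 1
      (ne_of_eq_of_ne (show (q : ℚ) * δ * 1 - (β' : ℚ) / q * -((q : ℚ) * N) = 1 by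
        field_simp; linear_combination hst') one_ne_zero) with hX
    have hdX : degMat q * X = η * degMat q := by
      refine g2_ext ?_ ?_ ?_ ?_ <;> simp [X, η, degMat, mul_apply2] <;> field_simp
    have htor : torus (q : ℚ) (Nat.cast_ne_zero.mpr hq.ne_zero) =
        γ * ((degMat q)⁻¹ * (η * degMat q)) := by
      rw [← hdX, inv_mul_cancel_left]
      refine g2_ext ?_ ?_ ?_ ?_ <;> simp [torus, diag2, X, γ, mul_apply2] <;> field_simp
      all_goals first | linear_combination hst' | linear_combination -hst' | ring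
    rw [htor, mul_smul, hu.inv γ hγ, h, h, smul_smul, ← mul_assoc, mul_inv_cancel, one_mul,
      mul_smul, hv.inv η hη]

section Ihara

variable {K : Type*} [Field K]

/-- A Hecke eigensystem with values in `K`, on the primes in `S`, which is not Eisenstein:
its squares differ from those of `l ↦ 1 + l`, and it differs from `1 + l` in every class `1 mod M`. -/
structure NonEisenstein (S : Set ℕ) (a : ℕ → K) : Prop where
  prime : ∀ l ∈ S, l.Prime
  sq_ne : ∃ l ∈ S, a l ^ 2 ≠ ((l : K) + 1) ^ 2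
  ne_mod : ∀ M : ℕ, 0 < M → ∃ l ∈ S, (M : ℤ) ∣ (l : ℤ) - 1 ∧ a l ≠ (l : K) + 1

/-- A parabolic character which is a Hecke eigencharacter for the primes in `S`. -/
def IsEigenChar (S : Set ℕ) (a : ℕ → K) (N : ℕ) (χ : Additive (Gamma0 N) →+ K) : Prop :=
  ∀ l, ∀ hl : l.Prime, l ∈ S → ∀ hlN : ¬ l ∣ N, Periods.heckeHomT K N hl hlN χ = a l • χ

theorem periods_symT_sub_nsmul {l : ℕ} [NeZero l] (hl : l.Prime) {M : ℕ} (hlM : ¬ l ∣ M)
    {φ : Cusp × Cusp → K} (h : IsSymb (G0 M : Set G2) φ) {c : K}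
    (heig : Periods.heckeHomT K M hl hlM (periods h) = c • periods h) (n : ℕ) :
    periods ((isSymb_symT hl hlM h).sub (h.nsmul n)) = (c - n) • periods h := by
  rw [periods_sub (isSymb_symT hl hlM h) (h.nsmul n), periods_symT K hl hlM h, heig,
    periods_nsmul h n, sub_smul, Nat.cast_smul_eq_nsmul]

/-- A boundary symbol whose periods are non-Eisenstein eigen has no periods. -/
theorem periods_eq_zero_of_bdry {S : Set ℕ} {a : ℕ → K} (ha : NonEisenstein S a) {N : ℕ}
    (hS : ∀ l ∈ S, ¬ l ∣ N) {ψ : Cusp × Cusp → K} (h : IsSymb (G0 N : Set G2) ψ) (hbd : IsBdry ψ)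
    (heig : IsEigenChar S a N (periods h)) : periods h = 0 := by
  obtain ⟨M, hM, hM0⟩ := hbd
  obtain ⟨l, hlS, hlM, hal⟩ := ha.ne_mod M hM
  have hl := ha.prime l hlS
  have : NeZero l := ⟨hl.ne_zero⟩
  have h1 := periods_symT_sub_nsmul hl (hS l hlS) h (heig l hl hlS (hS l hlS)) (l + 1)
  have h2 : periods ((isSymb_symT hl (hS l hlS) h).sub (h.nsmul (l + 1))) = 0 := by
    refine AddMonoidHom.ext fun γ ↦ ?_
    show (symT l ψ - (l + 1) • ψ) _ = 0
    rw [eisenstein_of_bdry h hM0 hl hlM, sub_self]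
    rfl
  rw [h1, smul_eq_zero] at h2
  exact h2.resolve_left (by rw [sub_eq_zero]; push_cast; exact hal)

/-- **Ihara's lemma** for parabolic characters of `Γ₀(N)` with values in a field. -/
theorem ihara {S : Set ℕ} {a : ℕ → K} (ha : NonEisenstein S a) {N q : ℕ} [NeZero q] (hq : q.Prime)
    (hqN : ¬ q ∣ N) (hS : ∀ l ∈ S, ¬ l ∣ N * q)
    {x y : Additive (Gamma0 N) →+ K} (hx : x ∈ parabolicHoms K (Gamma0 N) K)
    (hy : y ∈ parabolicHoms K (Gamma0 N) K) (hxe : IsEigenChar S a N x) (hye : IsEigenChar S a N y)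
    (hker : x.comp (MonoidHom.toAdditive (degIncl N q)) +
      y.comp (MonoidHom.toAdditive (degConj N q)) = 0) : x = 0 ∧ y = 0 := by
  have hSN : ∀ l ∈ S, ¬ l ∣ N := fun l hl h ↦ hS l hl (h.mul_right q)
  have hN : 0 < N := Nat.pos_of_ne_zero fun h ↦ hqN (h ▸ dvd_zero q)
  set u := symOf x with hu
  set v := symOf y with hv
  have hus : IsSymb (G0 N : Set G2) u := isSymb_symOf hx
  have hvs : IsSymb (G0 N : Set G2) v := isSymb_symOf hy
  have hws := (isSymb_incl hus q).add' (isSymb_conj (q := q) hvs)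
  have hw0 : periods hws = 0 := by
    refine AddMonoidHom.ext fun γ ↦ ?_
    show periods (isSymb_incl hus q) γ + periods (isSymb_conj (q := q) hvs) γ = 0
    rw [periods_incl hus, periods_conj hvs, periods_symOf hx, periods_symOf hy]
    exact DFunLike.congr_fun hker γ
  have hNq : 0 < N * q := Nat.mul_pos hN hq.pos
  obtain ⟨l, hlS, hlM, hal⟩ := ha.ne_mod (N * q) hNq
  have hl := ha.prime l hlS
  have : NeZero l := ⟨hl.ne_zero⟩
  have hlq : l.Coprime q := (hl.coprime_iff_not_dvd).mpr fun h ↦ hS l hlS (h.mul_left N)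
  have hEw := eisenstein_of_bdry hws (isBdry_of_periods_eq_zero hws hNq dvd_rfl hw0) hl hlM
  set u' := symT l u - (l + 1) • u with hu'
  set v' := symT l v - (l + 1) • v with hv'
  have hu's : IsSymb (G0 N : Set G2) u' := (isSymb_symT hl (hSN l hlS) hus).sub (hus.nsmul _)
  have hv's : IsSymb (G0 N : Set G2) v' := (isSymb_symT hl (hSN l hlS) hvs).sub (hvs.nsmul _)
  have hrel : ∀ p, u' p = -v' (degMat q • p) := fun p ↦ by
    have h1 := congrFun hEw p
    have h2 := congrFun (symT_slash_degMat (N := N) hlq hvs.inv) p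
    simp only [symT, Pi.add_apply, slash_apply, Pi.smul_apply, Finset.sum_add_distrib,
      smul_add] at h1 h2
    rw [h2] at h1
    simp only [hu', hv', symT, Pi.sub_apply, Pi.smul_apply]
    rw [eq_neg_iff_add_eq_zero, sub_add_sub_comm, h1, sub_self]
  have hc : (a l - ((l + 1 : ℕ) : K)) ≠ 0 := by rw [sub_ne_zero]; push_cast; exact hal
  have hpu : periods hu's = (a l - ((l + 1 : ℕ) : K)) • x := by
    rw [periods_symT_sub_nsmul hl (hSN l hlS) hus (c := a l)
      (by rw [periods_symOf hx]; exact hxe l hl hlS _), periods_symOf hx]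
  have hpv : periods hv's = (a l - ((l + 1 : ℕ) : K)) • y := by
    rw [periods_symT_sub_nsmul hl (hSN l hlS) hvs (c := a l)
      (by rw [periods_symOf hy]; exact hye l hl hlS _), periods_symOf hy]
  have heu : IsEigenChar S a N (periods hu's) := fun m hm hmS hmN ↦ by
    rw [hpu, _root_.map_smul, hxe m hm hmS hmN, smul_comm]
  -- the first stage: `T² - (m+1)²` pushes `u'` into the boundary symbols
  have hQ := isQInv_of_eq_neg_slash hq hqN hu's hv's hrel
  obtain ⟨m, hmS, hm2⟩ := ha.sq_ne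
  have hm := ha.prime m hmS
  have : NeZero m := ⟨hm.ne_zero⟩
  have hT := isSymb_symT hm (hSN m hmS) hu's
  have hψs := (isSymb_symT hm (hSN m hmS) hT).sub (hu's.nsmul ((m + 1) * (m + 1)))
  have hψp : periods hψs = (a m * a m - (((m + 1) * (m + 1) : ℕ) : K)) • periods hu's := by
    rw [periods_sub (isSymb_symT hm (hSN m hmS) hT) (hu's.nsmul _), periods_symT K hm (hSN m hmS) hT, periods_symT K hm (hSN m hmS) hu's,
      heu m hm hmS _, _root_.map_smul, heu m hm hmS _, periods_nsmul hu's _, smul_smul, sub_smul,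
      Nat.cast_smul_eq_nsmul]
  have h0 := periods_eq_zero_of_bdry ha hSN hψs hQ.symT_symT_sub_bdry (fun n hn hnS hnN ↦ by
    rw [hψp, _root_.map_smul, heu n hn hnS hnN, smul_comm])
  have hx0 : x = 0 := by
    rw [hψp, hpu, smul_smul, smul_eq_zero] at h0
    refine h0.resolve_left (mul_ne_zero ?_ hc)
    rw [sub_ne_zero]
    push_cast
    intro h
    exact hm2 (by rw [sq, sq]; exact h)
  refine ⟨hx0, ?_⟩
  -- the second stage
  have hu0 : periods hu's = 0 := by rw [hpu, hx0, smul_zero]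
  have hubd : IsBdry u' := ⟨N, hN, isBdry_of_periods_eq_zero hu's hN dvd_rfl hu0⟩
  have hvbd : IsBdry v' := by
    have hv'eq : v' = -slash u' (degMat q)⁻¹ := by
      funext p
      simp [hrel]
    rw [hv'eq]
    exact (hubd.slash _).neg
  have h0' := periods_eq_zero_of_bdry ha hSN hv's hvbd (fun n hn hnS hnN ↦ by
    rw [hpv, _root_.map_smul, hye n hn hnS hnN, smul_comm])
  rw [hpv, smul_eq_zero] at h0'
  exact h0'.resolve_left hc

end Ihara

end FermatAgent.Ihara
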