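import Fermat.Agent.Ihara.Pairing

/-!
The two degeneracy maps between levels `N` and `Nl`, their adjoints, the Atkin–Lehner involution
at `l`, and the self-adjointness of the Hecke operators.
-/

set_option autoImplicit false

namespace FermatAgent.Ihara

open OnePoint CongruenceSubgroup ModularCurve.Period
open scoped MatrixGroups

/-- The Hecke operator `T_l` on integral parabolic characters. -/
noncomputable def tOp (N : ℕ) {l : ℕ} (hl : l.Prime) (hlN : ¬ l ∣ N) : PH N →ₗ[ℤ] PH N :=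
  (Periods.heckeHomT ℤ N hl hlN).restrict fun _ h ↦ Periods.heckeHomT_mem_parabolicHoms N hl hlN h

/-- The operator `U_q` on integral parabolic characters. -/
noncomputable def uOp (N : ℕ) {q : ℕ} [NeZero q] (hqN : q ∣ N) : PH N →ₗ[ℤ] PH N :=
  (Periods.heckeHomU ℤ N hqN).restrict fun _ h ↦ Periods.heckeHomU_mem_parabolicHoms N hqN h

theorem tOp_periodsP {N : ℕ} {l : ℕ} [NeZero l] (hl : l.Prime) (hlN : ¬ l ∣ N)
    {φ : Cusp × Cusp → ℤ} (h : IsSymb (G0 N : Set G2) φ) :
    tOp N hl hlN (periodsP h) = periodsP (isSymb_symT hl hlN h) :=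
  Subtype.ext (periods_symT ℤ hl hlN h).symm

theorem uOp_periodsP {N : ℕ} {q : ℕ} [NeZero q] (hqN : q ∣ N)
    {φ : Cusp × Cusp → ℤ} (h : IsSymb (G0 N : Set G2) φ) :
    uOp N hqN (periodsP h) = periodsP (isSymb_corrSym (Periods.uCorr N hqN) h) :=
  Subtype.ext (periods_corrSym (Periods.uCorr N hqN) ℤ h).symm

variable {N l : ℕ}

theorem isCorr_incl (N l : ℕ) :
    IsCorr (G0 N : Set G2) (G0 (N * l) : Set G2) fun _ : Unit ↦ (1 : G2) :=
  isCorr_single fun g hg ↦ by simpa using G0_mul_right_le N l hg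

theorem isCorr_degMat (N l : ℕ) [NeZero l] :
    IsCorr (G0 N : Set G2) (G0 (N * l) : Set G2) fun _ : Unit ↦ degMat l :=
  isCorr_single fun g hg ↦ by
    obtain ⟨γ, hγ, rfl⟩ := hg
    rw [degMat_mul_slQ ⟨γ, hγ⟩, mul_inv_cancel_right]
    exact slQ_mem_G0 _

theorem corr_unit {k : Type*} [AddCommGroup k] (g : G2) (φ : Cusp × Cusp → k) :
    corr (fun _ : Unit ↦ g) φ = slash φ g := by
  funext p; simp [corr]

/-- The first degeneracy map. -/
noncomputable def inclOp (N l : ℕ) : PH N →ₗ[ℤ] PH (N * l) := opP (isCorr_incl N l)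

/-- The second degeneracy map. -/
noncomputable def degOp (N l : ℕ) [NeZero l] : PH N →ₗ[ℤ] PH (N * l) := opP (isCorr_degMat N l)

theorem coe_inclOp (χ : PH N) :
    (inclOp N l χ).1 = χ.1.comp (MonoidHom.toAdditive (degIncl N l)) := by
  conv_rhs => rw [← χ.periods, ← periods_incl χ.isSymb]
  exact periods_congr (by rw [corr_unit, slash_one]) (isSymb_corr (isCorr_incl N l) χ.isSymb)
    (isSymb_incl χ.isSymb l)

theorem coe_degOp [NeZero l] (χ : PH N) :
    (degOp N l χ).1 = χ.1.comp (MonoidHom.toAdditive (degConj N l)) := by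
  conv_rhs => rw [← χ.periods, ← periods_conj χ.isSymb]
  exact periods_congr (corr_unit _ _) (isSymb_corr (isCorr_degMat N l) χ.isSymb)
    (isSymb_conj (q := l) χ.isSymb)

/-- The map `(x, y) ↦ x + y ∣ diag(l, 1)`. -/
noncomputable def alphaOp (N l : ℕ) [NeZero l] : PH N × PH N →ₗ[ℤ] PH (N * l) :=
  (inclOp N l).coprod (degOp N l)

/-- The trace operator. -/
noncomputable def trOp (N l : ℕ) [NeZero (N * l)] : PH (N * l) →ₗ[ℤ] PH N :=
  opP (isCorr_trRep (M := N) (M' := N * l))

theorem trOp_periodsP [NeZero (N * l)] {φ : Cusp × Cusp → ℤ}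
    (h : IsSymb (G0 (N * l) : Set G2) φ) :
    trOp N l (periodsP h) = periodsP (isSymb_trSym (M := N) h) :=
  opP_periodsP _ h

section AtkinLehner

variable [NeZero l] (x y : ℤ) (hxy : x * l - y * N = 1)

/-- The element `!![x, y; N, l]` of `Γ₀(N)`. -/
def gam (hxy : x * l - y * N = 1) : Gamma0 N :=
  ⟨⟨!![x, y; N, l], by rw [Matrix.det_fin_two_of]; exact hxy⟩,
    Gamma0_mem.mpr (by show ((N : ℤ) : ZMod N) = 0; simp)⟩

/-- The Atkin–Lehner matrix `!![l x, y; N l, l]`. -/
noncomputable def alMat (hxy : x * l - y * N = 1) : G2 :=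
  mk2 (l * x) y (N * l) l (by
    have h : (x : ℚ) * l - y * N = 1 := by exact_mod_cast hxy
    rw [show (l : ℚ) * x * l - y * (N * l) = l * (x * l - y * N) by ring, h, mul_one]
    exact Nat.cast_ne_zero.mpr (NeZero.ne l))

theorem alMat_det_pos : 0 < alMat x y hxy 0 0 * alMat x y hxy 1 1 -
    alMat x y hxy 0 1 * alMat x y hxy 1 0 := by
  have h : (x : ℚ) * l - y * N = 1 := by exact_mod_cast hxy
  simp only [alMat, val_mk2, Matrix.of_apply, Matrix.cons_val', Matrix.cons_val_zero,
    Matrix.cons_val_one, Matrix.cons_val_fin_one]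
  rw [show (l : ℚ) * x * l - y * (N * l) = l * (x * l - y * N) by ring, h, mul_one]
  exact_mod_cast Nat.pos_of_ne_zero (NeZero.ne l)

theorem alMat_eq : alMat x y hxy = slQ (gam x y hxy : Gamma0 N) * degMat l := by
  refine g2_ext ?_ ?_ ?_ ?_ <;> rw [mul_apply2] <;> simp only [slQ_apply] <;>
    simp [alMat, gam, degMat, mul_comm]

theorem alMat_conj : ∀ g ∈ G0 (N * l), alMat x y hxy * g * (alMat x y hxy)⁻¹ ∈ G0 (N * l) := by
  intro g hg
  obtain ⟨a, b, c, d, hdet, ⟨e, he⟩, ha, hb, hc, hd⟩ := mem_G0_iff.mp hg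
  push_cast at he
  subst he
  set a' : ℤ := l * x * a + y * N * l * e - N * l * x * b - N * y * d with ha'
  set b' : ℤ := -(x * y * a) - y ^ 2 * N * e + x * (l * x * b + y * d) with hb'
  set c' : ℤ := N * l * (a + l * e - N * b - d) with hc'
  set d' : ℤ := -(N * a * y) - N * l * e * y + N * l * b * x + l * d * x with hd'
  have hdet' : a' * d' - b' * c' = 1 := by
    have h2 : (x * l - y * N) ^ 2 = 1 := by rw [hxy]; ring
    rw [ha', hb', hc', hd']
    linear_combination (x * l - y * N) ^ 2 * hdet + h2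
  have key : alMat x y hxy * g =
      mk2 a' b' c' d' (by rw [show (a' : ℚ) * d' - b' * c' = 1 by exact_mod_cast hdet']; simp) *
        alMat x y hxy := by
    have h : (x : ℚ) * l - y * N = 1 := by exact_mod_cast hxy
    have hc2 : g 1 0 = (N : ℚ) * l * e := by rw [hc]; push_cast; ring
    refine g2_ext ?_ ?_ ?_ ?_ <;> rw [mul_apply2, mul_apply2] <;>
      simp [alMat, ha, hb, hc2, hd, ha', hb', hc', hd']
    · linear_combination (-((l : ℚ) * x * a + y * (N * l * e))) * h
    · linear_combination (-((l : ℚ) * x * b + y * d)) * h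
    · linear_combination (-((N : ℚ) * l * (a + l * e))) * h
    · linear_combination (-((N : ℚ) * l * b + l * d)) * h
  rw [key, mul_inv_cancel_right]
  refine mem_G0_iff.mpr ⟨a', b', c', d', hdet', ⟨a + l * e - N * b - d, ?_⟩, by simp, by simp,
    by simp, by simp⟩
  rw [hc']; push_cast; ring

/-- The Atkin–Lehner operator at `l`. -/
noncomputable def alOp (hxy : x * l - y * N = 1) : PH (N * l) →ₗ[ℤ] PH (N * l) :=
  opP (isCorr_single (g := alMat x y hxy) (alMat_conj x y hxy))

theorem isSymb_slash_alMat {k : Type*} [AddCommGroup k] {φ : Cusp × Cusp → k}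
    (h : IsSymb (G0 (N * l) : Set G2) φ) :
    IsSymb (G0 (N * l) : Set G2) (slash φ (alMat x y hxy)) := by
  rw [← corr_unit]
  exact isSymb_corr (isCorr_single (alMat_conj x y hxy)) h

theorem alOp_periodsP {φ : Cusp × Cusp → ℤ} (h : IsSymb (G0 (N * l) : Set G2) φ) :
    alOp x y hxy (periodsP h) = periodsP (isSymb_slash_alMat x y hxy h) :=
  (opP_periodsP _ h).trans (periodsP_congr (corr_unit _ _) _ _)

/-- The square of the Atkin–Lehner matrix acts trivially. -/
theorem slash_alMat_alMat {k : Type*} {φ : Cusp × Cusp → k}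
    (h : IsInv (G0 (N * l) : Set G2) φ) :
    slash (slash φ (alMat x y hxy)) (alMat x y hxy) = φ := by
  funext p
  have hdet : ((l : ℤ) * x ^ 2 + y * N) * (N * y + l) - y * (x + 1) * (N * l * (x + 1)) = 1 := by
    linear_combination (x * l - y * N + 1) * hxy
  have hne : (((l : ℤ) * x ^ 2 + y * N : ℤ) : ℚ) * ((N * y + l : ℤ) : ℚ) -
      ((y * (x + 1) : ℤ) : ℚ) * ((N * l * (x + 1) : ℤ) : ℚ) ≠ 0 := by
    have h1 : (((l : ℤ) * x ^ 2 + y * N : ℤ) : ℚ) * ((N * y + l : ℤ) : ℚ) -
      ((y * (x + 1) : ℤ) : ℚ) * ((N * l * (x + 1) : ℤ) : ℚ) = 1 := by exact_mod_cast hdet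
    rw [h1]; exact one_ne_zero
  have hmem : mk2 _ _ _ _ hne ∈ G0 (N * l) :=
    mem_G0_iff.mpr ⟨(l : ℤ) * x ^ 2 + y * N, y * (x + 1), N * l * (x + 1), N * y + l,
      hdet, ⟨x + 1, by push_cast; ring⟩, by simp, by simp, by simp, by simp⟩
  rw [slash_apply, slash_apply, smul_smul, smul_pair_eq (c := (l : ℚ))
    (Nat.cast_ne_zero.mpr (NeZero.ne l)) (h := mk2 _ _ _ _ hne) ?_ p]
  · exact h _ hmem p
  · intro i j
    fin_cases i <;> fin_cases j <;> simp [alMat, mul_apply2] <;> ring

theorem alOp_alOp (χ : PH (N * l)) : alOp x y hxy (alOp x y hxy χ) = χ := by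
  conv_lhs => rw [← periodsP_symOf χ]
  rw [alOp_periodsP, alOp_periodsP,
    periodsP_congr (slash_alMat_alMat x y hxy χ.isSymb.inv) _ χ.isSymb, periodsP_symOf]

/-- The map `z ↦ (tr z, tr (z ∣ W))`. -/
noncomputable def betaOp [NeZero (N * l)] (hxy : x * l - y * N = 1) :
    PH (N * l) →ₗ[ℤ] PH N × PH N :=
  (trOp N l).prod ((trOp N l).comp (alOp x y hxy))

/-- Representatives for `Γ₀(Nl) \ Γ₀(N)`. -/
noncomputable def levelRep (hxy : x * l - y * N = 1) : Option (ZMod l) → Gamma0 N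
  | none => 1
  | Option.some j => gam x y hxy * ⟨ModularGroup.T ^ (j.val : ℤ), by
      simp [Gamma0_mem, ModularGroup.coe_T_zpow]⟩

theorem coe_levelRep_some (j : ZMod l) :
    ((levelRep x y hxy (Option.some j) : SL(2, ℤ)) : Matrix (Fin 2) (Fin 2) ℤ) =
      !![x, x * j.val + y; (N : ℤ), N * j.val + l] := by
  show ((gam x y hxy : SL(2, ℤ)) : Matrix (Fin 2) (Fin 2) ℤ) *
    ((ModularGroup.T ^ (j.val : ℤ) : SL(2, ℤ)) : Matrix (Fin 2) (Fin 2) ℤ) = _
  rw [ModularGroup.coe_T_zpow]
  simp [gam, -ZMod.natCast_val]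

theorem levelRep_bijective (hl : l.Prime) (hlN : ¬ l ∣ N) :
    Function.Bijective fun i ↦ (Quotient.mk _ (levelRep x y hxy i) : TrIdx N (N * l)) := by
  have hmk : ∀ γ δ : Gamma0 N, (Quotient.mk _ γ : TrIdx N (N * l)) = Quotient.mk _ δ ↔
      ((N * l : ℕ) : ℤ) ∣ ((δ : SL(2, ℤ)) 1 0 * (γ : SL(2, ℤ)) 1 1 -
        (δ : SL(2, ℤ)) 1 1 * (γ : SL(2, ℤ)) 1 0) := fun γ δ ↦ by
    rw [Quotient.eq, QuotientGroup.rightRel_apply, Subgroup.mem_subgroupOf, Gamma0_mem,
      ZMod.intCast_zmod_eq_zero_iff_dvd]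
    simp [Matrix.mul_apply, Matrix.SpecialLinearGroup.coe_inv, Matrix.adjugate_fin_two,
      Fin.sum_univ_two, sub_eq_add_neg]
  have hN0 : (N : ℤ) ≠ 0 := fun h ↦ hlN (by simp [Int.natCast_eq_zero.mp h])
  have hcancel : ∀ z : ℤ, ((N * l : ℕ) : ℤ) ∣ N * z ↔ (l : ℤ) ∣ z := fun z ↦ by
    push_cast; exact mul_dvd_mul_iff_left hN0
  have hnot : ¬ (l : ℤ) ∣ 1 := fun h ↦ hl.not_dvd_one (by exact_mod_cast h)
  refine ⟨fun i k h ↦ ?_, fun d ↦ ?_⟩
  · rw [hmk] at h
    cases i with
    | none =>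
      cases k with
      | none => rfl
      | some k =>
        rw [coe_levelRep_some] at h
        simp [levelRep, -ZMod.natCast_val] at h
        exact absurd ((hcancel 1).mp (by simpa using h)) hnot
    | some i =>
      cases k with
      | none =>
        rw [coe_levelRep_some] at h
        simp [levelRep, -ZMod.natCast_val] at h
        exact absurd ((hcancel 1).mp (by simpa using h)) hnot
      | some k =>
        rw [coe_levelRep_some, coe_levelRep_some] at h
        simp [-ZMod.natCast_val] at h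
        have h2 : ((N * l : ℕ) : ℤ) ∣ N * ((N : ℤ) * ((i.val : ℤ) - k.val)) := by
          convert h using 1
          · push_cast; ring
          · ring
        rw [hcancel] at h2
        have h3 := ((Nat.prime_iff_prime_int.mp hl).dvd_or_dvd h2).resolve_left
          (fun h ↦ hlN (by exact_mod_cast h))
        congr 1
        rw [← sub_eq_zero]
        have := (ZMod.intCast_zmod_eq_zero_iff_dvd _ l).mpr h3
        push_cast at this
        rwa [ZMod.natCast_zmod_val, ZMod.natCast_zmod_val] at this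
  · obtain ⟨γ, rfl⟩ := Quotient.mk_surjective d
    have hc := (ZMod.intCast_zmod_eq_zero_iff_dvd _ _).mp (Gamma0_mem.mp γ.2)
    obtain ⟨c, hc⟩ := hc
    have := Fact.mk hl
    by_cases hlc : (l : ℤ) ∣ c
    · refine ⟨none, (hmk _ _).mpr ?_⟩
      simp [levelRep, hc]
      obtain ⟨e, rfl⟩ := hlc
      exact ⟨e, by ring⟩
    · set d' := (γ : SL(2, ℤ)) 1 1
      set j : ZMod l := (d' : ZMod l) / ((N : ZMod l) * (c : ZMod l)) with hj
      refine ⟨Option.some j, (hmk _ _).mpr ?_⟩
      rw [coe_levelRep_some]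
      simp [hc, -ZMod.natCast_val]
      have : (l : ℤ) ∣ c * ((N : ℤ) * j.val + l) - d' := by
        rw [← ZMod.intCast_zmod_eq_zero_iff_dvd]
        have h1 : (c : ZMod l) ≠ 0 := by rwa [Ne, ZMod.intCast_zmod_eq_zero_iff_dvd]
        have h2 : (N : ZMod l) ≠ 0 := by rwa [Ne, ZMod.natCast_eq_zero_iff]
        simp [hj]
        field_simp
        ring
      rw [← hcancel] at this
      convert this using 1
      · push_cast; ring
      · ring

variable [NeZero (N * l)]

set_option linter.unnecessarySeqFocus false in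
/-- `tr (v ∣ diag(l,1)) = T_l v`. -/
theorem trSym_slash_degMat {k : Type*} [AddCommGroup k] (hl : l.Prime) (hlN : ¬ l ∣ N)
    {φ : Cusp × Cusp → k} (h : IsSymb (G0 N : Set G2) φ) (hxy : x * l - y * N = 1) :
    trSym N (N * l) (slash φ (degMat l)) = symT l φ := by
  rw [trSym_eq _ (levelRep_bijective x y hxy hl hlN) (isSymb_conj (q := l) h).inv]
  funext p
  refine Finset.sum_congr rfl fun i _ ↦ ?_
  rw [slash_apply, smul_smul]
  cases i with
  | none =>
    congr 2
    refine g2_ext ?_ ?_ ?_ ?_ <;> rw [mul_apply2] <;>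
      simp [levelRep, degMat, heckeMat]
  | some j =>
    let η : Gamma0 N := ⟨⟨!![(l : ℤ) * x, y; N, 1], by
        rw [Matrix.det_fin_two_of]; linear_combination hxy⟩,
      Gamma0_mem.mpr (by show ((N : ℤ) : ZMod N) = 0; simp)⟩
    rw [show degMat l * slQ (levelRep x y hxy (Option.some j) : Gamma0 N) =
      slQ (η : SL(2, ℤ)) * heckeMat l (Option.some j) by
      refine g2_ext ?_ ?_ ?_ ?_ <;> rw [mul_apply2, mul_apply2] <;> simp only [slQ_apply] <;>
        rw [coe_levelRep_some] <;> simp [η, degMat, heckeMat, -ZMod.natCast_val] <;> ring,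
      mul_smul, h.inv _ (slQ_mem_G0 η)]

/-- `tr v = v + U_l (v ∣ W)`. -/
theorem trSym_eq_add {k : Type*} [AddCommGroup k] (hl : l.Prime) (hlN : ¬ l ∣ N)
    {φ : Cusp × Cusp → k} (h : IsInv (G0 (N * l) : Set G2) φ) :
    trSym N (N * l) φ =
      φ + corrSym (Periods.uCorr (N * l) (dvd_mul_left l N)) (slash φ (alMat x y hxy)) := by
  rw [trSym_eq _ (levelRep_bijective x y hxy hl hlN) h]
  funext p
  simp only [corr, corrSym, Fintype.sum_option, Pi.add_apply, slash_apply]
  refine congrArg₂ (· + ·) (by simp [levelRep]) (Finset.sum_congr rfl fun j _ ↦ ?_)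
  rw [smul_smul]
  congr 1
  refine (smul_pair_eq (c := (l : ℚ)) (Nat.cast_ne_zero.mpr (NeZero.ne l)) (fun a b ↦ ?_) p).symm
  rw [slQ_apply, coe_levelRep_some, mul_apply2]
  fin_cases a <;> fin_cases b <;>
    simp [alMat, matQ, Periods.upperRep, -ZMod.natCast_val] <;> ring

theorem trSym_of_inv {k : Type*} [AddCommGroup k] (hl : l.Prime) (hlN : ¬ l ∣ N)
    (hxy : x * l - y * N = 1) {φ : Cusp × Cusp → k} (h : IsInv (G0 N : Set G2) φ) :
    trSym N (N * l) φ = (l + 1) • φ := by
  rw [trSym_eq _ (levelRep_bijective x y hxy hl hlN) (h.mono (G0_mul_right_le N l))]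
  funext p
  simp only [corr]
  rw [Finset.sum_congr rfl fun i _ ↦ h _ (slQ_mem_G0 (levelRep x y hxy i)) p, Finset.sum_const,
    Finset.card_univ, Fintype.card_option, ZMod.card, Pi.smul_apply]

omit [NeZero (N * l)] in
theorem slash_alMat_of_inv {k : Type*} {φ : Cusp × Cusp → k} (h : IsInv (G0 N : Set G2) φ) :
    slash φ (alMat x y hxy) = slash φ (degMat l) := by
  rw [alMat_eq]; exact h.slash_mul_eq (slQ_mem_G0 _) _

variable [NeZero N]

include hxy in
/-- The adjunction between the degeneracy maps and the traces. -/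
theorem pair_alphaOp (a b : PH N) (z : PH (N * l)) :
    pair (N * l) (alphaOp N l (a, b)) z =
      pair N a (betaOp x y hxy z).1 + pair N b (betaOp x y hxy z).2 := by
  have hα : alphaOp N l (a, b) = inclOp N l a + degOp N l b := rfl
  rw [hα, map_add, LinearMap.add_apply]
  congr 1
  · show _ = pair N a (trOp N l z)
    conv_lhs => rw [← periodsP_symOf a, ← periodsP_symOf z]
    conv_rhs => rw [← periodsP_symOf a, ← periodsP_symOf z]
    rw [inclOp, opP_periodsP, trOp_periodsP, pair_periodsP, pair_periodsP, corr_unit, slash_one,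
      cupPair_trSym (dvd_mul_right N l) a.isSymb z.isSymb]
  · show _ = pair N b (trOp N l (alOp x y hxy z))
    conv_lhs => rw [← periodsP_symOf b, ← periodsP_symOf z]
    conv_rhs => rw [← periodsP_symOf b, ← periodsP_symOf z]
    rw [degOp, opP_periodsP, alOp_periodsP, trOp_periodsP, pair_periodsP, pair_periodsP,
      corr_unit, ← cupPair_trSym (dvd_mul_right N l) b.isSymb
        (isSymb_slash_alMat x y hxy z.isSymb),
      ← slash_alMat_of_inv x y hxy b.isSymb.inv]
    conv_lhs => rw [← slash_alMat_alMat x y hxy z.isSymb.inv]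
    exact cupPair_slash (alMat_det_pos x y hxy) (alMat_conj x y hxy)
      (isSymb_incl b.isSymb l) (isSymb_slash_alMat x y hxy z.isSymb)

omit [NeZero N] in
/-- `β ∘ α` is the matrix `[[l + 1, T_l], [T_l, l + 1]]`. -/
theorem betaOp_alphaOp (hl : l.Prime) (hlN : ¬ l ∣ N) (a b : PH N) :
    betaOp x y hxy (alphaOp N l (a, b)) =
      ((l + 1) • a + tOp N hl hlN b, tOp N hl hlN a + (l + 1) • b) := by
  have hA := isSymb_incl a.isSymb l
  have hB := isSymb_conj (q := l) b.isSymb
  have hα : alphaOp N l (a, b) = periodsP (hA.add' hB) := by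
    rw [periodsP_add hA hB]
    show inclOp N l a + degOp N l b = _
    congr 1
    · conv_lhs => rw [← periodsP_symOf a]
      exact (opP_periodsP _ _).trans (periodsP_congr (by rw [corr_unit, slash_one]) _ _)
    · conv_lhs => rw [← periodsP_symOf b]
      exact (opP_periodsP _ _).trans (periodsP_congr (corr_unit _ _) _ _)
  have hadd : ∀ (φ ψ : Cusp × Cusp → ℤ), trSym N (N * l) (φ + ψ) =
      trSym N (N * l) φ + trSym N (N * l) ψ := fun φ ψ ↦ corr_add _ φ ψ
  have hsl : slash (symOf a.1 + slash (symOf b.1) (degMat l)) (alMat x y hxy) =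
      slash (symOf a.1) (degMat l) + symOf b.1 := by
    conv_rhs => rw [← slash_alMat_alMat x y hxy (isSymb_incl b.isSymb l).inv,
      ← slash_alMat_of_inv x y hxy a.isSymb.inv]
    rw [← slash_alMat_of_inv x y hxy b.isSymb.inv]
    rfl
  have hn : ∀ (c : PH N) (n : ℕ), periodsP (c.isSymb.nsmul n) = n • c := fun c n ↦
    Subtype.ext ((periods_nsmul c.isSymb n).trans (by rw [c.periods]; rfl))
  refine Prod.ext ?_ ?_
  · show trOp N l (alphaOp N l (a, b)) = (l + 1) • a + tOp N hl hlN b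
    conv_rhs => rw [← periodsP_symOf b, tOp_periodsP, ← hn, ← periodsP_add]
    rw [hα, trOp_periodsP]
    refine periodsP_congr ?_ _ _
    rw [hadd, trSym_of_inv x y hl hlN hxy a.isSymb.inv,
      trSym_slash_degMat x y hl hlN b.isSymb hxy]
  · show trOp N l (alOp x y hxy (alphaOp N l (a, b))) = tOp N hl hlN a + (l + 1) • b
    conv_rhs => rw [← periodsP_symOf a, tOp_periodsP, ← hn, ← periodsP_add]
    rw [hα, alOp_periodsP, trOp_periodsP]
    refine periodsP_congr ?_ _ _
    rw [hsl, hadd, trSym_of_inv x y hl hlN hxy b.isSymb.inv,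
      trSym_slash_degMat x y hl hlN a.isSymb hxy]

omit [NeZero N] in
/-- On the kernel of `β` one has `U_l² = 1`. -/
theorem uOp_uOp_of_betaOp_eq_zero (hl : l.Prime) (hlN : ¬ l ∣ N) {z : PH (N * l)}
    (hz : betaOp x y hxy z = 0) :
    uOp (N * l) (dvd_mul_left l N) (uOp (N * l) (dvd_mul_left l N) z) = z := by
  have key : ∀ w : PH (N * l), trOp N l w = 0 →
      w + uOp (N * l) (dvd_mul_left l N) (alOp x y hxy w) = 0 := by
    intro w hw
    have h0 := hw
    rw [← periodsP_symOf w, trOp_periodsP] at h0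
    conv_lhs => rw [← periodsP_symOf w, alOp_periodsP, uOp_periodsP, ← periodsP_add]
    refine Subtype.ext (AddMonoidHom.ext fun γ ↦ ?_)
    have h1 := congrFun (trSym_eq_add x y hxy hl hlN w.isSymb.inv)
      (∞, slQ (Additive.toMul γ : Gamma0 (N * l)) • ∞)
    refine h1.symm.trans ?_
    have h2 : trSym N (N * l) (symOf w.1)
        (∞, slQ (degIncl N l (Additive.toMul γ) : Gamma0 N) • ∞) = 0 :=
      DFunLike.congr_fun (congrArg Subtype.val h0)
        (Additive.ofMul (degIncl N l (Additive.toMul γ)))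
    exact h2
  have h1 := key z (congrArg Prod.fst hz)
  have h2 := key (alOp x y hxy z) (congrArg Prod.snd hz)
  rw [alOp_alOp] at h2
  have e1 := eq_neg_of_add_eq_zero_right h2
  have e2 := eq_neg_of_add_eq_zero_right h1
  rw [e1, map_neg, e2, neg_neg]

end AtkinLehner

section SelfAdjoint

variable [NeZero N]

/-- `T_l` is self-adjoint. -/
theorem pair_tOp {l : ℕ} (hl : l.Prime) (hlN : ¬ l ∣ N) (a b : PH N) :
    pair N (tOp N hl hlN a) b = pair N a (tOp N hl hlN b) := by
  have : NeZero l := ⟨hl.ne_zero⟩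
  have : NeZero (N * l) := ⟨mul_ne_zero (NeZero.ne N) hl.ne_zero⟩
  obtain ⟨u, v, huv⟩ : IsCoprime (l : ℤ) (N : ℤ) :=
    Int.isCoprime_iff_gcd_eq_one.mpr (by simpa [Int.gcd] using hl.coprime_iff_not_dvd.mpr hlN)
  have hxy : u * l - (-v) * N = 1 := by linear_combination huv
  have hA := isSymb_incl a.isSymb l
  have hB := isSymb_incl b.isSymb l
  have main : ∀ {φ ψ : Cusp × Cusp → ℤ}, IsSymb (G0 N : Set G2) φ → IsSymb (G0 N : Set G2) ψ →
      cupPair N φ (symT l ψ) = cupPair (N * l) φ (slash ψ (degMat l)) := fun hφ hψ ↦ by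
    rw [← trSym_slash_degMat u (-v) hl hlN hψ hxy]
    exact (cupPair_trSym (dvd_mul_right N l) hφ (isSymb_conj (q := l) hψ)).symm
  conv_lhs => rw [← periodsP_symOf a, ← periodsP_symOf b]
  conv_rhs => rw [← periodsP_symOf a, ← periodsP_symOf b]
  rw [tOp_periodsP, tOp_periodsP, pair_periodsP, pair_periodsP, cupPair_comm, main b.isSymb a.isSymb,
    main a.isSymb b.isSymb, ← cupPair_comm, ← slash_alMat_of_inv u (-v) hxy a.isSymb.inv,
    ← slash_alMat_of_inv u (-v) hxy b.isSymb.inv]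
  conv_lhs => rw [← slash_alMat_alMat u (-v) hxy hB.inv]
  exact cupPair_slash (alMat_det_pos u (-v) hxy) (alMat_conj u (-v) hxy) hA
    (isSymb_slash_alMat u (-v) hxy hB)

end SelfAdjoint

section Equivariance

/-- `α` commutes with `T_m`. -/
theorem alphaOp_tOp [NeZero l] {m : ℕ} (hm : m.Prime) (hmN : ¬ m ∣ N * l) (a b : PH N) :
    alphaOp N l (tOp N hm (fun h ↦ hmN (h.mul_right l)) a,
        tOp N hm (fun h ↦ hmN (h.mul_right l)) b) =
      tOp (N * l) hm hmN (alphaOp N l (a, b)) := by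
  have : NeZero m := ⟨hm.ne_zero⟩
  have hmN' : ¬ m ∣ N := fun h ↦ hmN (h.mul_right l)
  have hml : m.Coprime l := hm.coprime_iff_not_dvd.mpr fun h ↦ hmN (h.mul_left N)
  show inclOp N l (tOp N hm hmN' a) + degOp N l (tOp N hm hmN' b) =
    tOp (N * l) hm hmN (inclOp N l a + degOp N l b)
  rw [map_add]
  congr 1
  · conv_lhs => rw [← periodsP_symOf a, tOp_periodsP, inclOp, opP_periodsP]
    conv_rhs => rw [← periodsP_symOf a, inclOp, opP_periodsP, tOp_periodsP]
    refine periodsP_congr ?_ _ _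
    rw [corr_unit, corr_unit, slash_one, slash_one]
  · conv_lhs => rw [← periodsP_symOf b, tOp_periodsP, degOp, opP_periodsP]
    conv_rhs => rw [← periodsP_symOf b, degOp, opP_periodsP, tOp_periodsP]
    refine periodsP_congr ?_ _ _
    rw [corr_unit, corr_unit]
    exact (symT_slash_degMat hml b.isSymb.inv).symm

end Equivariance

end FermatAgent.Ihara
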