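import Fermat.Agent.Ihara.Raising
import Fermat.Agent.Ihara.GaloisInput
import Fermat.Agent.DSLift.Eigenform
import Fermat.Agent.ModCurve.Forms.IntegralForms
import Fermat.Prelude.Def_FreyPackage_LevelRaising

/-!
Ribet's level raising theorem for the eigensystems of irreducible `E[p]`.
-/

set_option autoImplicit false

noncomputable section

namespace FermatAgent.Ihara

open CongruenceSubgroup
open scoped MatrixGroups

local notation "O" => integralClosure ℤ ℂ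

theorem isEigenData {W : WeierstrassCurve ℤ} {N q p : ℕ} [Fact p.Prime] [NeZero (N * q)]
    (hΔ : (W.map (Int.castRingHom ℚ)).Δ ≠ 0) (hp2 : p ≠ 2) (hirr : W.ModRepIsIrreducible p) :
    EigenData N q p {l | l.Prime ∧ W.IsGoodPrimeFor l ∧ ¬ l ∣ N * q ∧ l ≠ p}
      (fun l ↦ W.apOfModel l) := by
  have hfin : {l : ℕ | l ∣ N * q}.Finite :=
    Set.Finite.subset (Set.finite_Iic (N * q)) fun l hl ↦
      Nat.le_of_dvd (Nat.pos_of_ne_zero (NeZero.ne _)) hl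
  refine ⟨fun l hl ↦ hl.1, fun l hl ↦ hl.2.2.1, fun l hl ↦ hl.1, ?_, fun M hM ↦ ?_⟩
  · obtain ⟨l, hl, hlS, hg, hlp, hne⟩ := exists_sq_ne W hΔ hp2 hirr hfin
    exact ⟨l, ⟨hl, hg, hlS, hlp⟩, hne⟩
  · obtain ⟨l, hl, hlS, hg, hlp, hdvd, hne⟩ := exists_ne_succ W hΔ hp2 hirr hfin hM
    exact ⟨l, ⟨hl, hg, hlS, hlp⟩, hdvd, hne⟩

/-- An eigenform carrying the eigenvalues of a pair of ideals of the Hecke algebra. -/
theorem exists_eigenform_of_ideals {M : ℕ} [NeZero M]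
    (I₀ I : Ideal (CuspForm.heckeAlgebra M 2 (∅ : Set ℕ))) (hle : I₀ ≤ I) (hI : I ≠ ⊤)
    (htf : ∀ (n : ℕ) (t : CuspForm.heckeAlgebra M 2 (∅ : Set ℕ)), n ≠ 0 → n • t ∈ I₀ → t ∈ I₀) :
    ∃ (g : CuspForm (Gamma0 M) 2) (𝔪 : Ideal O)
      (ψ : CuspForm.heckeAlgebra M 2 (∅ : Set ℕ) →+* O), g.IsNormalizedEigenform ∧ 𝔪.IsMaximal ∧
      (∀ t ∈ I, ψ t ∈ 𝔪) ∧ (∀ t ∈ I₀, ψ t = 0) ∧
      (∀ (l : ℕ) (hl : l.Prime) (hlM : ¬ l ∣ M), ModularFormClass.qCoeff g l =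
        (ψ (CuspForm.heckeAlgebra.T hl hlM (Set.notMem_empty l)) : ℂ)) ∧
      ∀ (l : ℕ) (hl : l.Prime) (hlM : l ∣ M), ModularFormClass.qCoeff g l =
        (ψ (CuspForm.heckeAlgebra.U hl hlM (Set.notMem_empty l)) : ℂ) := by
  obtain ⟨m, hm, hIm⟩ := I.exists_le_maximal hI
  have : Module.Finite ℤ (CuspForm.heckeAlgebra M 2 (∅ : Set ℕ)) :=
    Periods.moduleFinite_heckeAlgebra_all M 2 ∅
  have : Module.Finite ℤ (CuspForm.heckeAlgebra M 2 (∅ : Set ℕ) ⧸ I₀) :=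
    Module.Finite.of_surjective ((Ideal.Quotient.mkₐ ℤ I₀).toLinearMap)
      (Ideal.Quotient.mk_surjective)
  have : IsAddTorsionFree (CuspForm.heckeAlgebra M 2 (∅ : Set ℕ) ⧸ I₀) := by
    refine ⟨fun n hn x y hxy ↦ ?_⟩
    obtain ⟨s, rfl⟩ := Ideal.Quotient.mk_surjective x
    obtain ⟨t, rfl⟩ := Ideal.Quotient.mk_surjective y
    simp only [← map_nsmul, Ideal.Quotient.eq, ← nsmul_sub] at hxy
    exact Ideal.Quotient.eq.mpr (htf n _ hn hxy)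
  have hker : RingHom.ker (Ideal.Quotient.mk I₀) ≤ m := by
    rw [Ideal.mk_ker]; exact hle.trans hIm
  have : (m.map (Ideal.Quotient.mk I₀)).IsMaximal :=
    Ideal.IsMaximal.map_of_surjective_of_ker_le Ideal.Quotient.mk_surjective hker
  obtain ⟨χ, 𝔪, h𝔪, hχ⟩ := exists_lift_of_isMaximal (m.map (Ideal.Quotient.mk I₀))
  obtain ⟨g, hg, hgT, hgU, -⟩ := DSLift.exists_normalizedEigenform_of_ringHom
    (ModCurve.Forms.hasIntegralStructure_two M)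
    ((Subalgebra.val (integralClosure ℤ ℂ)).toRingHom.comp (χ.comp (Ideal.Quotient.mk I₀)))
  exact ⟨g, 𝔪, χ.comp (Ideal.Quotient.mk I₀), hg, h𝔪,
    fun t ht ↦ hχ _ (Ideal.mem_map_of_mem _ (hIm ht)),
    fun t ht ↦ by rw [RingHom.comp_apply, Ideal.Quotient.eq_zero_iff_mem.mpr ht, map_zero],
    hgT, hgU⟩

/-- From an element of the kernel of the traces to an eigenform at level `Nq` which is new at `q`. -/
theorem exists_eigenform_of_new {N q p : ℕ} [NeZero N] [NeZero q] [NeZero (N * q)] [Fact p.Prime]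
    {S : Set ℕ} {a : ℕ → ℤ} (h : EigenData N q p S a) (hq : q.Prime) (hqN : ¬ q ∣ N) {u v : ℤ}
    (huv : u * q - v * N = 1) {k₀ : PH (N * q)} (hk : betaOp u v huv k₀ = 0)
    (hk0 : red p k₀ ≠ 0)
    (hkT : ∀ l : S, red p (tOp (N * q) (h.prime l l.2) (h.not_dvd l l.2) k₀) =
      (a l : ZMod p) • red p k₀) :
    ∃ (g : CuspForm (Gamma0 (N * q)) 2) (𝔪 : Ideal O), g.IsNormalizedEigenform ∧ 𝔪.IsMaximal ∧
      (p : O) ∈ 𝔪 ∧ g.IsNewAt q ∧
      ∀ l ∈ S, ∃ b : O, (b : ℂ) = ModularFormClass.qCoeff g l ∧ b - ((a l : ℤ) : O) ∈ 𝔪 := by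
  let H := CuspForm.heckeAlgebra (N * q) 2 (∅ : Set ℕ)
  set f : H →+* Module.End ℤ (PH (N * q)) := heckeP (N * q) with hf
  let I₀ : Ideal H :=
    { carrier := {t | ∀ z, betaOp u v huv z = 0 → f t z = 0}
      zero_mem' := fun z _ ↦ by rw [map_zero, LinearMap.zero_apply]
      add_mem' := fun {s t} hs ht z hz ↦ by
        rw [map_add, LinearMap.add_apply, hs z hz, ht z hz, add_zero]
      smul_mem' := fun s t ht z hz ↦ by
        rw [smul_eq_mul, map_mul, Module.End.mul_apply, ht z hz, map_zero] }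
  let I : Ideal H :=
    { carrier := {t | ∃ W, f t k₀ = (p : ℤ) • W}
      zero_mem' := ⟨0, by rw [map_zero, LinearMap.zero_apply, smul_zero]⟩
      add_mem' := fun {s t} ⟨W, hW⟩ ⟨W', hW'⟩ ↦
        ⟨W + W', by rw [map_add, LinearMap.add_apply, hW, hW', smul_add]⟩
      smul_mem' := fun s t ⟨W, hW⟩ ↦
        ⟨f s W, by rw [smul_eq_mul, map_mul, Module.End.mul_apply, hW, map_zsmul]⟩ }
  have hI₀I : I₀ ≤ I := fun t ht ↦ ⟨0, by rw [ht k₀ hk, smul_zero]⟩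
  have hpI : (p : H) ∈ I := ⟨k₀, by rw [map_natCast, Module.End.natCast_apply, natCast_zsmul]⟩
  have hTI : ∀ l : S, (CuspForm.heckeAlgebra.T (h.prime l l.2) (h.not_dvd l l.2)
      (Set.notMem_empty _) : H) - ((a l : ℤ) : H) ∈ I := by
    intro l
    refine exists_eq_smul_of_red_eq_zero ?_
    rw [map_sub, map_intCast, LinearMap.sub_apply, Module.End.intCast_apply, hf, heckeP_T,
      sub_eq_add_neg, ← neg_zsmul, red_add, red_zsmul, hkT l]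
    push_cast
    rw [neg_smul, add_neg_cancel]
  set U : H := CuspForm.heckeAlgebra.U hq (dvd_mul_left q N) (Set.notMem_empty _) with hU
  have hUI₀ : U * U - 1 ∈ I₀ := fun z hz ↦ by
    rw [map_sub, map_one, map_mul, LinearMap.sub_apply, Module.End.mul_apply, Module.End.one_apply,
      hf, hU, heckeP_U, heckeP_U, uOp_uOp_of_betaOp_eq_zero u v huv hq hqN hz, sub_self]
  have hItop : I ≠ ⊤ := fun htop ↦ by
    obtain ⟨W, hW⟩ : (1 : H) ∈ I := htop ▸ Submodule.mem_top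
    rw [map_one, Module.End.one_apply] at hW
    exact hk0 (by rw [hW, red_smul_self])
  obtain ⟨g, 𝔪, ψ, hg, h𝔪, hmem, hzero, hgT, hgU⟩ :=
    exists_eigenform_of_ideals I₀ I hI₀I hItop fun n t hn ht z hz ↦ by
      have h0 := ht z hz
      rw [map_nsmul, LinearMap.smul_apply, ← natCast_zsmul] at h0
      exact PH.smul_left_cancel (Int.natCast_ne_zero.mpr hn) (h0.trans (smul_zero _).symm)
  refine ⟨g, 𝔪, hg, h𝔪, ?_, ?_, fun l hl ↦ ?_⟩
  · have := hmem _ hpI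
    rwa [map_natCast] at this
  · show ModularFormClass.qCoeff g q ^ 2 = 1
    have h1 := hzero _ hUI₀
    rw [map_sub, map_one, map_mul, sub_eq_zero, ← sq] at h1
    rw [hgU q hq (dvd_mul_left q N), ← hU]
    exact_mod_cast congrArg Subtype.val h1
  · refine ⟨ψ (CuspForm.heckeAlgebra.T (h.prime l hl) (h.not_dvd l hl) (Set.notMem_empty _)),
      (hgT l (h.prime l hl) (h.not_dvd l hl)).symm, ?_⟩
    have := hmem _ (hTI ⟨l, hl⟩)
    rwa [map_sub, map_intCast] at this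

/-- **Level raising.** -/
theorem exists_levelRaised {W : WeierstrassCurve ℤ} {p N q : ℕ} [Fact p.Prime] [NeZero N]
    [NeZero q] [NeZero (N * q)] (hΔ : (W.map (Int.castRingHom ℚ)).Δ ≠ 0) (hp2 : p ≠ 2)
    (hirr : W.ModRepIsIrreducible p) (hq : q.Prime) (hqN : ¬ q ∣ N)
    (f : CuspForm (Gamma0 N) 2) (𝔪 : Ideal O) (hf : f.IsNormalizedEigenform) (hmax : 𝔪.IsMaximal)
    (hpm : (p : O) ∈ 𝔪)
    (hcong : ∀ ℓ : ℕ, ℓ.Prime → W.IsGoodPrimeFor ℓ → ¬ ℓ ∣ N → ℓ ≠ p →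
      ∃ a : O, (a : ℂ) = ModularFormClass.qCoeff f ℓ ∧ a - ((W.apOfModel ℓ : ℤ) : O) ∈ 𝔪)
    (hLR : ∃ a : O, (a : ℂ) = ModularFormClass.qCoeff f q ∧ a ^ 2 - ((q : O) + 1) ^ 2 ∈ 𝔪) :
    ∃ (g : CuspForm (Gamma0 (N * q)) 2) (𝔪' : Ideal O), g.IsNormalizedEigenform ∧ 𝔪'.IsMaximal ∧
      (p : O) ∈ 𝔪' ∧
      (∀ ℓ : ℕ, ℓ.Prime → W.IsGoodPrimeFor ℓ → ¬ ℓ ∣ N * q → ℓ ≠ p →
        ∃ a : O, (a : ℂ) = ModularFormClass.qCoeff g ℓ ∧ a - ((W.apOfModel ℓ : ℤ) : O) ∈ 𝔪') ∧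
      g.IsNewAt q := by
  let H := CuspForm.heckeAlgebra N 2 (∅ : Set ℕ)
  have : Module.Finite ℤ H := Periods.moduleFinite_heckeAlgebra_all N 2 ∅
  obtain ⟨χ, -, hχT, -⟩ := DSLift.exists_ringHom_of_isNormalizedEigenform hf ∅
  have hint : ∀ t : H, χ t ∈ O := fun t ↦
    (Algebra.IsIntegral.isIntegral (R := ℤ) t).map χ.toIntAlgHom
  let χO : H →+* O := χ.codRestrict (integralClosure ℤ ℂ).toSubring hint
  have : 𝔪.IsMaximal := hmax
  let J₀ : Ideal H := 𝔪.comap χO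
  have hJ₀ : J₀ ≠ ⊤ := Ideal.comap_ne_top _ hmax.ne_top
  obtain ⟨J, hJ, hJ₀J⟩ := J₀.exists_le_maximal hJ₀
  have h𝔪J : ∀ t, χO t ∈ 𝔪 → t ∈ J := fun t ht ↦ hJ₀J ht
  have hpJ : (p : H) ∈ J := h𝔪J _ (by rwa [map_natCast])
  obtain ⟨x, hx0, hxJ⟩ := exists_red_eigen J hpJ
  have hED := isEigenData (N := N) (q := q) hΔ hp2 hirr
  have hval : ∀ {l : ℕ} (hl : l.Prime) (hlN : ¬ l ∣ N) (b : O),
      (b : ℂ) = ModularFormClass.qCoeff f l →
      χO (CuspForm.heckeAlgebra.T hl hlN (Set.notMem_empty l)) = b := fun hl hlN b hb ↦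
    Subtype.ext ((hχT _ hl hlN _).trans hb.symm)
  have hkey : ∀ {l : ℕ} (hl : l.Prime) (hlN : ¬ l ∣ N) (c : ℤ),
      CuspForm.heckeAlgebra.T hl hlN (Set.notMem_empty l) - (c : H) ∈ J →
        red p (tOp N hl hlN x) = (c : ZMod p) • red p x := fun {l} hl hlN c hc ↦ by
    have h0 := hxJ _ hc
    rw [map_sub, map_intCast, LinearMap.sub_apply, Module.End.intCast_apply, heckeP_T,
      sub_eq_add_neg, ← neg_zsmul, red_add, red_zsmul] at h0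
    push_cast at h0
    rwa [neg_smul, add_neg_eq_zero] at h0
  obtain ⟨b, hb, hb2⟩ := hLR
  obtain ⟨ε, hε, hεJ⟩ : ∃ ε : ℤ, ε * ε = 1 ∧
      CuspForm.heckeAlgebra.T hq hqN (Set.notMem_empty q) - ((ε * ((q : ℤ) + 1) : ℤ) : H) ∈ J := by
    have : (b - ((q : O) + 1)) * (b + ((q : O) + 1)) ∈ 𝔪 := by
      convert hb2 using 1; ring
    rcases hmax.isPrime.mem_or_mem this with h | h
    · refine ⟨1, one_mul 1, h𝔪J _ ?_⟩
      rw [map_sub, map_intCast, hval hq hqN b hb]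
      push_cast
      rwa [one_mul]
    · refine ⟨-1, by ring, h𝔪J _ ?_⟩
      rw [map_sub, map_intCast, hval hq hqN b hb]
      push_cast
      rwa [neg_one_mul, sub_neg_eq_add]
  obtain ⟨u, w, huw⟩ : IsCoprime (q : ℤ) (N : ℤ) :=
    Int.isCoprime_iff_gcd_eq_one.mpr (by simpa [Int.gcd] using hq.coprime_iff_not_dvd.mpr hqN)
  have huv : u * q - (-w) * N = 1 := by linear_combination huw
  have hxT : ∀ l : {l : ℕ | l.Prime ∧ W.IsGoodPrimeFor l ∧ ¬ l ∣ N * q ∧ l ≠ p},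
      red p (tOp N (hED.prime l l.2) (hED.not_dvd_left l) x) =
        (W.apOfModel l : ZMod p) • red p x := fun l ↦ by
    obtain ⟨hl, hgood, hlN, hlp⟩ := id l.2
    have hlN' : ¬ (l : ℕ) ∣ N := fun h ↦ hlN (h.mul_right q)
    obtain ⟨c, hc, hc2⟩ := hcong l hl hgood hlN' hlp
    refine hkey hl hlN' _ (h𝔪J _ ?_)
    rwa [map_sub, map_intCast, hval hl hlN' c hc]
  obtain ⟨k₀, hk, hk0, hkT⟩ := hED.exists_new hp2 hq hqN hx0 hxT hε (hkey hq hqN _ hεJ) huv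
  obtain ⟨g, 𝔪', hg, hm', hp', hnew, hcg⟩ := exists_eigenform_of_new hED hq hqN huv hk hk0 hkT
  exact ⟨g, 𝔪', hg, hm', hp', fun ℓ hℓ hgood hℓN hℓp ↦ hcg ℓ ⟨hℓ, hgood, hℓN, hℓp⟩, hnew⟩

end FermatAgent.Ihara

end
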