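import Fermat.Agent.Ihara.Triangles

/-!
The cup product pairing is nondegenerate modulo an odd prime.
-/

set_option autoImplicit false

namespace FermatAgent.Ihara

open OnePoint CongruenceSubgroup
open scoped MatrixGroups

variable {M : ℕ}

/-- An edge function satisfying the relations of symbols comes from a symbol. -/
theorem exists_symbol_of_edge {k : Type*} [AddCommGroup k] {f : X0 M → k}
    (hS : ∀ c, f (rev c) = -f c) (hU : ∀ c, f c + f (rot c) + f (rot (rot c)) = 0) :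
    ∃ v : Cusp × Cusp → k, IsSymb (G0 M : Set G2) v ∧ ∀ c, edgeVal v c = f c := by
  obtain ⟨h, hh⟩ := farey_exact (fun g ↦ f (cmk (Gamma0 M) g))
    (fun g ↦ by simp only [← neg_one_mul g, cmk_mul_left (neg_one_mem_Gamma0 M)])
    (fun g ↦ hS (cmk _ g)) (fun g ↦ hU (cmk _ g))
  refine ⟨fun p ↦ h p.2 - h p.1, ⟨fun x y z ↦ by simp, ?_⟩, fun c ↦ ?_⟩
  · rintro _ ⟨γ, hγ, rfl⟩ ⟨x, y⟩
    have he : ∀ g : SL(2, ℤ),
        h (slQ γ • slQ g • ((0 : ℚ) : Cusp)) - h (slQ g • ((0 : ℚ) : Cusp)) =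
          h (slQ γ • slQ g • ∞) - h (slQ g • ∞) := fun g ↦ by
      have h1 := hh (γ * g)
      rw [cmk_mul_left hγ, hh g, map_mul, mul_smul, mul_smul] at h1
      rw [sub_eq_sub_iff_sub_eq_sub, h1]
    have := eq_of_farey_edges (h := fun x ↦ h (slQ γ • x) - h x) he y x
    simp only [Prod.smul_mk]
    exact sub_eq_sub_iff_sub_eq_sub.mp this
  · show h _ - h _ = f c
    rw [← hh, cmk_out]

section Lift

variable [NeZero M] {p : ℕ} [Fact p.Prime]

theorem val_eq_zero_of_eq_zero {a : ZMod p} (h : a = 0) : (a.val : ℤ) = 0 := by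
  rw [h, ZMod.val_zero]; rfl

/-- Edge relations modulo `p` lift to integral ones. -/
theorem exists_lift_edge (hp : p ≠ 2) {f : X0 M → ZMod p}
    (hS : ∀ c, f (rev c) = -f c) (hU : ∀ c, f c + f (rot c) + f (rot (rot c)) = 0)
    (hfix : ∀ c, rot c = c → f c = 0) :
    ∃ F : X0 M → ℤ, (∀ c, F (rev c) = -F c) ∧ (∀ c, F c + F (rot c) + F (rot (rot c)) = 0) ∧
      ∀ c, ((F c : ℤ) : ZMod p) = f c := by
  classical
  have h2 : (2 : ZMod p) ≠ 0 := fun h ↦ hp ((Nat.prime_dvd_prime_iff_eq Fact.out Nat.prime_two).mp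
    ((ZMod.natCast_eq_zero_iff _ _).mp (by exact_mod_cast h)))
  -- an antisymmetric lift
  set F₀ : X0 M → ℤ := fun c ↦ if cosIdx c < cosIdx (rev c) then ((f c).val : ℤ)
    else if cosIdx (rev c) < cosIdx c then -((f (rev c)).val : ℤ) else 0 with hF₀
  have hF₀S : ∀ c, F₀ (rev c) = -F₀ c := fun c ↦ by
    simp only [hF₀, rev_rev]
    rcases lt_trichotomy (cosIdx c) (cosIdx (rev c)) with h | h | h
    · simp [h, h.not_gt]
    · simp [h]
    · simp [h, h.not_gt]
  have hF₀f : ∀ c, ((F₀ c : ℤ) : ZMod p) = f c := fun c ↦ by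
    simp only [hF₀]
    rcases lt_trichotomy (cosIdx c) (cosIdx (rev c)) with h | h | h
    · simp [h]
    · have hc := hS c
      rw [← cosIdx_injective h, eq_neg_iff_add_eq_zero, ← two_mul, mul_eq_zero] at hc
      simp [h, hc.resolve_left h2]
    · simp [h, h.not_gt, hS c]
  have hF₀fix : ∀ c, rot c = c → F₀ c = 0 := fun c hc ↦ by
    have h0 := hfix c hc
    simp only [hF₀]
    split_ifs
    · exact val_eq_zero_of_eq_zero h0
    · rw [val_eq_zero_of_eq_zero (by rw [hS c, h0, neg_zero]), neg_zero]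
    · rfl
  -- the defect
  have hdvd : ∀ c, (p : ℤ) ∣ F₀ c + F₀ (rot c) + F₀ (rot (rot c)) := fun c ↦ by
    rw [← ZMod.intCast_zmod_eq_zero_iff_dvd]
    push_cast
    rw [hF₀f, hF₀f, hF₀f, hU]
  choose D hD using hdvd
  have hp0 : (p : ℤ) ≠ 0 := Int.natCast_ne_zero.mpr (Fact.out : p.Prime).ne_zero
  have hDrot : ∀ c, D (rot c) = D c := fun c ↦ mul_left_cancel₀ hp0 (by
    rw [← hD, ← hD, rot_rot_rot]; ring)
  have hDfix : ∀ c, rot c = c → D c = 0 := fun c hc ↦ by
    have := hD c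
    rw [hc, hc, hF₀fix c hc] at this
    simpa [(Fact.out : p.Prime).ne_zero] using this.symm
  have hDsum : (∑ c, if IsOrbRep c then D c else 0) = 0 := by
    have h1 : ∑ c, F₀ c = 0 := by
      have := sum_comp_rev F₀
      simp only [hF₀S, Finset.sum_neg_distrib] at this
      linarith
    rw [sum_eq_sum_reps F₀ hF₀fix] at h1
    refine mul_left_cancel₀ hp0 ?_
    rw [Finset.mul_sum, mul_zero]
    refine Eq.trans ?_ h1
    exact Finset.sum_congr rfl fun c _ ↦ by split_ifs <;> simp [hD c]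
  -- correct it
  let σ : (X0 M → ℤ) →+ (X0 M → ℤ) :=
    { toFun := fun g c ↦ g c + g (rot c) + g (rot (rot c))
      map_zero' := by funext c; simp
      map_add' := fun g g' ↦ by funext c; simp; ring }
  let I : AddSubgroup (X0 M → ℤ) :=
    { carrier := {d | ∃ g : X0 M → ℤ, (∀ c, g (rev c) = -g c) ∧ σ g = d}
      zero_mem' := ⟨0, fun c ↦ by simp, map_zero _⟩
      add_mem' := fun {a b} ⟨g, hg, ha⟩ ⟨g', hg', hb⟩ ↦
        ⟨g + g', fun c ↦ by simp [hg c, hg' c]; ring, by rw [map_add, ha, hb]⟩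
      neg_mem' := fun {a} ⟨g, hg, ha⟩ ↦
        ⟨-g, fun c ↦ by simp [hg c], by rw [map_neg, ha]⟩ }
  let E : X0 M → X0 M → ℤ := fun c ↦ σ (Pi.single c 1)
  let H : X0 M → (X0 M → ℤ) ⧸ I := fun c ↦
    if rot c ≠ c then QuotientAddGroup.mk (E c)
    else if rot (rev c) ≠ rev c then QuotientAddGroup.mk (E (rev c)) else 0
  have hES : ∀ c, rot c ≠ c → rot (rev c) ≠ rev c →
      (QuotientAddGroup.mk (E (rev c)) : (X0 M → ℤ) ⧸ I) = QuotientAddGroup.mk (E c) := fun c _ _ ↦ by
    rw [QuotientAddGroup.eq]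
    refine ⟨-Pi.single (rev c) 1 + Pi.single c 1, fun d ↦ ?_, by rw [map_add, map_neg]⟩
    have e1 : ∀ a b : X0 M, (Pi.single a (1 : ℤ) : X0 M → ℤ) (rev b) =
        (Pi.single (rev a) (1 : ℤ) : X0 M → ℤ) b := fun a b ↦ by
      simp only [Pi.single_apply]
      congr 1
      exact propext ⟨fun e ↦ by rw [← e, rev_rev], fun e ↦ by rw [e, rev_rev]⟩
    simp only [Pi.add_apply, Pi.neg_apply, e1, rev_rev]
    ring
  have hEU : ∀ c, E (rot c) = E c := fun c ↦ by
    have e1 : ∀ a b : X0 M, (Pi.single (rot a) (1 : ℤ) : X0 M → ℤ) (rot b) =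
        (Pi.single a (1 : ℤ) : X0 M → ℤ) b := fun a b ↦ by
      simp [Pi.single_apply, show ∀ e, rot e = rotEquiv M e from fun _ ↦ rfl]
    funext d
    show (Pi.single (rot c) (1 : ℤ) : X0 M → ℤ) d + _ + _ = _ + _ + _
    rw [show (Pi.single (rot c) (1 : ℤ) : X0 M → ℤ) d =
        (Pi.single (rot c) (1 : ℤ) : X0 M → ℤ) (rot (rot (rot d))) by rw [rot_rot_rot],
      e1, e1, e1]
    ring
  have hHS : ∀ c, H (rev c) = H c := fun c ↦ by
    by_cases h1 : rot c = c <;> by_cases h2 : rot (rev c) = rev c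
    · simp [H, h1, h2, rev_rev]
    · simp [H, h1, h2]
    · simp [H, h1, h2, rev_rev]
    · simp [H, h1, h2, hES c h1 h2]
  have hHU : ∀ c, H (rot c) = H c := fun c ↦ by
    by_cases h1 : rot c = c
    · rw [h1]
    · have h1' : rot (rot c) ≠ rot c := fun h ↦ h1 ((rotEquiv M).injective h)
      simp [H, h1, h1', hEU]
  have hconst := cos_connected H hHS hHU
  have hDexp : D = ∑ c, if IsOrbRep c then D c • E c else 0 := by
    funext d
    simp only [Finset.sum_apply, apply_ite (fun g : X0 M → ℤ ↦ g d), Pi.smul_apply, smul_eq_mul,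
      Pi.zero_apply, E]
    show D d = ∑ c, if IsOrbRep c then
      D c * ((Pi.single c (1 : ℤ) : X0 M → ℤ) d + (Pi.single c (1 : ℤ) : X0 M → ℤ) (rot d) +
        (Pi.single c (1 : ℤ) : X0 M → ℤ) (rot (rot d))) else 0
    simp only [mul_add, ite_add_zero, Finset.sum_add_distrib, Pi.single_apply, mul_ite, mul_one,
      mul_zero]
    have e : ∀ a, (∑ c, if IsOrbRep c then (if a = c then D c else 0) else 0) =
        if IsOrbRep a then D a else 0 := fun a ↦ by
      rw [Finset.sum_eq_single a]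
      · simp
      · intro b _ hb; simp [Ne.symm hb]
      · simp
    rw [e, e, e, hDrot, hDrot, hDrot]
    by_cases hd : rot d = d
    · simp [hDfix d hd]
    · rcases isOrbRep_cases hd with ⟨a, b, c⟩ | ⟨a, b, c⟩ | ⟨a, b, c⟩ <;> simp [a, b, c]
  have hDI : D ∈ I := by
    rw [← QuotientAddGroup.eq_zero_iff, hDexp, QuotientAddGroup.mk_sum]
    have e : ∀ c, ((if IsOrbRep c then D c • E c else 0 : X0 M → ℤ) : (X0 M → ℤ) ⧸ I) =
        (if IsOrbRep c then D c else 0) • H (cmk _ 1) := fun c ↦ by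
      split_ifs with hc
      · rw [QuotientAddGroup.mk_zsmul, ← hconst c (cmk _ 1)]
        simp [H, rot_ne_of_isOrbRep hc]
      · simp
    rw [Finset.sum_congr rfl fun c _ ↦ e c, ← Finset.sum_smul, hDsum, zero_smul]
  obtain ⟨g, hg, hgD⟩ := hDI
  refine ⟨fun c ↦ F₀ c - p * g c, fun c ↦ by simp only [hF₀S, hg]; ring, fun c ↦ ?_, fun c ↦ ?_⟩
  · have : g c + g (rot c) + g (rot (rot c)) = D c := congrFun hgD c
    linear_combination hD c - (p : ℤ) * this
  · push_cast
    rw [hF₀f, ZMod.natCast_self]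
    ring

end Lift

section Nondeg

variable [NeZero M]

/-- The pairing as a sum against a single edge function. -/
noncomputable def dualEdge {k : Type*} [AddCommGroup k] (u : Cusp × Cusp → k) (c : X0 M) : k :=
  if IsOrbRep c then -edgeVal u (rot c)
  else if IsOrbRep (rot (rot c)) then edgeVal u (rot (rot c)) else 0

theorem cupPair_eq_sum {k : Type*} [CommRing k] (u v : Cusp × Cusp → k) :
    cupPair M u v = ∑ c : X0 M, dualEdge u c * edgeVal v c := by
  have h : ∀ c : X0 M, dualEdge u c * edgeVal v c =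
      (if IsOrbRep (rot (rot c)) then edgeVal u (rot (rot c)) * edgeVal v c else 0) -
        (if IsOrbRep c then edgeVal v c * edgeVal u (rot c) else 0) := fun c ↦ by
    by_cases h1 : IsOrbRep c
    · have h2 : ¬ IsOrbRep (rot (rot c)) := by
        rcases isOrbRep_cases (rot_ne_of_isOrbRep h1) with ⟨a, b, d⟩ | ⟨a, b, d⟩ | ⟨a, b, d⟩
        · exact d
        · exact absurd h1 a
        · exact absurd h1 a
      simp [dualEdge, h1, h2, mul_comm]
    · simp only [dualEdge, h1, if_false]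
      split_ifs <;> simp
  rw [Finset.sum_congr rfl fun c _ ↦ h c, Finset.sum_sub_distrib,
    ← sum_comp_rot fun c ↦ if IsOrbRep (rot (rot c)) then edgeVal u (rot (rot c)) * edgeVal v c
      else 0, cupPair]
  simp only [rot_rot_rot, ← Finset.sum_sub_distrib]
  exact Finset.sum_congr rfl fun c _ ↦ by split_ifs <;> simp

theorem dualEdge_rot {k : Type*} [AddCommGroup k] [IsAddTorsionFree k] {u : Cusp × Cusp → k}
    (hu : IsSymb (G0 M : Set G2) u) (c : X0 M) :
    dualEdge u (rot c) - dualEdge u c = edgeVal u c + edgeVal u (rot c) := by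
  have hs := edgeVal_sum hu c
  by_cases hc : rot c = c
  · rw [hc, edgeVal_eq_zero_of_fixed hu hc]; simp
  · simp only [dualEdge, rot_rot_rot]
    rcases isOrbRep_cases hc with ⟨a, b, d⟩ | ⟨a, b, d⟩ | ⟨a, b, d⟩ <;>
      simp only [a, b, d, ↓reduceIte]
    · abel
    · rw [sub_zero]; rw [← sub_eq_zero, ← hs]
      rw [show -edgeVal u (rot (rot c)) - (edgeVal u c + edgeVal u (rot c)) =
        -(edgeVal u c + edgeVal u (rot c) + edgeVal u (rot (rot c))) by abel, hs, neg_zero]
    · rw [zero_sub]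
      rw [← sub_eq_zero]
      rw [show -edgeVal u (rot (rot c)) - (edgeVal u c + edgeVal u (rot c)) =
        -(edgeVal u c + edgeVal u (rot c) + edgeVal u (rot (rot c))) by abel, hs, neg_zero]

/-- **Nondegeneracy of the cup product modulo an odd prime.** -/
theorem dvd_periods_of_dvd_cupPair {p : ℕ} [Fact p.Prime] (hp : p ≠ 2) {u : Cusp × Cusp → ℤ}
    (hu : IsSymb (G0 M : Set G2) u)
    (h : ∀ v : Cusp × Cusp → ℤ, IsSymb (G0 M : Set G2) v → (p : ℤ) ∣ cupPair M u v)
    (γ : Gamma0 M) : (p : ℤ) ∣ periods hu (Additive.ofMul γ) := by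
  classical
  set W : Submodule (ZMod p) (X0 M → ZMod p) :=
    { carrier := {w | ∃ b : X0 M → ZMod p, (∀ c, b (rot c) = b c) ∧
        ∀ c, (w - b) (rev c) = (w - b) c}
      zero_mem' := ⟨0, fun c ↦ rfl, fun c ↦ by simp⟩
      add_mem' := fun {x y} ⟨b, hb, hx⟩ ⟨b', hb', hy⟩ ↦
        ⟨b + b', fun c ↦ by simp [hb c, hb' c], fun c ↦ by
          have e1 := hx c
          have e2 := hy c
          simp only [Pi.add_apply, Pi.sub_apply] at e1 e2 ⊢
          linear_combination e1 + e2⟩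
      smul_mem' := fun r x ⟨b, hb, hx⟩ ↦
        ⟨r • b, fun c ↦ by simp [hb c], fun c ↦ by
          have e1 := hx c
          simp only [Pi.sub_apply, Pi.smul_apply, smul_eq_mul] at e1 ⊢
          linear_combination r * e1⟩ }
  set w : X0 M → ZMod p := fun c ↦ ((dualEdge u c : ℤ) : ZMod p) with hw
  have hwW : w ∈ W := by
    by_contra hnot
    obtain ⟨φ, hφw, hφW⟩ := Submodule.exists_dual_map_eq_bot_of_notMem hnot inferInstance
    have hker : ∀ x ∈ W, φ x = 0 := fun x hx ↦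
      (Submodule.mem_bot (ZMod p)).mp (hφW ▸ Submodule.mem_map_of_mem hx)
    set f : X0 M → ZMod p := fun c ↦ φ (Pi.single c 1) with hf
    have hφ : ∀ x, φ x = ∑ c, x c * f c := fun x ↦ by
      conv_lhs => rw [show x = ∑ c, x c • (Pi.single c (1 : ZMod p) : X0 M → ZMod p) by
        simp [← Pi.single_smul, Finset.univ_sum_single]]
      simp [f]
    have hS : ∀ c, f (rev c) = -f c := fun c ↦ by
      refine eq_neg_of_add_eq_zero_left ?_
      rw [hf]
      simp only [← map_add]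
      refine hker _ ⟨0, fun _ ↦ rfl, fun d ↦ ?_⟩
      simp only [sub_zero, Pi.add_apply, Pi.single_apply]
      have e : ∀ a b : X0 M, (rev a = b) = (a = rev b) := fun a b ↦
        propext ⟨fun e ↦ by rw [← e, rev_rev], fun e ↦ by rw [e, rev_rev]⟩
      simp only [e d (rev c), e d c, rev_rev]
      rw [add_comm]
    have hfixW : ∀ c, rot c = c → (Pi.single c 1 : X0 M → ZMod p) ∈ W := fun c hc ↦ by
      refine ⟨Pi.single c 1, fun d ↦ ?_, fun d ↦ by simp⟩
      simp only [Pi.single_apply]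
      congr 1
      exact propext ⟨fun e ↦ (rotEquiv M).injective (e.trans hc.symm),
        fun e ↦ by rw [e, hc]⟩
    have hfix : ∀ c, rot c = c → f c = 0 := fun c hc ↦ hker _ (hfixW c hc)
    have hU : ∀ c, f c + f (rot c) + f (rot (rot c)) = 0 := fun c ↦ by
      rw [hf]
      simp only [← map_add]
      refine hker _ ⟨Pi.single c 1 + Pi.single (rot c) 1 + Pi.single (rot (rot c)) 1,
        fun d ↦ ?_, fun d ↦ by simp⟩
      have e : ∀ a b : X0 M, (rot a = b) = (a = rot (rot b)) := fun a b ↦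
        propext ⟨fun e ↦ by rw [← e, rot_rot_rot], fun e ↦ by rw [e, rot_rot_rot]⟩
      simp only [Pi.add_apply, Pi.single_apply, e d c, e d (rot c), e d (rot (rot c)), rot_rot_rot]
      ring
    obtain ⟨F, hFS, hFU, hFf⟩ := exists_lift_edge hp hS hU hfix
    obtain ⟨v, hv, hve⟩ := exists_symbol_of_edge hFS hFU
    have h0 := (ZMod.intCast_zmod_eq_zero_iff_dvd _ p).mpr (h v hv)
    rw [cupPair_eq_sum] at h0
    push_cast at h0
    simp only [hve, hFf] at h0
    exact hφw (by rw [hφ]; exact h0)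
  obtain ⟨b, hbU, hbS⟩ := hwW
  set χ : Additive (Gamma0 M) →+ ℤ := periods hu with hχ
  set ψ : Cusp → ZMod p := fun x ↦ ((u (∞, x) : ℤ) : ZMod p) with hψ
  have hue : ∀ x y, ((u (x, y) : ℤ) : ZMod p) = ψ y - ψ x := fun x y ↦ by
    simp [hψ, hu.add ∞ x y]
  let Q : SL(2, ℤ) → ZMod p := fun g ↦ b (cmk _ g) - w (cmk _ g) +
    ψ (slQ g • ∞) + ψ (slQ g • ((0 : ℚ) : Cusp))
  have hQS : ∀ g, Q (g * edgeS) = Q g := fun g ↦ by
    have := hbS (cmk _ g)
    rw [rev_cmk] at this
    simp only [Pi.sub_apply] at this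
    simp only [Q, map_mul, mul_smul, slQ_edgeS_smul_infty, slQ_edgeS_smul_zero]
    linear_combination -this
  have hQU : ∀ g, Q (g * triU) = Q g := fun g ↦ by
    have h1 := congrArg (fun z : ℤ ↦ (z : ZMod p)) (dualEdge_rot hu (cmk _ g))
    simp only [rot_cmk, edgeVal_cmk hu, map_mul, mul_smul, slQ_triU_smul_infty,
      slQ_triU_smul_zero, Int.cast_sub, Int.cast_add, hue] at h1
    have h2 := hbU (cmk _ g)
    rw [rot_cmk] at h2
    simp only [Q, map_mul, mul_smul, slQ_triU_smul_infty, slQ_triU_smul_zero]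
    change b (cmk _ (g * triU)) - w (cmk _ (g * triU)) + _ + _ = _
    simp only [hw]
    linear_combination h2 - h1
  have hQall : ∀ g a, Q (a * g) = Q a := by
    refine ModCurveGroup.SL2Z_induction (P := fun g ↦ ∀ a, Q (a * g) = Q a) hQS ?_ (by simp) ?_ ?_
    · intro a
      rw [show ModCurveGroup.R₃ = triU⁻¹ by rw [triU_eq, inv_inv]]
      conv_rhs => rw [show a = a * triU⁻¹ * triU by group]
      rw [hQU]
    · intro x y hx hy a; rw [← mul_assoc, hy, hx]
    · intro x hx a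
      conv_rhs => rw [show a = a * x⁻¹ * x by group]
      rw [hx]
  have hχ' : ∀ x, ψ (slQ γ • x) = (χ (Additive.ofMul γ) : ZMod p) + ψ x := fun x ↦ by
    have h1 : u (slQ γ • ∞, slQ γ • x) = u (∞, x) := hu.inv _ (slQ_mem_G0 γ) (∞, x)
    simp only [hψ, hχ, periods_apply]
    rw [hu.add ∞ (slQ γ • ∞) (slQ γ • x), h1]
    push_cast
    rfl
  have := hQall γ 1
  simp only [one_mul, Q, hχ', map_one, one_smul] at this
  rw [show cmk (Gamma0 M) (γ : SL(2, ℤ)) = cmk _ 1 by
    conv_lhs => rw [← mul_one (γ : SL(2, ℤ)), cmk_mul_left γ.2]] at this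
  rw [← ZMod.intCast_zmod_eq_zero_iff_dvd]
  have h2 : (2 : ZMod p) ≠ 0 := fun h ↦ hp ((Nat.prime_dvd_prime_iff_eq Fact.out Nat.prime_two).mp
    ((ZMod.natCast_eq_zero_iff _ _).mp (by exact_mod_cast h)))
  exact (mul_eq_zero.mp (show (2 : ZMod p) * (χ (Additive.ofMul γ) : ZMod p) = 0 by
    linear_combination this)).resolve_left h2

end Nondeg

end FermatAgent.Ihara
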