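import Fermat.Agent.Ihara.Cocycle
import Fermat.Agent.Ihara.Kernel
import Fermat.Agent.Ihara.Nondegenerate

/-!
The cup product pairing on integral parabolic characters of `Γ₀(M)` and operators given by
correspondences on them.
-/

set_option autoImplicit false

namespace FermatAgent.Ihara

open OnePoint CongruenceSubgroup ModularCurve.Period
open scoped MatrixGroups

/-- Integral parabolic characters. -/
abbrev PH (M : ℕ) : Type := parabolicHoms ℤ (Gamma0 M) ℤ

variable {k : Type*} [AddCommGroup k] {M M' M'' : ℕ}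

theorem symOf_add (χ ψ : Additive (Gamma0 M) →+ k) : symOf (χ + ψ) = symOf χ + symOf ψ := by
  funext p; simp [symOf]; abel

theorem symOf_zsmul (n : ℤ) (χ : Additive (Gamma0 M) →+ k) : symOf (n • χ) = n • symOf χ := by
  funext p; simp [symOf, smul_sub]

theorem PH.isSymb (χ : PH M) : IsSymb (G0 M : Set G2) (symOf χ.1) := isSymb_symOf χ.2

theorem PH.periods (χ : PH M) : Ihara.periods χ.isSymb = χ.1 := periods_symOf χ.2

/-- The character given by the periods of a symbol. -/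
noncomputable def periodsP {φ : Cusp × Cusp → ℤ} (h : IsSymb (G0 M : Set G2) φ) : PH M :=
  ⟨Ihara.periods h, periods_mem_parabolicHoms ℤ h⟩

theorem periodsP_symOf (χ : PH M) : periodsP χ.isSymb = χ := Subtype.ext χ.periods

section Corr

variable {ι ι' : Type*} [Fintype ι] [Fintype ι']

/-- A family of matrices acting on functions of pairs. -/
def corr (σ : ι → G2) (φ : Cusp × Cusp → k) : Cusp × Cusp → k := fun p ↦ ∑ i, φ (σ i • p)

theorem corr_add (σ : ι → G2) (φ ψ : Cusp × Cusp → k) :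
    corr σ (φ + ψ) = corr σ φ + corr σ ψ := by
  funext p; simp [corr, Finset.sum_add_distrib]

theorem corr_zsmul (σ : ι → G2) (n : ℤ) (φ : Cusp × Cusp → k) :
    corr σ (n • φ) = n • corr σ φ := by
  funext p; simp [corr, Finset.smul_sum]

theorem corr_sub (σ : ι → G2) (φ ψ : Cusp × Cusp → k) :
    corr σ (φ - ψ) = corr σ φ - corr σ ψ := by
  funext p; simp [corr]

theorem isSymb_corr {σ : ι → G2} (hσ : IsCorr (G0 M : Set G2) (G0 M' : Set G2) σ)
    {φ : Cusp × Cusp → k} (h : IsSymb (G0 M : Set G2) φ) :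
    IsSymb (G0 M' : Set G2) (corr σ φ) where
  add x y z := by
    simp only [corr, Prod.smul_mk, ← Finset.sum_add_distrib]
    exact Finset.sum_congr rfl fun i _ ↦ h.add _ _ _
  inv := hσ.isInv_sum h.inv

theorem periods_corr_eq_zero {σ : ι → G2} (hσ : IsCorr (G0 M : Set G2) (G0 M' : Set G2) σ)
    {φ : Cusp × Cusp → k} (h : IsSymb (G0 M : Set G2) φ) (h0 : periods h = 0) :
    periods (isSymb_corr hσ h) = 0 := by
  have hinv : ∀ g ∈ G0 M, ∀ x, φ (∞, g • x) = φ (∞, x) := by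
    intro g hg x
    obtain ⟨γ, hγ, rfl⟩ := id hg
    have h1 : φ (slQ γ • ∞, slQ γ • x) = φ (∞, x) := h.inv _ hg (∞, x)
    have h2 := periods_apply h ⟨γ, hγ⟩
    rw [h0, AddMonoidHom.zero_apply] at h2
    rw [h.add ∞ (slQ γ • ∞) (slQ γ • x), h1, ← h2, zero_add]
  refine AddMonoidHom.ext fun γ ↦ ?_
  obtain ⟨γ, rfl⟩ : ∃ δ, Additive.ofMul δ = γ := ⟨Additive.toMul γ, rfl⟩
  rw [periods_apply]
  simp only [corr, Prod.smul_mk, AddMonoidHom.zero_apply]
  obtain ⟨e, he⟩ := hσ _ (slQ_mem_G0 γ)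
  have hsplit : ∀ x y, φ (x, y) = φ (∞, y) - φ (∞, x) := fun x y ↦ by simp [h.add ∞ x y]
  have : ∀ i, φ (∞, σ i • slQ γ • ∞) = φ (∞, σ (e i) • ∞) := fun i ↦ by
    obtain ⟨d, hd, hde⟩ := he i
    rw [smul_smul, hde, mul_smul, hinv d hd]
  rw [Finset.sum_congr rfl fun i _ ↦ hsplit (σ i • ∞) _, Finset.sum_sub_distrib,
    Finset.sum_congr rfl fun i _ ↦ this i, Equiv.sum_comp e fun i ↦ φ (∞, σ i • ∞), sub_self]

theorem periods_corr_congr {σ : ι → G2} (hσ : IsCorr (G0 M : Set G2) (G0 M' : Set G2) σ)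
    {φ ψ : Cusp × Cusp → k} (h : IsSymb (G0 M : Set G2) φ) (h' : IsSymb (G0 M : Set G2) ψ)
    (he : periods h = periods h') :
    periods (isSymb_corr hσ h) = periods (isSymb_corr hσ h') := by
  have h0 := periods_corr_eq_zero hσ (h.sub h') (by rw [periods_sub h h', he, sub_self])
  rw [periods_congr (corr_sub σ φ ψ) _ ((isSymb_corr hσ h).sub (isSymb_corr hσ h')),
    periods_sub (isSymb_corr hσ h) (isSymb_corr hσ h'), sub_eq_zero] at h0
  exact h0

/-- The operator on characters given by a correspondence. -/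
noncomputable def opP {σ : ι → G2} (hσ : IsCorr (G0 M : Set G2) (G0 M' : Set G2) σ) :
    PH M →ₗ[ℤ] PH M' where
  toFun χ := periodsP (isSymb_corr hσ χ.isSymb)
  map_add' χ ψ := Subtype.ext (AddMonoidHom.ext fun γ ↦ by
    show corr σ (symOf (χ.1 + ψ.1)) _ = corr σ (symOf χ.1) _ + corr σ (symOf ψ.1) _
    rw [symOf_add, corr_add]; rfl)
  map_smul' n χ := Subtype.ext (AddMonoidHom.ext fun γ ↦ by
    show corr σ (symOf (n • χ.1)) _ = n • corr σ (symOf χ.1) _
    rw [symOf_zsmul, corr_zsmul]; rfl)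

theorem opP_periodsP {σ : ι → G2} (hσ : IsCorr (G0 M : Set G2) (G0 M' : Set G2) σ)
    {φ : Cusp × Cusp → ℤ} (h : IsSymb (G0 M : Set G2) φ) :
    opP hσ (periodsP h) = periodsP (isSymb_corr hσ h) :=
  Subtype.ext (periods_corr_congr hσ (periodsP h).isSymb h (periodsP h).periods)

theorem periodsP_congr {φ ψ : Cusp × Cusp → ℤ} (e : φ = ψ) (h : IsSymb (G0 M : Set G2) φ)
    (h' : IsSymb (G0 M : Set G2) ψ) : periodsP h = periodsP h' := by
  subst e; rfl

theorem periodsP_add {φ ψ : Cusp × Cusp → ℤ} (h : IsSymb (G0 M : Set G2) φ)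
    (h' : IsSymb (G0 M : Set G2) ψ) : periodsP (h.add' h') = periodsP h + periodsP h' :=
  Subtype.ext (AddMonoidHom.ext fun _ ↦ rfl)

end Corr

section Pair

variable [NeZero M]

omit [NeZero M] in
theorem edgeVal_add (φ ψ : Cusp × Cusp → ℤ) (c : X0 M) :
    edgeVal (φ + ψ) c = edgeVal φ c + edgeVal ψ c := rfl

theorem cupPair_add_left (u u' v : Cusp × Cusp → ℤ) :
    cupPair M (u + u') v = cupPair M u v + cupPair M u' v := by
  simp only [cupPair, ← Finset.sum_add_distrib, edgeVal_add]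
  exact Finset.sum_congr rfl fun c _ ↦ by split_ifs <;> ring

theorem cupPair_comm (u v : Cusp × Cusp → ℤ) : cupPair M v u = -cupPair M u v := by
  simp only [cupPair, ← Finset.sum_neg_distrib]
  exact Finset.sum_congr rfl fun c _ ↦ by split_ifs <;> ring

theorem cupPair_add_right (u v v' : Cusp × Cusp → ℤ) :
    cupPair M u (v + v') = cupPair M u v + cupPair M u v' := by
  rw [cupPair_comm, cupPair_add_left, cupPair_comm u v, cupPair_comm u v']; ring

theorem cupPair_zsmul_left (n : ℤ) (u v : Cusp × Cusp → ℤ) :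
    cupPair M (n • u) v = n * cupPair M u v := by
  simp only [cupPair, Finset.mul_sum]
  refine Finset.sum_congr rfl fun c _ ↦ ?_
  split_ifs <;> simp [edgeVal]
  ring

theorem cupPair_bdry {u v : Cusp × Cusp → ℤ} (hu : IsSymb (G0 M : Set G2) u)
    (hv : IsSymb (G0 M : Set G2) v) (h0 : periods hu = 0) : cupPair M u v = 0 := by
  have h3 := cupSum_bdry hu hv h0
  rw [cupSum_eq hu hv] at h3
  simpa using h3

theorem cupPair_congr_left {u u' v : Cusp × Cusp → ℤ} (hu : IsSymb (G0 M : Set G2) u)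
    (hu' : IsSymb (G0 M : Set G2) u') (hv : IsSymb (G0 M : Set G2) v)
    (he : periods hu = periods hu') : cupPair M u v = cupPair M u' v := by
  have h0 := cupPair_bdry (hu.sub hu') hv (by rw [periods_sub hu hu', he, sub_self])
  have := cupPair_add_left (M := M) (u - u') u' v
  rwa [sub_add_cancel, h0, zero_add] at this

/-- The pairing on characters. -/
noncomputable def pair (M : ℕ) [NeZero M] : PH M →ₗ[ℤ] PH M →ₗ[ℤ] ℤ :=
  LinearMap.mk₂ ℤ (fun χ ψ ↦ cupPair M (symOf χ.1) (symOf ψ.1))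
    (fun χ χ' ψ ↦ by simp only [Submodule.coe_add, symOf_add, cupPair_add_left])
    (fun n χ ψ ↦ by simp only [Submodule.coe_smul_of_tower, symOf_zsmul, cupPair_zsmul_left]; rfl)
    (fun χ ψ ψ' ↦ by simp only [Submodule.coe_add, symOf_add, cupPair_add_right])
    (fun n χ ψ ↦ by
      simp only [Submodule.coe_smul_of_tower, symOf_zsmul]
      rw [cupPair_comm, cupPair_zsmul_left, cupPair_comm]
      simp)

theorem pair_periodsP {u v : Cusp × Cusp → ℤ} (hu : IsSymb (G0 M : Set G2) u)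
    (hv : IsSymb (G0 M : Set G2) v) : pair M (periodsP hu) (periodsP hv) = cupPair M u v := by
  show cupPair M (symOf (periodsP hu).1) (symOf (periodsP hv).1) = _
  rw [cupPair_congr_left (periodsP hu).isSymb hu (periodsP hv).isSymb (periodsP hu).periods,
    cupPair_comm, cupPair_congr_left (periodsP hv).isSymb hv hu (periodsP hv).periods, ← cupPair_comm]

theorem pair_comm (χ ψ : PH M) : pair M ψ χ = -pair M χ ψ := cupPair_comm _ _

/-- Nondegeneracy modulo an odd prime. -/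
theorem exists_eq_smul_of_dvd_pair {p : ℕ} [Fact p.Prime] (hp : p ≠ 2) {χ : PH M}
    (h : ∀ ψ, (p : ℤ) ∣ pair M χ ψ) : ∃ χ' : PH M, χ = (p : ℤ) • χ' := by
  have hd : ∀ γ, (p : ℤ) ∣ χ.1 γ := fun γ ↦ by
    have := dvd_periods_of_dvd_cupPair hp χ.isSymb (fun v hv ↦ by
      have h1 := h (periodsP hv)
      rwa [show pair M χ (periodsP hv) = cupPair M (symOf χ.1) v by
        conv_lhs => rw [← periodsP_symOf χ]
        exact pair_periodsP χ.isSymb hv] at h1) (Additive.toMul γ)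
    rwa [χ.periods] at this
  choose f hf using hd
  have hp0 : (p : ℤ) ≠ 0 := Int.natCast_ne_zero.mpr (Fact.out : p.Prime).ne_zero
  refine ⟨⟨AddMonoidHom.mk' f fun a b ↦ mul_left_cancel₀ hp0 ?_, fun γ hγ ↦ mul_left_cancel₀ hp0 ?_⟩,
    Subtype.ext (AddMonoidHom.ext fun γ ↦ ?_)⟩
  · rw [mul_add, ← hf, ← hf, ← hf, map_add]
  · show (p : ℤ) * f _ = _
    rw [← hf, χ.2 γ hγ, mul_zero]
  · show χ.1 γ = (p : ℤ) • f γ
    rw [hf, smul_eq_mul]

end Pair

section Trace

/-- The index set of the trace from `Γ₀(M')` to `Γ₀(M)`. -/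
abbrev TrIdx (M M' : ℕ) : Type :=
  Quotient (QuotientGroup.rightRel ((Gamma0 M').subgroupOf (Gamma0 M)))

theorem trIdx_out_mk (γ : Gamma0 M) :
    (γ : SL(2, ℤ)) * ((Quotient.mk _ γ : TrIdx M M').out : SL(2, ℤ))⁻¹ ∈ Gamma0 M' := by
  have := QuotientGroup.rightRel_apply.mp (Quotient.exact (Quotient.out_eq
    (Quotient.mk _ γ : TrIdx M M')))
  simpa [Subgroup.mem_subgroupOf] using this

theorem trIdx_mk_eq {γ : Gamma0 M} {i : TrIdx M M'}
    (h : (γ : SL(2, ℤ)) * ((i.out : Gamma0 M) : SL(2, ℤ))⁻¹ ∈ Gamma0 M') :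
    (Quotient.mk _ γ : TrIdx M M') = i := by
  conv_rhs => rw [← i.out_eq]
  refine (Quotient.sound (QuotientGroup.rightRel_apply.mpr ?_)).symm
  simpa [Subgroup.mem_subgroupOf] using h

instance [NeZero M'] : Finite (TrIdx M M') :=
  Finite.of_injective (fun i ↦ cmk (Gamma0 M') (i.out : Gamma0 M)) fun i j h ↦ by
    have := cmk_eq_iff.mp h
    rw [← trIdx_mk_eq (γ := j.out) (i := i) this]
    exact j.out_eq

noncomputable instance [NeZero M'] : Fintype (TrIdx M M') := Fintype.ofFinite _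

/-- The representatives of the trace. -/
noncomputable def trRep (M M' : ℕ) (i : TrIdx M M') : G2 := slQ (i.out : Gamma0 M)

theorem isCorr_trRep : IsCorr (G0 M' : Set G2) (G0 M : Set G2) (trRep M M') := by
  rintro _ ⟨γ, hγ, rfl⟩
  let t : Gamma0 M → TrIdx M M' → TrIdx M M' := fun δ i ↦
    Quotient.map (fun a ↦ a * δ) (fun a b hab ↦ by
      simpa [QuotientGroup.rightRel_apply] using QuotientGroup.rightRel_apply.mp hab) i
  have ht : ∀ (δ : Gamma0 M) (i : TrIdx M M'), t δ i = Quotient.mk _ (i.out * δ) := fun δ i ↦ by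
    conv_lhs => rw [← i.out_eq]
    rfl
  refine ⟨⟨t ⟨γ, hγ⟩, t ⟨γ, hγ⟩⁻¹, fun i ↦ ?_, fun i ↦ ?_⟩, fun i ↦ ?_⟩
  · obtain ⟨a, rfl⟩ := Quotient.mk_surjective i
    show Quotient.mk _ (a * ⟨γ, hγ⟩ * ⟨γ, hγ⟩⁻¹) = _
    rw [mul_inv_cancel_right]
  · obtain ⟨a, rfl⟩ := Quotient.mk_surjective i
    show Quotient.mk _ (a * ⟨γ, hγ⟩⁻¹ * ⟨γ, hγ⟩) = _
    rw [inv_mul_cancel_right]
  · refine ⟨_, slQ_mem_G0 ⟨_, trIdx_out_mk (M' := M') (i.out * ⟨γ, hγ⟩)⟩, ?_⟩
    show slQ _ * slQ γ = slQ _ * slQ ((t ⟨γ, hγ⟩ i).out : Gamma0 M)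
    rw [ht, ← map_mul, ← map_mul, inv_mul_cancel_right]
    rfl

/-- The trace of a symbol. -/
noncomputable def trSym (M M' : ℕ) [NeZero M'] (φ : Cusp × Cusp → k) : Cusp × Cusp → k :=
  corr (trRep M M') φ

theorem isSymb_trSym [NeZero M'] {φ : Cusp × Cusp → k} (h : IsSymb (G0 M' : Set G2) φ) :
    IsSymb (G0 M : Set G2) (trSym M M' φ) :=
  isSymb_corr isCorr_trRep h

/-- Cosets of `Γ₀(M')` as pairs. -/
noncomputable def cosPairEquiv (hMM : M ∣ M') : TrIdx M M' × X0 M ≃ X0 M' := by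
  refine Equiv.ofBijective (fun ic ↦ cmk (Gamma0 M') ((ic.1.out : Gamma0 M) * ic.2.out))
    ⟨fun a b h ↦ ?_, fun d ↦ ?_⟩
  · have hle : Gamma0 M' ≤ Gamma0 M := fun g hg ↦ by
      rw [Gamma0_mem, ZMod.intCast_zmod_eq_zero_iff_dvd] at hg ⊢
      exact (Int.natCast_dvd_natCast.mpr hMM).trans hg
    have h1 := cmk_eq_iff.mp h
    have hc : a.2 = b.2 := by
      rw [← cmk_out a.2, ← cmk_out b.2, cmk_eq_iff]
      have := mul_mem (mul_mem (inv_mem (b.1.out : Gamma0 M).2) (hle h1)) (a.1.out : Gamma0 M).2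
      simpa [mul_assoc] using this
    refine Prod.ext ?_ hc
    rw [hc, mul_inv_rev, ← mul_assoc, mul_inv_cancel_right] at h1
    rw [← trIdx_mk_eq h1]
    exact b.1.out_eq
  · obtain ⟨g, rfl⟩ := cmk_surjective d
    have hm : g * (cmk (Gamma0 M) g).out⁻¹ ∈ Gamma0 M := cmk_eq_iff.mp (cmk_out _)
    refine ⟨(Quotient.mk _ ⟨_, hm⟩, cmk (Gamma0 M) g), ?_⟩
    rw [cmk_eq_iff]
    have := trIdx_out_mk (M' := M') ⟨_, hm⟩
    simpa [mul_assoc] using this

/-- The trace is adjoint to the inclusion. -/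
theorem cupPair_trSym [NeZero M] [NeZero M'] (hMM : M ∣ M') {u v : Cusp × Cusp → ℤ}
    (hu : IsSymb (G0 M : Set G2) u) (hv : IsSymb (G0 M' : Set G2) v) :
    cupPair M' u v = cupPair M u (trSym M M' v) := by
  have hu' : IsSymb (G0 M' : Set G2) u := ⟨hu.add, hu.inv.mono (G0_anti hMM)⟩
  refine mul_left_cancel₀ (three_ne_zero (α := ℤ)) ?_
  rw [← cupSum_eq hu' hv, ← cupSum_eq hu (isSymb_trSym hv), cupSum, cupSum, triSum, triSum,
    ← Equiv.sum_comp (cosPairEquiv hMM), Fintype.sum_prod_type, Finset.sum_comm]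
  refine Finset.sum_congr rfl fun c _ ↦ ?_
  have : ∀ i : TrIdx M M', triVal (cup u v) (cosPairEquiv hMM (i, c)).out =
      triVal (cup u (slash v (trRep M M' i))) c.out := fun i ↦ by
    have e := (isInv3_cup hu' hv).triVal_out ((i.out : Gamma0 M) * c.out)
    refine e.trans ?_
    simp only [triVal, cup, slash_apply, map_mul, mul_smul, Prod.smul_mk, trRep]
    have e1 : ∀ x y, u (slQ (i.out : Gamma0 M) • x, slQ (i.out : Gamma0 M) • y) = u (x, y) :=
      fun x y ↦ hu.inv _ (slQ_mem_G0 _) (x, y)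
    rw [e1, e1]
  rw [Finset.sum_congr rfl fun i _ ↦ this i]
  simp only [triVal, cup, trSym, corr, slash_apply, Finset.sum_mul, Finset.mul_sum,
    ← Finset.sum_sub_distrib]

/-- Computing the trace with explicit representatives. -/
theorem trSym_eq [NeZero M'] {κ : Type*} [Fintype κ] (R : κ → Gamma0 M)
    (hR : Function.Bijective fun i ↦ (Quotient.mk _ (R i) : TrIdx M M'))
    {φ : Cusp × Cusp → k} (h : IsInv (G0 M' : Set G2) φ) :
    trSym M M' φ = corr (fun i ↦ slQ (R i)) φ := by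
  funext p
  refine (Fintype.sum_equiv (Equiv.ofBijective _ hR) _ _ fun i ↦ ?_).symm
  simp only [Equiv.ofBijective_apply, trRep]
  have hm := trIdx_out_mk (M' := M') (R i)
  conv_rhs => rw [← h _ (slQ_mem_G0 ⟨_, hm⟩)]
  rw [smul_smul, ← map_mul, inv_mul_cancel_right]

end Trace

section Twist

/-- Invariance of the pairing under matrices normalising `Γ₀(M)`. -/
theorem cupPair_slash [NeZero M] {W : G2} (hW : 0 < W 0 0 * W 1 1 - W 0 1 * W 1 0)
    (hnorm : ∀ g ∈ G0 M, W * g * W⁻¹ ∈ G0 M) {u v : Cusp × Cusp → ℤ}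
    (hu : IsSymb (G0 M : Set G2) u) (hv : IsSymb (G0 M : Set G2) v) :
    cupPair M (slash u W) (slash v W) = cupPair M u v := by
  have hsl : ∀ {φ : Cusp × Cusp → ℤ}, IsSymb (G0 M : Set G2) φ →
      IsSymb (G0 M : Set G2) (slash φ W) := fun {φ} h ↦ by
    have := isSymb_corr (isCorr_single (g := W) hnorm) h
    rwa [show corr (fun _ : Unit ↦ W) φ = slash φ W from funext fun p ↦ by simp [corr]] at this
  refine mul_left_cancel₀ (three_ne_zero (α := ℤ)) ?_
  rw [← cupSum_eq (hsl hu) (hsl hv), ← cupSum_eq hu hv]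
  let uQ : Cusp × Cusp → ℚ := fun p ↦ (u p : ℚ)
  let vQ : Cusp × Cusp → ℚ := fun p ↦ (v p : ℚ)
  have huQ : IsSymb (G0 M : Set G2) uQ :=
    ⟨fun x y z ↦ by simp [uQ, hu.add x y z], fun g hg p ↦ by simp [uQ, hu.inv g hg p]⟩
  have hvQ : IsSymb (G0 M : Set G2) vQ :=
    ⟨fun x y z ↦ by simp [vQ, hv.add x y z], fun g hg p ↦ by simp [vQ, hv.inv g hg p]⟩
  have key := triSum_slash (F := cup uQ vQ)
    ⟨cup_cycle huQ.add hvQ.add, cup_swap huQ.add hvQ.add, cup_cocycle huQ.add hvQ.add⟩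
    (isInv3_cup huQ hvQ) hW hnorm
  apply Int.cast_injective (α := ℚ)
  simp only [cupSum, triSum, triVal, cup, Int.cast_sum, Int.cast_sub, Int.cast_mul] at key ⊢
  exact key

end Twist

end FermatAgent.Ihara
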