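import Fermat.Agent.Ihara.HeckeLattice
import Fermat.Agent.Ihara.CommAlg

/-!
Level raising on integral parabolic characters: a non-Eisenstein eigencharacter modulo `p` with
`T_q ≡ ± (q + 1)` occurs in the kernel of the two traces from level `Nq`.
-/

set_option autoImplicit false

noncomputable section

namespace FermatAgent.Ihara

open OnePoint CongruenceSubgroup ModularCurve.Period MvPolynomial
open scoped MatrixGroups

variable {N q p : ℕ} [NeZero N] [NeZero q]

omit [NeZero N] in
/-- Reduction of `α`. -/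
theorem red_alphaOp (a b : PH N) :
    red p (alphaOp N q (a, b)) = (red p a).comp (MonoidHom.toAdditive (degIncl N q)) +
      (red p b).comp (MonoidHom.toAdditive (degConj N q)) := by
  refine AddMonoidHom.ext fun γ ↦ ?_
  show (((inclOp N q a + degOp N q b : PH (N * q)).1 γ : ℤ) : ZMod p) = _
  rw [Submodule.coe_add, AddMonoidHom.add_apply, coe_inclOp, coe_degOp]
  simp [red]

/-- Data of a system of eigenvalues modulo `p` away from `S`. -/
structure EigenData (N q p : ℕ) [Fact p.Prime] (S : Set ℕ) (a : ℕ → ℤ) : Prop where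
  prime : ∀ l ∈ S, l.Prime
  not_dvd : ∀ l ∈ S, ¬ l ∣ N * q
  nonEis : NonEisenstein S (fun l ↦ (a l : ZMod p))

variable {S : Set ℕ} {a : ℕ → ℤ} [Fact p.Prime]

omit [NeZero N] [NeZero q] in
theorem EigenData.not_dvd_left (h : EigenData N q p S a) (l : S) : ¬ (l : ℕ) ∣ N :=
  fun hd ↦ h.not_dvd l l.2 (hd.mul_right q)

omit [NeZero N] in
/-- Ihara's lemma for integral characters. -/
theorem EigenData.red_eq_zero (h : EigenData N q p S a) (hq : q.Prime)
    (hqN : ¬ q ∣ N) {x y : PH N}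
    (hx : ∀ l : S, red p (tOp N (h.prime l l.2) (h.not_dvd_left l) x) = (a l : ZMod p) • red p x)
    (hy : ∀ l : S, red p (tOp N (h.prime l l.2) (h.not_dvd_left l) y) = (a l : ZMod p) • red p y)
    (h0 : red p (alphaOp N q (x, y)) = 0) : red p x = 0 ∧ red p y = 0 := by
  rw [red_alphaOp] at h0
  refine ihara h.nonEis hq hqN h.not_dvd (red_mem x) (red_mem y) (fun l hl hlS hlN ↦ ?_)
    (fun l hl hlS hlN ↦ ?_) h0
  · rw [← red_tOp hl hlN]; exact hx ⟨l, hlS⟩
  · rw [← red_tOp hl hlN]; exact hy ⟨l, hlS⟩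

variable [NeZero (N * q)]

omit [NeZero q] [NeZero (N * q)] in
/-- An eigenvector modulo `p`. -/
theorem exists_red_eigen (J : Ideal (CuspForm.heckeAlgebra N 2 (∅ : Set ℕ))) [J.IsMaximal]
    (hpJ : (p : CuspForm.heckeAlgebra N 2 (∅ : Set ℕ)) ∈ J) :
    ∃ x : PH N, red p x ≠ 0 ∧ ∀ t ∈ J, red p (heckeP N t x) = 0 := by
  obtain ⟨x, hx, hxJ⟩ := exists_eigen_mod (heckeP N) heckeP_injective J hpJ
  refine ⟨x, fun h0 ↦ hx (exists_eq_smul_of_red_eq_zero h0), fun t ht ↦ ?_⟩
  obtain ⟨y, hy⟩ := hxJ t ht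
  rw [hy, red_smul_self]

omit [NeZero (N * q)] [NeZero q] in
/-- The pairing is nondegenerate. -/
theorem eq_of_forall_pair (hp : p ≠ 2) {w w' : PH N} (hcw : ∀ c, pair N c w = pair N c w') :
    w = w' := by
  refine sub_eq_zero.mp ?_
  have hd : ∀ n : ℕ, ∃ y, w - w' = ((p : ℤ) ^ n) • y := by
    intro n
    induction n with
    | zero => exact ⟨_, by rw [pow_zero, one_smul]⟩
    | succ n ih =>
      obtain ⟨y, hy⟩ := ih
      obtain ⟨y', hy'⟩ := exists_eq_smul_of_dvd_pair hp (χ := y) fun c ↦ by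
        have : pair N c (w - w') = 0 := by rw [map_sub, hcw, sub_self]
        rw [hy, map_zsmul, smul_eq_mul, mul_eq_zero] at this
        have h0 : pair N c y = 0 := this.resolve_left
          (pow_ne_zero _ (Int.natCast_ne_zero.mpr (Fact.out : p.Prime).ne_zero))
        rw [pair_comm, h0, neg_zero]
        exact dvd_zero _
      exact ⟨y', by rw [hy, hy', smul_smul, pow_succ]⟩
  refine Subtype.ext (AddMonoidHom.ext fun γ ↦ ?_)
  by_contra hne
  obtain ⟨n, hn⟩ := exists_gt ((w - w').1 γ).natAbs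
  obtain ⟨y, hy⟩ := hd n
  have hval : (w - w').1 γ = (p : ℤ) ^ n * y.1 γ := by rw [hy]; rfl
  have hle : p ^ n ≤ ((w - w').1 γ).natAbs := by
    refine Nat.le_of_dvd (Int.natAbs_pos.mpr hne) ?_
    rw [hval, Int.natAbs_mul, Int.natAbs_pow, Int.natAbs_natCast]
    exact dvd_mul_right _ _
  have := Nat.lt_pow_self (n := n) (Fact.out : p.Prime).one_lt
  omega

variable (h : EigenData N q p S a)
include h

/-- The traces commute with `T_l`. -/
theorem EigenData.betaOp_tOp (hp : p ≠ 2) {u v : ℤ} (huv : u * q - v * N = 1) (l : S)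
    (z : PH (N * q)) :
    betaOp u v huv (tOp (N * q) (h.prime l l.2) (h.not_dvd l l.2) z) =
      (tOp N (h.prime l l.2) (h.not_dvd_left l) (betaOp u v huv z).1,
        tOp N (h.prime l l.2) (h.not_dvd_left l) (betaOp u v huv z).2) := by
  set T' := tOp (N * q) (h.prime l l.2) (h.not_dvd l l.2)
  set T := tOp N (h.prime l l.2) (h.not_dvd_left l)
  have hα : ∀ c d, alphaOp N q (T c, T d) = T' (alphaOp N q (c, d)) :=
    fun c d ↦ alphaOp_tOp (h.prime l l.2) (h.not_dvd l l.2) c d
  refine Prod.ext (eq_of_forall_pair hp fun c ↦ ?_) (eq_of_forall_pair hp fun c ↦ ?_)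
  · have h1 := pair_alphaOp u v huv c 0 (T' z)
    have h2 := pair_alphaOp u v huv (T c) 0 z
    simp only [map_zero, LinearMap.zero_apply, add_zero] at h1 h2
    rw [← pair_tOp (h.prime l l.2) (h.not_dvd l l.2), ← hα, map_zero] at h1
    exact (h1.symm.trans h2).trans (pair_tOp _ _ _ _)
  · have h1 := pair_alphaOp u v huv 0 c (T' z)
    have h2 := pair_alphaOp u v huv 0 (T c) z
    simp only [map_zero, LinearMap.zero_apply, zero_add] at h1 h2
    rw [← pair_tOp (h.prime l l.2) (h.not_dvd l l.2), ← hα, map_zero] at h1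
    exact (h1.symm.trans h2).trans (pair_tOp _ _ _ _)

/-- The polynomial algebra in the `T_l` acting at level `N`. -/
def EigenData.actN : MvPolynomial S ℤ →+* Module.End ℤ (PH N) :=
  (heckeP N).comp (MvPolynomial.eval₂Hom (Int.castRingHom (CuspForm.heckeAlgebra N 2 (∅ : Set ℕ)))
    fun l : S ↦ CuspForm.heckeAlgebra.T (h.prime l l.2) (h.not_dvd_left l) (Set.notMem_empty _))

/-- The polynomial algebra in the `T_l` acting at level `Nq`. -/
def EigenData.actM : MvPolynomial S ℤ →+* Module.End ℤ (PH (N * q)) :=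
  (heckeP (N * q)).comp (MvPolynomial.eval₂Hom
    (Int.castRingHom (CuspForm.heckeAlgebra (N * q) 2 (∅ : Set ℕ)))
    fun l : S ↦ CuspForm.heckeAlgebra.T (h.prime l l.2) (h.not_dvd l l.2) (Set.notMem_empty _))

omit [NeZero q] [NeZero (N * q)] in
theorem EigenData.actN_X (l : S) (y : PH N) :
    h.actN (X l) y = tOp N (h.prime l l.2) (h.not_dvd_left l) y := by
  simp only [EigenData.actN, RingHom.comp_apply, MvPolynomial.eval₂Hom_X']
  exact heckeP_T _ _ y

omit [NeZero N] [NeZero q] in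
theorem EigenData.actM_X (l : S) (y : PH (N * q)) :
    h.actM (X l) y = tOp (N * q) (h.prime l l.2) (h.not_dvd l l.2) y := by
  simp only [EigenData.actM, RingHom.comp_apply, MvPolynomial.eval₂Hom_X']
  exact heckeP_T _ _ y

/-- The traces are equivariant. -/
theorem EigenData.betaOp_act (hp : p ≠ 2) {u v : ℤ} (huv : u * q - v * N = 1)
    (t : MvPolynomial S ℤ) (z : PH (N * q)) :
    betaOp u v huv (h.actM t z) =
      (h.actN t (betaOp u v huv z).1, h.actN t (betaOp u v huv z).2) := by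
  induction t using MvPolynomial.induction_on generalizing z with
  | C n =>
    simp only [show (C n : MvPolynomial S ℤ) = (n : MvPolynomial S ℤ) from eq_intCast C n,
      map_intCast, Module.End.intCast_apply, map_zsmul]
    rfl
  | add t t' iht iht' =>
    simp only [map_add, LinearMap.add_apply, iht, iht', Prod.mk_add_mk]
  | mul_X t l iht =>
    simp only [map_mul, Module.End.mul_apply]
    rw [iht, h.actM_X, h.betaOp_tOp hp huv, h.actN_X, h.actN_X]

/-- The cokernel of the traces vanishes after localising at the eigensystem. -/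
theorem EigenData.exists_coker (hp : p ≠ 2) (hq : q.Prime) (hqN : ¬ q ∣ N) {u v : ℤ}
    (huv : u * q - v * N = 1) :
    ∃ r : MvPolynomial S ℤ, aeval (fun l : S ↦ (a l : ZMod p)) r = 1 ∧
      ∀ y : PH N × PH N, ∃ z, betaOp u v huv z = (h.actN r y.1, h.actN r y.2) := by
  let rP : MvPolynomial S ℤ →+* Module.End ℤ (PH N × PH N) :=
    { toFun := fun t ↦ (h.actN t).prodMap (h.actN t)
      map_one' := by rw [map_one]; rfl
      map_mul' := fun t t' ↦ by rw [map_mul]; rfl
      map_zero' := by rw [map_zero]; rfl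
      map_add' := fun t t' ↦ by rw [map_add]; rfl }
  have hrP : ∀ t (y : PH N × PH N), rP t y = (h.actN t y.1, h.actN t y.2) := fun t y ↦ rfl
  obtain ⟨r, hr1, hr0⟩ := exists_into_subgroup rP
    (aeval fun l : S ↦ (a l : ZMod p)).toRingHom (betaOp u v huv).toAddMonoidHom.range
    (fun t y ⟨z, hz⟩ ↦ ⟨h.actM t z, by
      show betaOp u v huv (h.actM t z) = _
      rw [h.betaOp_act hp huv, show betaOp u v huv z = y from hz]
      rfl⟩)
    (fun L hLB hLT ↦ by
      obtain ⟨y₁, hy₁⟩ := exists_pair_eq hp (L.comp (AddMonoidHom.inl (PH N) (PH N)))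
      obtain ⟨y₂, hy₂⟩ := exists_pair_eq hp (L.comp (AddMonoidHom.inr (PH N) (PH N)))
      have hα : red p (alphaOp N q (y₁, y₂)) = 0 := red_eq_zero_of_pair hp fun z ↦ by
        rw [pair_alphaOp u v huv, Int.cast_add, hy₁, hy₂, AddMonoidHom.comp_apply,
          AddMonoidHom.comp_apply, ← map_add]
        refine Eq.trans (congrArg L ?_) (hLB (betaOp u v huv z) ⟨z, rfl⟩)
        simp [Prod.mk_add_mk]
      have hye : ∀ (y : PH N) (ι : PH N →+ PH N × PH N),
          (∀ (l : S) w, ι (tOp N (h.prime l l.2) (h.not_dvd_left l) w) = rP (X l) (ι w)) →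
          (∀ w, ((pair N y w : ℤ) : ZMod p) = L.comp ι w) →
          ∀ l : S, red p (tOp N (h.prime l l.2) (h.not_dvd_left l) y) = (a l : ZMod p) • red p y := by
        intro y ι hι hy l
        rw [← sub_eq_zero]
        have : red p (tOp N (h.prime l l.2) (h.not_dvd_left l) y + (-(a l)) • y) = 0 :=
          red_eq_zero_of_pair hp fun w ↦ by
            rw [map_add, LinearMap.add_apply, pair_tOp, map_zsmul, LinearMap.smul_apply, smul_eq_mul,
              Int.cast_add, Int.cast_mul, hy, hy, AddMonoidHom.comp_apply, AddMonoidHom.comp_apply,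
              hι, hLT]
            simp
        rw [red_add, red_zsmul] at this
        rw [← this]
        push_cast
        rw [neg_smul, sub_eq_add_neg]
      obtain ⟨e1, e2⟩ := h.red_eq_zero hq hqN
        (hye y₁ (AddMonoidHom.inl _ _) (fun l w ↦ by simp [hrP, h.actN_X]) hy₁)
        (hye y₂ (AddMonoidHom.inr _ _) (fun l w ↦ by simp [hrP, h.actN_X]) hy₂) hα
      refine AddMonoidHom.ext fun y ↦ ?_
      obtain ⟨y₁', hy₁'⟩ := exists_eq_smul_of_red_eq_zero e1
      obtain ⟨y₂', hy₂'⟩ := exists_eq_smul_of_red_eq_zero e2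
      have f1 : L (y.1, 0) = 0 := by
        refine (hy₁ y.1).symm.trans ?_
        rw [hy₁', map_zsmul, LinearMap.smul_apply, smul_eq_mul]
        simp
      have f2 : L (0, y.2) = 0 := by
        refine (hy₂ y.2).symm.trans ?_
        rw [hy₂', map_zsmul, LinearMap.smul_apply, smul_eq_mul]
        simp
      rw [show y = (y.1, (0 : PH N)) + ((0 : PH N), y.2) by simp, map_add, f1, f2, add_zero]
      rfl)
  exact ⟨r, hr1, fun y ↦ hr0 y⟩

/-- Level raising: an element of the kernel of the traces with the given eigenvalues mod `p`. -/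
theorem EigenData.exists_new (hp : p ≠ 2) (hq : q.Prime) (hqN : ¬ q ∣ N)
    {x : PH N} (hx0 : red p x ≠ 0)
    (hx : ∀ l : S, red p (tOp N (h.prime l l.2) (h.not_dvd_left l) x) = (a l : ZMod p) • red p x)
    {ε : ℤ} (hε : ε * ε = 1)
    (hxq : red p (tOp N hq hqN x) = ((ε * ((q : ℤ) + 1) : ℤ) : ZMod p) • red p x)
    {u v : ℤ} (huv : u * q - v * N = 1) :
    ∃ k₀ : PH (N * q), betaOp u v huv k₀ = 0 ∧ red p k₀ ≠ 0 ∧
      ∀ l : S, red p (tOp (N * q) (h.prime l l.2) (h.not_dvd l l.2) k₀) =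
        (a l : ZMod p) • red p k₀ := by
  classical
  obtain ⟨r, hr1, hr0⟩ := h.exists_coker hp hq hqN huv
  -- the old vector
  obtain ⟨w, hw⟩ := exists_eq_smul_of_red_eq_zero
    (show red p (tOp N hq hqN x + (-(ε * ((q : ℤ) + 1))) • x) = 0 by
      rw [red_add, red_zsmul, hxq]; push_cast; rw [neg_smul, add_neg_cancel])
  have hTx : tOp N hq hqN x = (ε * ((q : ℤ) + 1)) • x + (p : ℤ) • w := by
    rw [← hw, neg_smul]; abel
  set X₀ := alphaOp N q (x, (-ε) • x) with hX₀
  have hβX : betaOp u v huv X₀ = (p : ℤ) • ((-ε) • w, w) := by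
    rw [hX₀, betaOp_alphaOp u v huv hq hqN, map_zsmul, hTx, Prod.smul_mk]
    refine Prod.ext ?_ ?_
    · show _ + (-ε) • ((ε * ((q : ℤ) + 1)) • x + (p : ℤ) • w) = (p : ℤ) • (-ε) • w
      rw [← natCast_zsmul x (q + 1), smul_add (-ε), smul_smul, smul_smul (p : ℤ), smul_smul (-ε) (p : ℤ),
        show (-ε) * (ε * ((q : ℤ) + 1)) = -((q : ℤ) + 1) by linear_combination (-((q : ℤ) + 1)) * hε,
        mul_comm (-ε) (p : ℤ), ← add_assoc, ← add_smul]
      push_cast
      rw [add_neg_cancel, zero_smul, zero_add]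
    · show _ + (q + 1) • ((-ε) • x) = (p : ℤ) • w
      rw [← natCast_zsmul _ (q + 1), smul_smul, add_right_comm, ← add_smul]
      push_cast
      rw [show ε * ((q : ℤ) + 1) + ((q : ℤ) + 1) * -ε = 0 by ring, zero_smul, zero_add]
  obtain ⟨Z, hZ⟩ := hr0 ((((-ε) • w, w) : PH N × PH N))
  replace hZ : betaOp u v huv Z = (h.actN r ((-ε) • w), h.actN r w) := hZ
  -- the action on `X₀`
  have hX0 : red p X₀ ≠ 0 := by
    intro h0
    refine hx0 (h.red_eq_zero hq hqN hx (fun l ↦ ?_) h0).1
    rw [map_zsmul, red_zsmul, red_zsmul, hx l, smul_comm]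
  have hXl : ∀ l : S, ∃ W, tOp (N * q) (h.prime l l.2) (h.not_dvd l l.2) X₀ =
      (a l) • X₀ + (p : ℤ) • W := by
    intro l
    obtain ⟨w', hw'⟩ := exists_eq_smul_of_red_eq_zero
      (show red p (tOp N (h.prime l l.2) (h.not_dvd_left l) x + (-(a l)) • x) = 0 by
        rw [red_add, red_zsmul, hx l]; push_cast; rw [neg_smul, add_neg_cancel])
    refine ⟨alphaOp N q (w', (-ε) • w'), ?_⟩
    have hTl : tOp N (h.prime l l.2) (h.not_dvd_left l) x = (a l) • x + (p : ℤ) • w' := by
      rw [← hw', neg_smul]; abel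
    rw [hX₀, ← alphaOp_tOp (h.prime l l.2) (h.not_dvd l l.2), map_zsmul, hTl, ← map_zsmul, ← map_zsmul,
      ← map_add, Prod.smul_mk, Prod.smul_mk, Prod.mk_add_mk, smul_add, smul_comm (-ε) (a l),
      smul_comm (-ε) (p : ℤ)]
  have hact : ∀ t, ∃ (n : ℤ) (W : PH (N * q)), (n : ZMod p) = aeval (fun l : S ↦ (a l : ZMod p)) t ∧
      h.actM t X₀ = n • X₀ + (p : ℤ) • W := by
    intro t
    induction t using MvPolynomial.induction_on with
    | C n =>
      refine ⟨n, 0, by simp, ?_⟩
      rw [show (C n : MvPolynomial S ℤ) = (n : MvPolynomial S ℤ) from eq_intCast C n, map_intCast,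
        Module.End.intCast_apply, smul_zero, add_zero]
    | add t t' iht iht' =>
      obtain ⟨n, W, hn, e⟩ := iht
      obtain ⟨n', W', hn', e'⟩ := iht'
      refine ⟨n + n', W + W', by rw [map_add, Int.cast_add, hn, hn'], ?_⟩
      rw [map_add, LinearMap.add_apply, e, e', add_smul, smul_add]
      abel
    | mul_X t l iht =>
      obtain ⟨n, W, hn, e⟩ := iht
      obtain ⟨W', hW'⟩ := hXl l
      refine ⟨n * a l, (a l) • W + h.actM t W', by rw [map_mul, Int.cast_mul, hn]; simp, ?_⟩
      rw [map_mul, Module.End.mul_apply, h.actM_X, hW', map_add, map_zsmul, map_zsmul, e, smul_add,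
        smul_smul, mul_comm (a l) n, smul_add, smul_comm (p : ℤ) (a l) W]
      abel
  obtain ⟨n, W, hn, hW⟩ := hact r
  rw [hr1] at hn
  set k₀ := h.actM r X₀ - (p : ℤ) • Z with hk₀
  have hredk : red p k₀ = red p X₀ := by
    rw [hk₀, hW, sub_eq_add_neg, ← neg_one_zsmul ((p : ℤ) • Z), red_add, red_add, red_zsmul,
      red_zsmul, red_zsmul, red_zsmul, hn]
    simp
  refine ⟨k₀, ?_, hredk ▸ hX0, fun l ↦ ?_⟩
  · rw [hk₀, map_sub, h.betaOp_act hp huv, hβX, map_zsmul, hZ, Prod.smul_fst, Prod.smul_snd, map_zsmul, map_zsmul,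
      Prod.smul_mk]
    simp
  · obtain ⟨W', hW'⟩ := hXl l
    rw [hredk, hk₀, hW, map_sub, map_add, map_zsmul, map_zsmul, map_zsmul, hW', sub_eq_add_neg,
      ← neg_one_zsmul ((p : ℤ) • _), red_add, red_add]
    simp only [red_zsmul, red_add, Int.cast_natCast, ZMod.natCast_self, zero_smul, smul_zero,
      add_zero, hn, one_smul]

end FermatAgent.Ihara

end
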