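import Fermat.Agent.Periods.HeckeHom
import Fermat.Agent.Ihara.Eisenstein

/-!
The periods of modular symbols: every parabolic character of `Γ₀(N)` is the period of a symbol,
and Hecke correspondences act compatibly.
-/

set_option autoImplicit false

namespace FermatAgent.Ihara

open Matrix OnePoint CongruenceSubgroup ModularCurve.Period
open scoped MatrixGroups

variable {k : Type*} [AddCommGroup k] {N : ℕ}

theorem slQ_mem_G0 (γ : Gamma0 N) : slQ γ ∈ G0 N := Subgroup.mem_map_of_mem slQ γ.2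

/-- The periods of a symbol. -/
noncomputable def periods {φ : Cusp × Cusp → k} (h : IsSymb (G0 N : Set G2) φ) :
    Additive (Gamma0 N) →+ k where
  toFun γ := φ (∞, slQ (Additive.toMul γ : Gamma0 N) • ∞)
  map_zero' := by simpa using h.add.self_eq ∞
  map_add' γ δ := by
    simp only [toMul_add, Subgroup.coe_mul, map_mul, mul_smul]
    rw [h.add ∞ (slQ (Additive.toMul γ : Gamma0 N) • ∞) _]
    congr 1
    exact h.inv _ (slQ_mem_G0 (Additive.toMul γ)) (∞, _)

theorem periods_apply {φ : Cusp × Cusp → k} (h : IsSymb (G0 N : Set G2) φ) (γ : Gamma0 N) :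
    periods h (Additive.ofMul γ) = φ (∞, slQ γ • ∞) := rfl

theorem apply_smul_self {φ : Cusp × Cusp → k} (h : IsSymb (G0 N : Set G2) φ) (γ : Gamma0 N)
    (x : Cusp) : φ (x, slQ γ • x) = φ (∞, slQ γ • ∞) := by
  have hinv : φ (slQ γ • ∞, slQ γ • x) = φ (∞, x) := h.inv _ (slQ_mem_G0 γ) (∞, x)
  rw [h.add x ∞, h.add ∞ (slQ γ • ∞) (slQ γ • x), hinv, h.add.swap ∞ x]
  abel

theorem isBdry_of_periods_eq_zero {φ : Cusp × Cusp → k} (h : IsSymb (G0 N : Set G2) φ) {M : ℕ}
    (_hM : 0 < M) (hNM : N ∣ M) (h0 : periods h = 0) :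
    ∀ g ∈ GM M, ∀ x : Cusp, φ (x, g • x) = 0 := by
  intro g hg x
  obtain ⟨γ, hγ, rfl⟩ := GM_le_G0 hNM hg
  rw [apply_smul_self h ⟨γ, hγ⟩ x, ← periods_apply h ⟨γ, hγ⟩, h0]
  rfl

theorem exists_fixed_cusp (γ : SL(2, ℤ))
    (ht : (γ : Matrix (Fin 2) (Fin 2) ℤ).trace ^ 2 = 4) : ∃ x : Cusp, slQ γ • x = x := by
  have hdet := γ.2
  rw [Matrix.det_fin_two] at hdet
  rw [Matrix.trace_fin_two] at ht
  set a := (γ : Matrix (Fin 2) (Fin 2) ℤ) 0 0
  set b := (γ : Matrix (Fin 2) (Fin 2) ℤ) 0 1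
  set c := (γ : Matrix (Fin 2) (Fin 2) ℤ) 1 0
  set d := (γ : Matrix (Fin 2) (Fin 2) ℤ) 1 1
  by_cases hc : c = 0
  · exact ⟨∞, smul_infty_eq_self_iff.mpr (by simp [c] at hc; simp [hc])⟩
  · refine ⟨(((a : ℚ) - d) / (2 * c) : ℚ), ?_⟩
    have hcq : (c : ℚ) ≠ 0 := Int.cast_ne_zero.mpr hc
    have hden : (c : ℚ) * (((a : ℚ) - d) / (2 * c)) + d = ((a : ℚ) + d) / 2 := by field_simp; ring
    have hne : ((a : ℚ) + d) / 2 ≠ 0 := by
      intro h
      have hs : (a : ℤ) + d = 0 := by exact_mod_cast (by linear_combination 2 * h : (a : ℚ) + d = 0)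
      rw [hs] at ht; norm_num at ht
    have ht' : ((a : ℚ) + d) ^ 2 = 4 := by exact_mod_cast ht
    have hdet' : (a : ℚ) * d - b * c = 1 := by exact_mod_cast hdet
    rw [smul_some_eq_ite]
    simp only [slQ_apply]
    change (if (c : ℚ) * _ + d = 0 then _ else _) = _
    rw [hden, if_neg hne, coe_eq_coe]
    rw [div_eq_iff hne]
    change (a : ℚ) * _ + b = _
    field_simp
    linear_combination (-4 : ℚ) * hdet' + ht'

theorem periods_mem_parabolicHoms (R : Type*) [Semiring R] [Module R k]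
    {φ : Cusp × Cusp → k} (h : IsSymb (G0 N : Set G2) φ) :
    periods h ∈ parabolicHoms R (Gamma0 N) k := by
  intro γ hγ
  obtain ⟨x, hx⟩ := exists_fixed_cusp γ hγ
  rw [periods_apply, ← apply_smul_self h γ x, hx, h.add.self_eq]

theorem trace_sq_eq_four_of_fixed (γ : SL(2, ℤ)) {x : Cusp} (hx : slQ γ • x = x) :
    (γ : Matrix (Fin 2) (Fin 2) ℤ).trace ^ 2 = 4 := by
  obtain ⟨u, v, huv, rfl⟩ := exists_cuspOf_eq x
  have hne : (u : ℚ) ≠ 0 ∨ (v : ℚ) ≠ 0 := by
    by_contra! hh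
    simp only [Int.cast_eq_zero] at hh
    rw [hh.1, hh.2] at huv
    exact not_isCoprime_zero_zero huv
  have hdet := γ.2
  rw [Matrix.det_fin_two] at hdet
  rw [smul_cuspOf _ hne] at hx
  simp only [slQ_apply] at hx
  rw [Matrix.trace_fin_two]
  set a := (γ : Matrix (Fin 2) (Fin 2) ℤ) 0 0
  set b := (γ : Matrix (Fin 2) (Fin 2) ℤ) 0 1
  set c := (γ : Matrix (Fin 2) (Fin 2) ℤ) 1 0
  set d := (γ : Matrix (Fin 2) (Fin 2) ℤ) 1 1
  have hcross : ((a * u + b * v) * v : ℤ) = u * (c * u + d * v) := by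
    suffices ((a : ℚ) * u + b * v) * v = u * (c * u + d * v) by exact_mod_cast this
    simp only [cuspOf] at hx
    split_ifs at hx with h1 h2 h3
    · rw [h1, h2]; ring
    · exact absurd hx (infty_ne_coe _)
    · exact absurd hx (coe_ne_infty _)
    · rw [coe_eq_coe, div_eq_div_iff h1 (by assumption)] at hx
      linear_combination hx
  obtain ⟨s, t, hst⟩ := huv
  set e := s * (a * u + b * v) + t * (c * u + d * v) with he
  have h1 : a * u + b * v = e * u := by
    linear_combination (-(a * u + b * v)) * hst + t * hcross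
  have h2 : c * u + d * v = e * v := by
    linear_combination (-(c * u + d * v)) * hst - s * hcross
  have hchar : (a - e) * (d - e) - b * c = 0 := by
    linear_combination (-((a - e) * (d - e) - b * c)) * hst + (s * (d - e) - t * c) * h1 +
      (t * (a - e) - s * b) * h2
  have he1 : e * (a + d - e) = 1 := by linear_combination hdet - hchar
  rcases Int.eq_one_or_neg_one_of_mul_eq_one he1 with h | h <;> rw [h] at he1
  · have : a + d = 2 := by linear_combination he1
    rw [this]; norm_num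
  · have : a + d = -2 := by linear_combination -he1
    rw [this]; norm_num

/-- `Γ₀(N)`-equivalence of cusps. -/
def cuspSetoid (N : ℕ) : Setoid Cusp where
  r x y := ∃ γ : Gamma0 N, slQ γ • x = y
  iseqv := ⟨fun x ↦ ⟨1, by simp⟩,
    fun ⟨γ, h⟩ ↦ ⟨γ⁻¹, by rw [← h, Subgroup.coe_inv, map_inv, inv_smul_smul]⟩,
    fun ⟨γ, h⟩ ⟨δ, h'⟩ ↦ ⟨δ * γ, by rw [Subgroup.coe_mul, map_mul, mul_smul, h, h']⟩⟩

/-- The chosen representative of the class of a cusp. -/
noncomputable def cuspRep (N : ℕ) (x : Cusp) : Cusp :=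
  (Quotient.mk (cuspSetoid N) x).out

/-- An element moving the representative to the cusp. -/
noncomputable def cuspMover (N : ℕ) (x : Cusp) : Gamma0 N :=
  (Quotient.mk_out (s := cuspSetoid N) x).choose

theorem cuspMover_spec (N : ℕ) (x : Cusp) : slQ (cuspMover N x) • cuspRep N x = x :=
  (Quotient.mk_out (s := cuspSetoid N) x).choose_spec

/-- The symbol with prescribed periods. -/
noncomputable def symOf (χ : Additive (Gamma0 N) →+ k) : Cusp × Cusp → k :=
  fun p ↦ χ (Additive.ofMul (cuspMover N p.2)) - χ (Additive.ofMul (cuspMover N p.1))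

theorem cuspMover_smul {χ : Additive (Gamma0 N) →+ k} (hχ : IsParabolicHom (Gamma0 N) χ)
    (δ : Gamma0 N) (x : Cusp) :
    χ (Additive.ofMul (cuspMover N (slQ δ • x))) =
      χ (Additive.ofMul δ) + χ (Additive.ofMul (cuspMover N x)) := by
  have hrep : cuspRep N (slQ δ • x) = cuspRep N x :=
    congrArg Quotient.out (Quotient.sound (s := cuspSetoid N) ⟨δ, rfl⟩).symm
  have hfix : slQ ((cuspMover N (slQ δ • x))⁻¹ * (δ * cuspMover N x) : Gamma0 N) •
      cuspRep N x = cuspRep N x := by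
    rw [Subgroup.coe_mul, Subgroup.coe_mul, map_mul, map_mul, mul_smul, mul_smul, cuspMover_spec,
      Subgroup.coe_inv, map_inv, inv_smul_eq_iff, ← hrep, cuspMover_spec]
  have := hχ _ (trace_sq_eq_four_of_fixed _ hfix)
  rw [ofMul_mul, ofMul_mul, ofMul_inv, map_add, map_add, map_neg, neg_add_eq_zero] at this
  exact this

theorem isSymb_symOf {χ : Additive (Gamma0 N) →+ k} (hχ : IsParabolicHom (Gamma0 N) χ) :
    IsSymb (G0 N : Set G2) (symOf χ) where
  add x y z := by simp [symOf]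
  inv := by
    rintro g ⟨γ, hγ, rfl⟩ ⟨x, y⟩
    simp only [symOf, Prod.smul_mk]
    rw [cuspMover_smul hχ ⟨γ, hγ⟩ x, cuspMover_smul hχ ⟨γ, hγ⟩ y]
    abel

theorem periods_symOf {χ : Additive (Gamma0 N) →+ k} (hχ : IsParabolicHom (Gamma0 N) χ) :
    periods (isSymb_symOf hχ) = χ := by
  refine AddMonoidHom.ext fun γ ↦ ?_
  show symOf χ (∞, slQ (Additive.toMul γ : Gamma0 N) • ∞) = χ γ
  rw [symOf, cuspMover_smul hχ (Additive.toMul γ) ∞, add_sub_cancel_right, ofMul_toMul]

section Corr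

variable {ι : Type} [Fintype ι] (D : Periods.HeckeCorr (Gamma0 N) ι)

/-- An integral matrix of nonzero determinant in `GL₂(ℚ)`. -/
noncomputable def matQ (M : Matrix (Fin 2) (Fin 2) ℤ) (h : M.det ≠ 0) : G2 :=
  mk2 (M 0 0) (M 0 1) (M 1 0) (M 1 1) (by
    rw [Matrix.det_fin_two] at h
    exact_mod_cast h)

/-- The action of a correspondence on symbols. -/
noncomputable def corrSym (φ : Cusp × Cusp → k) : Cusp × Cusp → k :=
  fun p ↦ ∑ i, φ (matQ (D.rep i) (D.det_ne i) • p)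

omit [Fintype ι] in
theorem matQ_move (γ : Gamma0 N) (i : ι) :
    matQ (D.rep i) (D.det_ne i) * slQ γ =
      slQ (D.move γ i) * matQ (D.rep (D.target γ i)) (D.det_ne _) := by
  have h := D.move_spec γ i
  refine g2_ext ?_ ?_ ?_ ?_ <;> rw [mul_apply2, mul_apply2] <;> simp only [matQ, val_mk2, slQ_apply] <;>
    simp only [Matrix.of_apply, Matrix.cons_val', Matrix.cons_val_zero, Matrix.cons_val_one,
      Matrix.cons_val_fin_one]
  · have := congrFun (congrFun h 0) 0; simp [Matrix.mul_apply, Fin.sum_univ_two] at this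
    exact_mod_cast this
  · have := congrFun (congrFun h 0) 1; simp [Matrix.mul_apply, Fin.sum_univ_two] at this
    exact_mod_cast this
  · have := congrFun (congrFun h 1) 0; simp [Matrix.mul_apply, Fin.sum_univ_two] at this
    exact_mod_cast this
  · have := congrFun (congrFun h 1) 1; simp [Matrix.mul_apply, Fin.sum_univ_two] at this
    exact_mod_cast this

theorem isSymb_corrSym {φ : Cusp × Cusp → k} (h : IsSymb (G0 N : Set G2) φ) :
    IsSymb (G0 N : Set G2) (corrSym D φ) where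
  add x y z := by
    simp only [corrSym, Prod.smul_mk, ← Finset.sum_add_distrib]
    exact Finset.sum_congr rfl fun i _ ↦ h.add _ _ _
  inv := by
    refine IsCorr.isInv_sum ?_ h.inv
    rintro g ⟨γ, hγ, rfl⟩
    exact ⟨D.targetEquiv ⟨γ, hγ⟩, fun i ↦ ⟨_, slQ_mem_G0 _, matQ_move D ⟨γ, hγ⟩ i⟩⟩

theorem periods_corrSym (R : Type*) [Semiring R] [Module R k] {φ : Cusp × Cusp → k}
    (h : IsSymb (G0 N : Set G2) φ) :
    periods (isSymb_corrSym D h) = D.transfer R (periods h) := by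
  refine AddMonoidHom.ext fun γ' ↦ ?_
  obtain ⟨γ, rfl⟩ : ∃ γ, Additive.ofMul γ = γ' := ⟨Additive.toMul γ', rfl⟩
  rw [D.transfer_apply]
  simp only [periods_apply, corrSym, Prod.smul_mk]
  set σ := fun i ↦ matQ (D.rep i) (D.det_ne i)
  have key : ∀ i, φ (σ i • ∞, σ i • slQ γ • ∞) =
      φ (∞, slQ (D.move γ i) • ∞) + (φ (∞, σ (D.target γ i) • ∞) - φ (∞, σ i • ∞)) := by
    intro i
    rw [smul_smul (σ i), matQ_move D γ i, mul_smul, h.add (σ i • ∞) ∞,
      h.add ∞ (slQ (D.move γ i) • ∞) (slQ (D.move γ i) • (σ (D.target γ i) • ∞)),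
      show φ (slQ (D.move γ i) • ∞, slQ (D.move γ i) • (σ (D.target γ i) • ∞)) =
        φ (∞, σ (D.target γ i) • ∞) from h.inv _ (slQ_mem_G0 _) (∞, _), h.add.swap ∞ (σ i • ∞)]
    abel
  rw [Finset.sum_congr rfl fun i _ ↦ key i, Finset.sum_add_distrib, Finset.sum_sub_distrib,
    show (∑ i, φ (∞, σ (D.target γ i) • ∞)) = ∑ i, φ (∞, σ i • ∞) from
      Equiv.sum_comp (D.targetEquiv γ) fun i ↦ φ (∞, σ i • ∞), sub_self, add_zero]

end Corr

theorem symT_eq_corrSym (N : ℕ) {l : ℕ} [NeZero l] (hl : l.Prime) (hlN : ¬ l ∣ N)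
    (φ : Cusp × Cusp → k) : symT l φ = corrSym (Periods.tCorr N hl hlN) φ := by
  funext p
  refine Finset.sum_congr rfl fun i _ ↦ ?_
  congr 2
  cases i <;> refine g2_ext ?_ ?_ ?_ ?_ <;>
    simp [heckeMat, matQ, Periods.tRep, Periods.diagRep, Periods.upperRep]

theorem isSymb_symT {l : ℕ} [NeZero l] (hl : l.Prime) (hlN : ¬ l ∣ N) {φ : Cusp × Cusp → k}
    (h : IsSymb (G0 N : Set G2) φ) : IsSymb (G0 N : Set G2) (symT l φ) := by
  rw [symT_eq_corrSym N hl hlN]; exact isSymb_corrSym _ h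

theorem periods_symT (R : Type*) [Semiring R] [Module R k] {l : ℕ} [NeZero l] (hl : l.Prime)
    (hlN : ¬ l ∣ N) {φ : Cusp × Cusp → k} (h : IsSymb (G0 N : Set G2) φ) :
    periods (isSymb_symT hl hlN h) = Periods.heckeHomT R N hl hlN (periods h) := by
  have := periods_corrSym (Periods.tCorr N hl hlN) R h
  refine Eq.trans ?_ this
  congr 1
  exact symT_eq_corrSym N hl hlN φ

theorem IsSymb.sub {φ ψ : Cusp × Cusp → k} {H : Set G2} (h : IsSymb H φ) (h' : IsSymb H ψ) :
    IsSymb H (φ - ψ) where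
  add x y z := by simp [h.add x y z, h'.add x y z]; abel
  inv g hg p := by simp [h.inv g hg p, h'.inv g hg p]

theorem IsSymb.nsmul {φ : Cusp × Cusp → k} {H : Set G2} (h : IsSymb H φ) (n : ℕ) :
    IsSymb H (n • φ) where
  add x y z := by simp [h.add x y z]
  inv g hg p := by simp [h.inv g hg p]

theorem periods_sub {φ ψ : Cusp × Cusp → k} (h : IsSymb (G0 N : Set G2) φ)
    (h' : IsSymb (G0 N : Set G2) ψ) : periods (h.sub h') = periods h - periods h' := by
  ext γ; rfl

theorem periods_nsmul {φ : Cusp × Cusp → k} (h : IsSymb (G0 N : Set G2) φ) (n : ℕ) :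
    periods (h.nsmul n) = n • periods h := by
  ext γ; rfl

theorem periods_congr {φ ψ : Cusp × Cusp → k} (e : φ = ψ) (h : IsSymb (G0 N : Set G2) φ)
    (h' : IsSymb (G0 N : Set G2) ψ) : periods h = periods h' := by
  subst e; rfl

end FermatAgent.Ihara
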