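import Fermat.Agent.Ihara.Farey
import Fermat.Agent.Ihara.SymbolPeriods

/-!
Sums over the triangles of the Farey tessellation modulo `Γ₀(M)`, and the cup product of two
modular symbols.
-/

set_option autoImplicit false

namespace FermatAgent.Ihara

open OnePoint CongruenceSubgroup
open scoped MatrixGroups

/-- The cosets of `Γ₀(M)`: edges of the tessellation. -/
abbrev X0 (M : ℕ) : Type := Cos (Gamma0 M)

theorem neg_one_mem_Gamma0 (M : ℕ) : (-1 : SL(2, ℤ)) ∈ Gamma0 M := by
  simp [Gamma0_mem]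

variable {M : ℕ}

/-- The rotation of a coset. -/
def rot (c : X0 M) : X0 M := cmul c triU

/-- The reversal of a coset. -/
def rev (c : X0 M) : X0 M := cmul c edgeS

theorem rot_cmk (g : SL(2, ℤ)) : rot (cmk (Gamma0 M) g) = cmk _ (g * triU) := rfl

theorem rev_cmk (g : SL(2, ℤ)) : rev (cmk (Gamma0 M) g) = cmk _ (g * edgeS) := rfl

theorem rev_rev (c : X0 M) : rev (rev c) = c := cmul_edgeS_edgeS (neg_one_mem_Gamma0 M) c

theorem rot_rot_rot (c : X0 M) : rot (rot (rot c)) = c :=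
  cmul_triU_triU_triU (neg_one_mem_Gamma0 M) c

/-- Rotation as a permutation. -/
def rotEquiv (M : ℕ) : Equiv.Perm (X0 M) where
  toFun := rot
  invFun c := rot (rot c)
  left_inv := rot_rot_rot
  right_inv := rot_rot_rot

/-- Reversal as a permutation. -/
def revEquiv (M : ℕ) : Equiv.Perm (X0 M) where
  toFun := rev
  invFun := rev
  left_inv := rev_rev
  right_inv := rev_rev

theorem sum_comp_rot [NeZero M] {k : Type*} [AddCommMonoid k] (f : X0 M → k) :
    ∑ c, f (rot c) = ∑ c, f c :=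
  Equiv.sum_comp (rotEquiv M) f

theorem sum_comp_rev [NeZero M] {k : Type*} [AddCommMonoid k] (f : X0 M → k) :
    ∑ c, f (rev c) = ∑ c, f c :=
  Equiv.sum_comp (revEquiv M) f

section Rep

variable [NeZero M]

/-- An ordering of the cosets. -/
noncomputable def cosIdx (c : X0 M) : ℕ := (Fintype.equivFin (X0 M) c : ℕ)

theorem cosIdx_injective : Function.Injective (cosIdx (M := M)) :=
  Fin.val_injective.comp (Fintype.equivFin (X0 M)).injective

/-- A choice of one coset in every free orbit of the rotation. -/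
def IsOrbRep (c : X0 M) : Prop := cosIdx c < cosIdx (rot c) ∧ cosIdx c < cosIdx (rot (rot c))

noncomputable instance : DecidablePred (IsOrbRep (M := M)) := fun _ ↦ instDecidableAnd

theorem isOrbRep_cases {c : X0 M} (hc : rot c ≠ c) :
    (IsOrbRep c ∧ ¬ IsOrbRep (rot c) ∧ ¬ IsOrbRep (rot (rot c))) ∨
      (¬ IsOrbRep c ∧ IsOrbRep (rot c) ∧ ¬ IsOrbRep (rot (rot c))) ∨
        (¬ IsOrbRep c ∧ ¬ IsOrbRep (rot c) ∧ IsOrbRep (rot (rot c))) := by
  have h1 : cosIdx c ≠ cosIdx (rot c) := fun h ↦ hc (cosIdx_injective h).symm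
  have h2 : cosIdx c ≠ cosIdx (rot (rot c)) := fun h ↦ hc (by
    have := congrArg rot (cosIdx_injective h)
    rwa [rot_rot_rot] at this)
  have h3 : cosIdx (rot c) ≠ cosIdx (rot (rot c)) := fun h ↦ hc (by
    have := congrArg (fun d ↦ rot (rot d)) (cosIdx_injective h)
    simp only [rot_rot_rot] at this
    exact this.symm)
  simp only [IsOrbRep, rot_rot_rot]
  omega

theorem not_isOrbRep_of_fixed {c : X0 M} (hc : rot c = c) : ¬ IsOrbRep c := fun h ↦ by
  rw [IsOrbRep, hc] at h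
  exact lt_irrefl _ h.1

theorem rot_ne_of_isOrbRep {c : X0 M} (hc : IsOrbRep c) : rot c ≠ c := fun h ↦
  not_isOrbRep_of_fixed h hc

/-- Sum over the free orbits of the rotation. -/
theorem sum_eq_sum_reps {k : Type*} [AddCommMonoid k] (f : X0 M → k)
    (hfix : ∀ c, rot c = c → f c = 0) :
    ∑ c, f c = ∑ c, if IsOrbRep c then f c + f (rot c) + f (rot (rot c)) else 0 := by
  have hs : ∀ c, f c = (if IsOrbRep c then f c else 0) +
      (if IsOrbRep (rot (rot c)) then f c else 0) + (if IsOrbRep (rot c) then f c else 0) := by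
    intro c
    by_cases hc : rot c = c
    · simp [hfix c hc]
    · rcases isOrbRep_cases hc with ⟨a, b, d⟩ | ⟨a, b, d⟩ | ⟨a, b, d⟩ <;> simp [a, b, d]
  rw [Finset.sum_congr rfl fun c _ ↦ hs c, Finset.sum_add_distrib, Finset.sum_add_distrib,
    ← sum_comp_rot fun c ↦ if IsOrbRep (rot (rot c)) then f c else 0,
    ← sum_comp_rot fun c ↦ if IsOrbRep (rot c) then f c else 0,
    ← sum_comp_rot fun c ↦ if IsOrbRep (rot (rot c)) then f (rot c) else 0]
  simp only [rot_rot_rot, ← Finset.sum_add_distrib]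
  refine Finset.sum_congr rfl fun c _ ↦ ?_
  split_ifs <;> simp

end Rep

section Edge

variable {k : Type*} [AddCommGroup k]

/-- The value of a symbol on an edge. -/
noncomputable def edgeVal (φ : Cusp × Cusp → k) (c : X0 M) : k :=
  φ (slQ c.out • ∞, slQ c.out • ((0 : ℚ) : Cusp))

variable {φ : Cusp × Cusp → k} (h : IsSymb (G0 M : Set G2) φ)
include h

theorem edgeVal_cmk (g : SL(2, ℤ)) :
    edgeVal φ (cmk (Gamma0 M) g) = φ (slQ g • ∞, slQ g • ((0 : ℚ) : Cusp)) := by
  have hm : g * (cmk (Gamma0 M) g).out⁻¹ ∈ Gamma0 M := cmk_eq_iff.mp (cmk_out _)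
  have := h.inv _ (slQ_mem_G0 ⟨_, hm⟩) (slQ (cmk (Gamma0 M) g).out • ∞,
    slQ (cmk (Gamma0 M) g).out • ((0 : ℚ) : Cusp))
  simp only [Prod.smul_mk, ← mul_smul, ← map_mul, inv_mul_cancel_right] at this
  exact this.symm

theorem edgeVal_rot_cmk (g : SL(2, ℤ)) :
    edgeVal φ (rot (cmk (Gamma0 M) g)) =
      φ (slQ g • ((0 : ℚ) : Cusp), slQ g • ((1 : ℚ) : Cusp)) := by
  rw [rot_cmk, edgeVal_cmk h, map_mul, mul_smul, mul_smul, slQ_triU_smul_infty,
    slQ_triU_smul_zero]

theorem edgeVal_rot_rot_cmk (g : SL(2, ℤ)) :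
    edgeVal φ (rot (rot (cmk (Gamma0 M) g))) =
      φ (slQ g • ((1 : ℚ) : Cusp), slQ g • ∞) := by
  rw [rot_cmk, edgeVal_rot_cmk h, map_mul, mul_smul, mul_smul, slQ_triU_smul_zero,
    slQ_triU_smul_one]

theorem edgeVal_sum (c : X0 M) :
    edgeVal φ c + edgeVal φ (rot c) + edgeVal φ (rot (rot c)) = 0 := by
  obtain ⟨g, rfl⟩ := cmk_surjective c
  rw [edgeVal_cmk h, edgeVal_rot_cmk h, edgeVal_rot_rot_cmk h, ← h.add, ← h.add, h.add.self_eq]

theorem edgeVal_eq_zero_of_fixed [IsAddTorsionFree k] {c : X0 M} (hc : rot c = c) :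
    edgeVal φ c = 0 := by
  have := edgeVal_sum h c
  rw [hc, hc] at this
  exact (nsmul_eq_zero_iff_right (by norm_num : (3 : ℕ) ≠ 0)).mp (by
    rw [succ_nsmul, two_nsmul]; exact this)

end Edge

section Triangle

variable {k : Type*}

/-- Functions of triples of cusps invariant under `Γ₀(M)`. -/
def IsInv3 (M : ℕ) (F : Cusp → Cusp → Cusp → k) : Prop :=
  ∀ g ∈ G0 M, ∀ x y z, F (g • x) (g • y) (g • z) = F x y z

/-- Evaluation at the translate of `(∞, 0, 1)`. -/
noncomputable def triVal (F : Cusp → Cusp → Cusp → k) (g : SL(2, ℤ)) : k :=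
  F (slQ g • ∞) (slQ g • ((0 : ℚ) : Cusp)) (slQ g • ((1 : ℚ) : Cusp))

theorem triVal_mul_triU (F : Cusp → Cusp → Cusp → k) (g : SL(2, ℤ)) :
    triVal F (g * triU) =
      F (slQ g • ((0 : ℚ) : Cusp)) (slQ g • ((1 : ℚ) : Cusp)) (slQ g • ∞) := by
  simp only [triVal, map_mul, mul_smul, slQ_triU_smul_infty, slQ_triU_smul_zero,
    slQ_triU_smul_one]

theorem IsInv3.triVal_out {F : Cusp → Cusp → Cusp → k} (hF : IsInv3 M F) (g : SL(2, ℤ)) :
    triVal F (cmk (Gamma0 M) g).out = triVal F g := by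
  have hm : g * (cmk (Gamma0 M) g).out⁻¹ ∈ Gamma0 M := cmk_eq_iff.mp (cmk_out _)
  have := hF _ (slQ_mem_G0 ⟨_, hm⟩) (slQ (cmk (Gamma0 M) g).out • ∞)
    (slQ (cmk (Gamma0 M) g).out • ((0 : ℚ) : Cusp))
    (slQ (cmk (Gamma0 M) g).out • ((1 : ℚ) : Cusp))
  simp only [← mul_smul, ← map_mul, inv_mul_cancel_right] at this
  exact this.symm

variable [NeZero M]

/-- The sum over the triangles modulo `Γ₀(M)` (each counted three times). -/
noncomputable def triSum [AddCommMonoid k] (M : ℕ) [NeZero M] (F : Cusp → Cusp → Cusp → k) : k :=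
  ∑ c : X0 M, triVal F c.out

/-- The coboundary of a function of pairs. -/
def dPair [Add k] (G : Cusp → Cusp → k) : Cusp → Cusp → Cusp → k :=
  fun x y z ↦ G x y + G y z + G z x

theorem triSum_dPair [AddCommGroup k] [IsAddTorsionFree k] {G : Cusp → Cusp → k}
    (hG : ∀ g ∈ G0 M, ∀ x y, G (g • x) (g • y) = G x y) (hanti : ∀ x y, G y x = -G x y) :
    triSum M (dPair G) = 0 := by
  set e : X0 M → k := fun c ↦ G (slQ c.out • ∞) (slQ c.out • ((0 : ℚ) : Cusp)) with he
  have hinv : IsInv3 M (fun x y _ ↦ G x y) := fun g hg x y _ ↦ hG g hg x y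
  have hcmk : ∀ g, e (cmk (Gamma0 M) g) = G (slQ g • ∞) (slQ g • ((0 : ℚ) : Cusp)) :=
    fun g ↦ hinv.triVal_out g
  have hsplit : ∀ c, triVal (dPair G) (Quotient.out c) = e c + e (rot c) + e (rot (rot c)) := by
    intro c
    obtain ⟨g, rfl⟩ := cmk_surjective c
    have hd : IsInv3 M (dPair G) := fun g hg x y z ↦ by simp [dPair, hG g hg]
    rw [hd.triVal_out, rot_cmk, rot_cmk, hcmk, hcmk, hcmk]
    simp only [triVal, dPair, map_mul, mul_smul, slQ_triU_smul_infty, slQ_triU_smul_zero,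
      slQ_triU_smul_one]
  have hrev : ∑ c, e (rev c) = -∑ c, e c := by
    rw [← Finset.sum_neg_distrib]
    refine Finset.sum_congr rfl fun c _ ↦ ?_
    obtain ⟨g, rfl⟩ := cmk_surjective c
    rw [rev_cmk, hcmk, hcmk, map_mul, mul_smul, mul_smul, slQ_edgeS_smul_infty,
      slQ_edgeS_smul_zero, hanti]
  rw [sum_comp_rev e, eq_neg_iff_add_eq_zero, ← two_nsmul,
    nsmul_eq_zero_iff_right (by norm_num)] at hrev
  rw [triSum, Finset.sum_congr rfl fun c _ ↦ hsplit c, Finset.sum_add_distrib,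
    Finset.sum_add_distrib, sum_comp_rot (fun c ↦ e (rot c)), sum_comp_rot e, hrev]
  simp

end Triangle

section Cup

variable {k : Type*} [CommRing k]

/-- The cup product of two symbols. -/
def cup (u v : Cusp × Cusp → k) : Cusp → Cusp → Cusp → k :=
  fun x y z ↦ u (x, y) * v (y, z) - v (x, y) * u (y, z)

theorem isInv3_cup {u v : Cusp × Cusp → k} (hu : IsSymb (G0 M : Set G2) u)
    (hv : IsSymb (G0 M : Set G2) v) : IsInv3 M (cup u v) := fun g hg x y z ↦ by
  have e1 : ∀ a b, u (g • a, g • b) = u (a, b) := fun a b ↦ hu.inv g hg (a, b)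
  have e2 : ∀ a b, v (g • a, g • b) = v (a, b) := fun a b ↦ hv.inv g hg (a, b)
  simp only [cup, e1, e2]

theorem cup_cycle {u v : Cusp × Cusp → k} (hu : IsAddSymb u) (hv : IsAddSymb v) (x y z : Cusp) :
    cup u v y z x = cup u v x y z := by
  simp only [cup, hu.swap x z, hv.swap x z, hu x y z, hv x y z]
  ring

theorem cup_swap {u v : Cusp × Cusp → k} (hu : IsAddSymb u) (hv : IsAddSymb v) (x y z : Cusp) :
    cup u v y x z = -cup u v x y z := by
  simp only [cup, hu.swap x y, hv.swap x y, hu x y z, hv x y z]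
  ring

theorem cup_cocycle {u v : Cusp × Cusp → k} (hu : IsAddSymb u) (hv : IsAddSymb v)
    (x y z w : Cusp) :
    cup u v y z w - cup u v x z w + cup u v x y w - cup u v x y z = 0 := by
  simp only [cup, hu x y z, hv x y z, hu y z w, hv y z w]
  ring

variable [NeZero M]

/-- Three times the pairing. -/
noncomputable def cupSum (M : ℕ) [NeZero M] (u v : Cusp × Cusp → k) : k := triSum M (cup u v)

/-- The cup product pairing of symbols. -/
noncomputable def cupPair (M : ℕ) [NeZero M] (u v : Cusp × Cusp → k) : k :=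
  ∑ c : X0 M, if IsOrbRep c then
    edgeVal u c * edgeVal v (rot c) - edgeVal v c * edgeVal u (rot c) else 0

omit [NeZero M] in
theorem triVal_cup {u v : Cusp × Cusp → k} (hu : IsSymb (G0 M : Set G2) u)
    (hv : IsSymb (G0 M : Set G2) v) (c : X0 M) : triVal (cup u v) c.out =
      edgeVal u c * edgeVal v (rot c) - edgeVal v c * edgeVal u (rot c) := by
  obtain ⟨g, rfl⟩ := cmk_surjective c
  rw [(isInv3_cup hu hv).triVal_out, edgeVal_cmk hu, edgeVal_cmk hv, edgeVal_rot_cmk hu,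
    edgeVal_rot_cmk hv]
  rfl

theorem cupSum_eq {u v : Cusp × Cusp → k} [IsAddTorsionFree k] (hu : IsSymb (G0 M : Set G2) u)
    (hv : IsSymb (G0 M : Set G2) v) : cupSum M u v = 3 * cupPair M u v := by
  rw [cupSum, triSum, sum_eq_sum_reps, cupPair, Finset.mul_sum]
  · refine Finset.sum_congr rfl fun c _ ↦ ?_
    split_ifs
    · rw [triVal_cup hu hv, triVal_cup hu hv, triVal_cup hu hv, rot_rot_rot]
      have a := edgeVal_sum hu c
      have b := edgeVal_sum hv c
      rw [eq_neg_of_add_eq_zero_right a, eq_neg_of_add_eq_zero_right b]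
      ring
    · simp
  · intro c hc
    rw [triVal_cup hu hv, edgeVal_eq_zero_of_fixed hu hc, edgeVal_eq_zero_of_fixed hv hc]
    ring

theorem cupSum_bdry {u v : Cusp × Cusp → k} [IsAddTorsionFree k]
    (hu : IsSymb (G0 M : Set G2) u) (hv : IsSymb (G0 M : Set G2) v) (h0 : periods hu = 0) :
    cupSum M u v = 0 := by
  set b : Cusp → k := fun x ↦ u (∞, x) with hb
  have hub : ∀ x y, u (x, y) = b y - b x := fun x y ↦ by simp [hb, hu.add ∞ x y]
  have hbinv : ∀ g ∈ G0 M, ∀ x, b (g • x) = b x := fun g hg x ↦ by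
    obtain ⟨γ, hγ, rfl⟩ := id hg
    have h1 : u (slQ γ • ∞, slQ γ • x) = u (∞, x) := hu.inv _ hg (∞, x)
    have h2 : u (∞, slQ γ • ∞) = 0 := by
      have := periods_apply hu ⟨γ, hγ⟩
      rw [h0, AddMonoidHom.zero_apply] at this
      exact this.symm
    simp only [hb]
    rw [hu.add ∞ (slQ γ • ∞) (slQ γ • x), h1, h2, zero_add]
  have hd : cup u v = dPair fun x y ↦ (b x + b y) * v (x, y) := by
    funext x y z
    simp only [cup, dPair, hub, hv.add.swap x z, hv.add x y z]
    ring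
  rw [cupSum, hd]
  refine triSum_dPair (fun g hg x y ↦ ?_) fun x y ↦ ?_
  · rw [hbinv g hg, hbinv g hg, show v (g • x, g • y) = v (x, y) from hv.inv g hg (x, y)]
  · rw [hv.add.swap x y]; ring

end Cup

end FermatAgent.Ihara
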